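import Fermat.Agent.CFT.Global.IdeleDict.DictContent

/-!
# Layer C, node C1c (dictionary), part 4: `J_K = Kˣ · J_{K,S}`

`GeneratesClassGroup K S`: every prime outside `S` is principal up to primes in `S`
(the working form of "the primes in `S` generate the class group").

* `exists_finite_generatesClassGroup`: there is a finite such `S`; `GeneratesClassGroup.mono`;
* **(v)** `exists_principal_div_mem_ideleOutside`: every idele is a principal idele times an element
  of `J_{K,S}`; `sup_eq_ideleGroup`: `Kˣ · J_{K,S} = J_K` for finite generating `S`.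
-/

set_option autoImplicit false
set_option linter.unusedSectionVars false

open scoped NumberField

noncomputable section

namespace Fermat.Agent.CFT.IdeleDict

open NumberField IsDedekindDomain Fermat.Agent.CFT Fermat.Agent.CFT.SUnits

variable (K : Type) [Field K] [NumberField K]

/-- Every prime outside `S` is principal up to primes in `S`: there is `y ∈ Kˣ` of order `1` at
`P` and `0` at all other primes outside `S`. -/
def GeneratesClassGroup (S : Set (HeightOneSpectrum (𝓞 K))) : Prop :=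
  ∀ P : HeightOneSpectrum (𝓞 K), P ∉ S →
    ∃ y : Kˣ, ordAt P y = 1 ∧ ∀ Q : HeightOneSpectrum (𝓞 K), Q ∉ S → Q ≠ P → ordAt Q y = 0

variable {K}

theorem GeneratesClassGroup.mono {S S' : Set (HeightOneSpectrum (𝓞 K))}
    (hS : GeneratesClassGroup K S) (h : S ⊆ S') : GeneratesClassGroup K S' := by
  intro P hP
  obtain ⟨y, hy1, hy2⟩ := hS P (fun hPS => hP (h hPS))
  exact ⟨y, hy1, fun Q hQ hQP => hy2 Q (fun hQS => hQ (h hQS)) hQP⟩

/-- For a nonzero integer `a` of `K`: `n ≤ ord_Q a ↔ Q ^ n ∣ (a)`. -/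
theorem natCast_le_ordAt_iff (Q : HeightOneSpectrum (𝓞 K)) {a : 𝓞 K} (ha : (a : K) ≠ 0) (n : ℕ) :
    (n : ℤ) ≤ ordAt Q (Units.mk0 (a : K) ha) ↔ Q.asIdeal ^ n ∣ Ideal.span {a} := by
  rw [← HeightOneSpectrum.intValuation_le_pow_iff_dvd,
    ← HeightOneSpectrum.valuation_of_algebraMap (K := K)]
  have h := valuation_eq_exp_neg_ordAt Q (Units.mk0 (a : K) ha)
  rw [Units.val_mk0] at h
  have h' : Q.valuation K (algebraMap (𝓞 K) K a) =
      WithZero.exp (-ordAt Q (Units.mk0 (a : K) ha)) := h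
  rw [h', WithZero.exp_le_exp]
  omega

/-- **Existence of a finite generating set of primes** (finiteness of the class group). -/
theorem exists_finite_generatesClassGroup :
    ∃ S : Set (HeightOneSpectrum (𝓞 K)), S.Finite ∧ GeneratesClassGroup K S := by
  classical
  choose I hI using fun c : ClassGroup (𝓞 K) => ClassGroup.mk0_surjective c
  refine ⟨⋃ c : ClassGroup (𝓞 K), {v : HeightOneSpectrum (𝓞 K) | v.asIdeal ∣ (I c : Ideal (𝓞 K))},
    Set.finite_iUnion fun c => Ideal.finite_factors (nonZeroDivisors.ne_zero (I c).2), ?_⟩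
  intro P hP
  simp only [Set.mem_iUnion, Set.mem_ofPred_eq, not_exists] at hP
  -- the class of `P`
  have hPmem : P.asIdeal ∈ nonZeroDivisors (Ideal (𝓞 K)) :=
    mem_nonZeroDivisors_of_ne_zero P.ne_bot
  set c := (ClassGroup.mk0 ⟨P.asIdeal, hPmem⟩)⁻¹ with hc
  set J : nonZeroDivisors (Ideal (𝓞 K)) := ⟨P.asIdeal, hPmem⟩ * I c with hJ
  have hJ1 : ClassGroup.mk0 J = 1 := by
    rw [hJ, map_mul, hI c, hc, mul_inv_cancel]
  have hJp : (J : Ideal (𝓞 K)).IsPrincipal := by
    have := (ClassGroup.mk0_eq_one_iff (I := (J : Ideal (𝓞 K))) J.2).mp (by simpa using hJ1)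
    exact this
  obtain ⟨a, ha⟩ := hJp.principal
  have hJcoe : (J : Ideal (𝓞 K)) = P.asIdeal * (I c : Ideal (𝓞 K)) := rfl
  have hspan : Ideal.span {a} = P.asIdeal * (I c : Ideal (𝓞 K)) := by
    rw [← hJcoe, ha]
  have ha0 : a ≠ 0 := by
    rintro rfl
    have h0 : (J : Ideal (𝓞 K)) = ⊥ := by rw [ha]; simp
    exact nonZeroDivisors.ne_zero J.2 h0
  have haK : (a : K) ≠ 0 := by
    rw [RingOfIntegers.coe_eq_algebraMap]
    exact (map_ne_zero_iff _ (IsFractionRing.injective (𝓞 K) K)).mpr ha0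
  have hPprime : Prime P.asIdeal := Ideal.prime_of_isPrime P.ne_bot P.isPrime
  have hPI : ¬ P.asIdeal ∣ (I c : Ideal (𝓞 K)) := hP c
  refine ⟨Units.mk0 (a : K) haK, ?_, ?_⟩
  · -- order one at `P`
    have h1 : (1 : ℤ) ≤ ordAt P (Units.mk0 (a : K) haK) := by
      have := (natCast_le_ordAt_iff P haK 1).mpr (by rw [pow_one, hspan]; exact Dvd.intro _ rfl)
      simpa using this
    have h2 : ¬ (2 : ℤ) ≤ ordAt P (Units.mk0 (a : K) haK) := by
      intro h
      have h' := (natCast_le_ordAt_iff P haK 2).mp (by simpa using h)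
      rw [hspan, pow_two] at h'
      exact hPI ((mul_dvd_mul_iff_left hPprime.ne_zero).mp h')
    omega
  · intro Q hQ hQP
    simp only [Set.mem_iUnion, Set.mem_ofPred_eq, not_exists] at hQ
    have hQprime : Prime Q.asIdeal := Ideal.prime_of_isPrime Q.ne_bot Q.isPrime
    have h0 : (0 : ℤ) ≤ ordAt Q (Units.mk0 (a : K) haK) := by
      have := (natCast_le_ordAt_iff Q haK 0).mpr (by rw [pow_zero]; exact one_dvd _)
      simpa using this
    have h1 : ¬ (1 : ℤ) ≤ ordAt Q (Units.mk0 (a : K) haK) := by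
      intro h
      have h' := (natCast_le_ordAt_iff Q haK 1).mp (by simpa using h)
      rw [hspan, pow_one] at h'
      rcases hQprime.dvd_or_dvd h' with h'' | h''
      · have hle : P.asIdeal ≤ Q.asIdeal := Ideal.dvd_iff_le.mp h''
        have : P.asIdeal = Q.asIdeal := P.isMaximal.eq_of_le Q.isPrime.ne_top hle
        exact hQP (HeightOneSpectrum.ext this.symm)
      · exact hQ c h''
    omega

/-- **(v)** If `S` generates the class group, every idele is a principal idele times an idele which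
is a unit outside `S`. -/
theorem exists_principal_div_mem_ideleOutside {S : Set (HeightOneSpectrum (𝓞 K))}
    (hS : GeneratesClassGroup K S) {x : IdeleProd K} (hx : x ∈ ideleGroup K) :
    ∃ y : Kˣ, x / principalIdele K y ∈ ideleOutside K S := by
  classical
  choose g hg1 hg2 using hS
  let g' : HeightOneSpectrum (𝓞 K) → Kˣ := fun P => if h : P ∉ S then g P h else 1
  have hg'1 : ∀ P, P ∉ S → ordAt P (g' P) = 1 := by
    intro P hP
    simp only [g', dif_pos hP]
    exact hg1 P hP
  have hg'2 : ∀ P, P ∉ S → ∀ Q, Q ∉ S → Q ≠ P → ordAt Q (g' P) = 0 := by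
    intro P hP Q hQ hQP
    simp only [g', dif_pos hP]
    exact hg2 P hP Q hQ hQP
  set B : Finset (HeightOneSpectrum (𝓞 K)) :=
    (finite_setOf_ideleOrd_ne_zero hx).toFinset.filter (fun P => P ∉ S) with hB
  have hBmem : ∀ P, P ∈ B ↔ ideleOrd x P ≠ 0 ∧ P ∉ S := by
    intro P
    rw [hB, Finset.mem_filter, Set.Finite.mem_toFinset]
    exact Iff.rfl
  refine ⟨∏ P ∈ B, g' P ^ (ideleOrd x P), ?_⟩
  intro Q hQ
  rw [ideleOrd_div, ideleOrd_principal, ordAt_prod, sub_eq_zero]
  by_cases hQB : Q ∈ B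
  · rw [Finset.sum_eq_single_of_mem Q hQB]
    · rw [ordAt_zpow, hg'1 Q hQ, mul_one]
    · intro P hPB hPQ
      rw [ordAt_zpow, hg'2 P ((hBmem P).mp hPB).2 Q hQ (Ne.symm hPQ), mul_zero]
  · have h0 : ideleOrd x Q = 0 := by
      by_contra hne
      exact hQB ((hBmem Q).mpr ⟨hne, hQ⟩)
    rw [h0]
    symm
    apply Finset.sum_eq_zero
    intro P hPB
    have hPQ : Q ≠ P := fun h => hQB (h ▸ hPB)
    rw [ordAt_zpow, hg'2 P ((hBmem P).mp hPB).2 Q hQ hPQ, mul_zero]

theorem ideleGroup_le_sup {S : Set (HeightOneSpectrum (𝓞 K))} (hS : GeneratesClassGroup K S) :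
    ideleGroup K ≤ (principalIdele K).range ⊔ ideleOutside K S := by
  intro x hx
  obtain ⟨y, hy⟩ := exists_principal_div_mem_ideleOutside hS hx
  rw [Subgroup.mem_sup]
  exact ⟨principalIdele K y, ⟨y, rfl⟩, x / principalIdele K y, hy, mul_div_cancel _ _⟩

/-- **(v)** `Kˣ · J_{K,S} = J_K` for a finite set `S` of primes generating the class group. -/
theorem sup_eq_ideleGroup {S : Set (HeightOneSpectrum (𝓞 K))} (hS : GeneratesClassGroup K S)
    (hfin : S.Finite) : (principalIdele K).range ⊔ ideleOutside K S = ideleGroup K := by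
  apply le_antisymm
  · rw [sup_le_iff]
    refine ⟨?_, ideleOutside_le_ideleGroup hfin⟩
    rintro _ ⟨y, rfl⟩
    exact principalIdele_mem_ideleGroup y
  · exact ideleGroup_le_sup hS

end Fermat.Agent.CFT.IdeleDict
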