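import Fermat.Agent.CFT.Global.IdeleDict.DictApprox
import Fermat.Agent.CFT.Global.IdeleSeq

/-!
# C1c IdeleDict, adapters: the dictionary facts in the exact shapes used by the consumers

* `principalIsIdele K : PrincipalIsIdele K` (helper6's predicate of `Global/IdeleSeq.lean`);
* `weakApprox_forall K`: weak approximation in the bare `∀ S x ε` shape used by the first
  inequality node (the body of its predicate `WeakApprox K`);
* `principalIdele_injective'`: injectivity of `principalIdele K` with `K` explicit.
-/

namespace Fermat.Agent.CFT.IdeleDict

open Fermat.Agent.CFT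

variable (K : Type) [Field K] [NumberField K]

/-- Principal ideles are ideles, as an inhabitant of the predicate `PrincipalIsIdele K`. -/
theorem principalIsIdele : PrincipalIsIdele K :=
  fun x => principalIdele_mem_ideleGroup x

/-- Injectivity of the principal idele map, explicit field argument. -/
theorem principalIdele_injective' : Function.Injective (principalIdele K) :=
  principalIdele_injective

/-- Weak approximation, in the bare `∀ S x ε` shape. -/
theorem weakApprox_forall :
    ∀ (S : Finset Nat.Primes) (x : IdeleProd K) (ε : ℝ), 0 < ε →
      ∃ a : Kˣ, ∀ q ∈ S, ∀ τ : LocalEmb (q : ℕ) K,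
        ‖τ (a : K) / ((x q : LocalEmb (q : ℕ) K → (PadicAlgCl (q : ℕ))ˣ) τ :
          PadicAlgCl (q : ℕ)) - 1‖ < ε :=
  fun S x _ hε => exists_unit_norm_div_sub_one_lt S x hε

end Fermat.Agent.CFT.IdeleDict
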