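import Fermat.Agent.CFT.Global.IdeleDict.SecondIneqIdele
import Fermat.Agent.CFT.Global.SemiLocalIntegralCor

/-!
# Unit ideles at unramified primes are norms (gluing), and the second inequality from `IsUnramAt`

* `unitIdeles_mem_ideleNormSubgroup`: if the local hypotheses `IsUnramAt` (helper11,
  `SemiLocalIntegral.lean`) hold at all places over the rational primes `q ∉ T`, then every unit
  idele of `K` trivial at `T` is a norm from `L`;
* `index_principal_sup_ideleNorm_le_of_isUnramAt`: the second inequality for a Galois extension of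
  prime degree from these local hypotheses.
-/

set_option autoImplicit false
set_option linter.unusedSectionVars false

open scoped NumberField

noncomputable section

namespace Fermat.Agent.CFT.IdeleDict

open NumberField IsDedekindDomain Fermat.Agent.CFT Fermat.Agent.CFT.FirstIneq

variable {K L : Type} [Field K] [NumberField K] [Field L] [NumberField L] [Algebra K L]
  [IsGalois K L]

/-- Unit ideles trivial at `T` are norms when the places over `q ∉ T` satisfy `IsUnramAt`. -/
theorem unitIdeles_mem_ideleNormSubgroup (T : Finset Nat.Primes)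
    (hunr : ∀ q : Nat.Primes, q ∉ T → ∀ ω : LocalPlace (q : ℕ) K,
      IsUnramAt K (placeLift K ω : LocalEmb (q : ℕ) L))
    (x : ideleGroup K) (hx : (x : IdeleProd K) ∈ unitIdelesOutside K (T : Set Nat.Primes)) :
    x ∈ ideleNormSubgroup K L := by
  classical
  have hloc : ∀ q : Nat.Primes, ∃ g : semiLocalUnits (q : ℕ) L, g ∈ semiLocalIntegral (q : ℕ) L ∧
      semiLocalMap (algebraMap K L) ((x : IdeleProd K) q) = ∏ σ : L ≃ₐ[K] L, σ • g := by
    intro q
    by_cases hq : q ∈ T
    · refine ⟨1, one_mem _, ?_⟩
      rw [hx.2 q hq, map_one]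
      simp
    · obtain ⟨g, hg, h⟩ := semiLocalIntegral_exists_norm_eq K (L := L) (hunr q hq)
        ((x : IdeleProd K) q) (hx.1 q hq)
      exact ⟨g, hg, h⟩
  choose g hg hgx using hloc
  have hmem : (fun q => g q : IdeleProd L) ∈ ideleGroup L := by
    rw [mem_ideleGroup]
    exact Filter.Eventually.of_forall fun q => hg q
  refine mem_ideleNormSubgroup.2 ⟨⟨fun q => g q, hmem⟩, ?_⟩
  apply Subtype.ext
  funext q
  rw [ideleMap_coe, ideleProdMap_apply, hgx q]
  have h1 : ((∏ σ : L ≃ₐ[K] L, σ • (⟨fun q => g q, hmem⟩ : ideleGroup L) : ideleGroup L) :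
      IdeleProd L) q = ∏ σ : L ≃ₐ[K] L, ((σ • (⟨fun q => g q, hmem⟩ : ideleGroup L) :
        ideleGroup L) : IdeleProd L) q := by
    rw [Subgroup.val_finsetProd, Finset.prod_apply]
  rw [h1]
  rfl

/-- **Second inequality, idelic form, from the local unramified hypotheses.** -/
theorem index_principal_sup_ideleNorm_le_of_isUnramAt {p : ℕ} [Fact p.Prime]
    (hdeg : Module.finrank K L = p) (T : Finset Nat.Primes)
    (hunr : ∀ q : Nat.Primes, q ∉ T → ∀ ω : LocalPlace (q : ℕ) K,
      IsUnramAt K (placeLift K ω : LocalEmb (q : ℕ) L)) :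
    (principalSubgroup K ⊔ ideleNormSubgroup K L).index ≠ 0 ∧
      (principalSubgroup K ⊔ ideleNormSubgroup K L).index ≤ p :=
  index_principal_sup_ideleNorm_le hdeg T (unitIdeles_mem_ideleNormSubgroup T hunr)

end Fermat.Agent.CFT.IdeleDict
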