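import Fermat.Agent.CFT.Global.IdeleDict.UnramBridge
import Fermat.Agent.CFT.Global.IdeleDict.UnitIdelesNorm

/-!
# Almost all primes are unramified: `IsUnramAt` outside a finite set, and the unconditional
second inequality in idelic form

* `exists_norm_eq_zpow_of_ramIdx_eq_one`: if the prime of `τ'` is unramified over `q`, the value
  group of `L_τ'` is `q^ℤ`;
* `finite_setOf_ramIdx_ne_one`: only finitely many rational primes ramify in a number field (the
  ramified primes divide the different);
* `exists_finset_isUnramAt`: `IsUnramAt K τ'` for all `τ' : L → ℚ̄_q`, `q` outside a finite set;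
* `index_principal_sup_ideleNorm_le_prime`: **the second inequality** `[J_K : Kˣ N J_L] ≤ p` for a
  Galois extension `L/K` of number fields of prime degree `p`, unconditionally.
-/

set_option autoImplicit false
set_option linter.unusedSectionVars false

open scoped NumberField

noncomputable section

namespace Fermat.Agent.CFT.IdeleDict

open NumberField IsDedekindDomain Fermat.Agent.CFT Fermat.Agent.CFT.FirstIneq

section Ram

variable {L : Type} [Field L] [NumberField L]

/-- If the prime of `τ'` is unramified over `q`, the value group of `L_τ'` is `q^ℤ`. -/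
theorem exists_norm_eq_zpow_of_ramIdx_eq_one {q : ℕ} [Fact q.Prime] (τ' : LocalEmb q L)
    (h : ramIdx τ' = 1) (y : PadicAlgCl q) (hy : y ∈ localFieldAt τ') (hy0 : y ≠ 0) :
    ∃ n : ℤ, ‖y‖ = ((q : ℝ)⁻¹) ^ n := by
  obtain ⟨x, -, hx⟩ := exists_unit_norm_emb_eq τ' hy hy0
  refine ⟨ordAt (primeOfH τ') x, ?_⟩
  have h1 := norm_emb_zpow_ramIdx τ' x
  rw [h, zpow_one] at h1
  rw [← hx, h1]

/-- A ramified prime divides the different. -/
theorem dvd_differentIdeal_of_ramIdx_ne_one {q : ℕ} [hq : Fact q.Prime] (τ' : LocalEmb q L)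
    (h : ramIdx τ' ≠ 1) : (primeOfH τ').asIdeal ∣ differentIdeal ℤ (𝓞 L) := by
  have hpos := ramIdx_pos τ'
  have h2 : (2 : ℤ) ≤ ramIdx τ' := by omega
  have ha : (((q : ℕ) : 𝓞 L) : L) ≠ 0 := by
    rw [coe_natCast_ringOfIntegers]
    exact_mod_cast hq.out.ne_zero
  have heq : Units.mk0 (((q : ℕ) : 𝓞 L) : L) ha = primeUnit q L := Units.ext rfl
  have h3 : ((2 : ℕ) : ℤ) ≤ ordAt (primeOfH τ') (Units.mk0 (((q : ℕ) : 𝓞 L) : L) ha) := by
    rw [heq]
    exact h2
  rw [natCast_le_ordAt_iff] at h3
  have hmax : (Ideal.span {(q : ℤ)}).IsMaximal :=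
    PrincipalIdealRing.isMaximal_of_irreducible (Nat.prime_iff_prime_int.mp hq.out).irreducible
  have hmap : (Ideal.span {(q : ℤ)}).map (algebraMap ℤ (𝓞 L)) = Ideal.span {((q : ℕ) : 𝓞 L)} := by
    rw [Ideal.map_span, Set.image_singleton]
    simp
  have := pow_sub_one_dvd_differentIdeal ℤ (p := Ideal.span {(q : ℤ)}) (primeOfH τ').asIdeal 2
    (by rw [Ne, Ideal.span_singleton_eq_bot]; exact_mod_cast hq.out.ne_zero)
    (by rw [hmap]; exact h3)
  simpa using this

/-- Only finitely many rational primes ramify in `L`. -/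
theorem finite_setOf_ramIdx_ne_one :
    {q : Nat.Primes | ∃ τ' : LocalEmb (q : ℕ) L, ramIdx τ' ≠ 1}.Finite := by
  have hD : differentIdeal ℤ (𝓞 L) ≠ 0 := differentIdeal_ne_bot
  have hF := Ideal.finite_factors hD
  have hsub : {q : Nat.Primes | ∃ τ' : LocalEmb (q : ℕ) L, ramIdx τ' ≠ 1} ⊆
      ⋃ w ∈ {w : HeightOneSpectrum (𝓞 L) | w.asIdeal ∣ differentIdeal ℤ (𝓞 L)},
        {q : Nat.Primes | ((q : ℕ) : 𝓞 L) ∈ w.asIdeal} := by
    rintro q ⟨τ', hτ'⟩
    simp only [Set.mem_iUnion]
    exact ⟨primeOfH τ', dvd_differentIdeal_of_ramIdx_ne_one τ' hτ', natCast_mem_primeOf τ'⟩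
  refine (hF.biUnion fun w _ => ?_).subset hsub
  exact Set.Subsingleton.finite fun q hq q' hq' => prime_unique w hq hq'

end Ram

section Main

variable (K : Type) [Field K] (L : Type) [Field L] [NumberField L] [Algebra K L] [Normal K L]

/-- **Almost all primes are unramified**: outside a finite set of rational primes the local
hypotheses `IsUnramAt` hold at every embedding of `L`. -/
theorem exists_finset_isUnramAt :
    ∃ T : Finset Nat.Primes, ∀ q : Nat.Primes, q ∉ T → ∀ τ' : LocalEmb (q : ℕ) L,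
      IsUnramAt K τ' := by
  refine ⟨(finite_setOf_ramIdx_ne_one (L := L)).toFinset, fun q hq τ' => ?_⟩
  rw [Set.Finite.mem_toFinset, Set.mem_ofPred_eq] at hq
  push Not at hq
  exact isUnramAt_of_valueGroup K τ' (exists_norm_eq_zpow_of_ramIdx_eq_one τ' (hq τ'))

end Main

/-- **The second inequality, idelic form**: for a Galois extension `L/K` of number fields of
prime degree `p`, the subgroup `Kˣ · N_{L/K} J_L` has finite index `≤ p` in `J_K`. -/
theorem index_principal_sup_ideleNorm_le_prime {K L : Type} [Field K] [NumberField K] [Field L]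
    [NumberField L] [Algebra K L] [IsGalois K L] {p : ℕ} [Fact p.Prime]
    (hdeg : Module.finrank K L = p) :
    (principalSubgroup K ⊔ ideleNormSubgroup K L).index ≠ 0 ∧
      (principalSubgroup K ⊔ ideleNormSubgroup K L).index ≤ p := by
  obtain ⟨T, hT⟩ := exists_finset_isUnramAt K L
  exact index_principal_sup_ideleNorm_le_of_isUnramAt hdeg T fun q hq ω => hT q hq _

end Fermat.Agent.CFT.IdeleDict
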