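import Fermat.Agent.CFT.Global.IdeleDict.DictUnramSet

/-!
# `IsUnramAt` for almost all primes, in the shapes used by the consumers

* `eventually_isUnramAt K L`: the `Filter.cofinite` form used by `FirstIneqFinal.lean`;
* `eventually_isUnramAt_all K L`: same, for all embeddings of `L`.
-/

set_option autoImplicit false

open scoped NumberField

noncomputable section

namespace Fermat.Agent.CFT.IdeleDict

open NumberField IsDedekindDomain Fermat.Agent.CFT

variable (K : Type) [Field K] (L : Type) [Field L] [NumberField L] [Algebra K L] [Normal K L]

/-- For almost all `q`, `IsUnramAt K τ'` holds at every embedding `τ'` of `L`. -/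
theorem eventually_isUnramAt_all :
    ∀ᶠ q : Nat.Primes in Filter.cofinite, ∀ τ' : LocalEmb (q : ℕ) L, IsUnramAt K τ' := by
  rw [Filter.eventually_cofinite]
  refine (ramifiedPrimes L).finite_toSet.subset fun q hq => ?_
  by_contra hqT
  exact hq fun τ' => isUnramAt_of_notMem_ramifiedPrimes K hqT τ'

/-- For almost all `q`, `IsUnramAt K (placeLift K ω)` holds at every place `ω` of `K` over `q`
(the hypothesis `hunr` of the first inequality). -/
theorem eventually_isUnramAt :
    ∀ᶠ q : Nat.Primes in Filter.cofinite,
      ∀ ω : LocalPlace (q : ℕ) K, IsUnramAt K (placeLift K ω : LocalEmb (q : ℕ) L) := by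
  filter_upwards [eventually_isUnramAt_all K L] with q hq ω
  exact hq _

end Fermat.Agent.CFT.IdeleDict
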