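import Fermat.Agent.CFT.Global.IdeleDict.DictVal

/-!
# Layer C, node C1c (dictionary), part 3: principal ideles, global orders, `S`-ideles

* **(iii)** principal ideles are ideles (`principalIdele_mem_ideleGroup`), `principalIdele` is
  injective;
* every prime of `𝓞 K` lies over a unique rational prime and comes from an embedding
  (`exists_emb`);
* `ideleOrd x P : ℤ`, the order of `x : IdeleProd K` at a prime `P` of `𝓞 K`; for an idele only
  finitely many orders are nonzero;
* `ideleOutside K S` (`S` a set of primes of `𝓞 K`): the ideles that are units outside `S`;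
  `principalIdele K y ∈ ideleOutside K S ↔ y ∈ S.unit K`.
-/

set_option autoImplicit false
set_option linter.unusedSectionVars false

open scoped NumberField

noncomputable section

namespace Fermat.Agent.CFT.IdeleDict

open NumberField IsDedekindDomain Fermat.Agent.CFT Fermat.Agent.CFT.SUnits

section Principal

variable {K : Type} [Field K] [NumberField K]

/-- If `q ∤ N(a)` then `a` is a unit at all places above `q`. -/
theorem norm_emb_eq_one_of_not_dvd_norm {q : ℕ} [Fact q.Prime] {a : 𝓞 K}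
    (hq : ¬ (q : ℤ) ∣ Algebra.norm ℤ a) (τ : LocalEmb q K) : ‖τ (a : K)‖ = 1 := by
  classical
  have := Fintype.ofFinite (LocalEmb q K)
  have hprod := norm_algebraNorm_eq_prod (q := q) (a : K)
  rw [← Algebra.coe_norm_int] at hprod
  have hcast : (((Algebra.norm ℤ a : ℤ) : ℚ) : ℚ_[q]) = ((Algebra.norm ℤ a : ℤ) : ℚ_[q]) := by
    push_cast; rfl
  rw [hcast] at hprod
  have h1 : ‖((Algebra.norm ℤ a : ℤ) : ℚ_[q])‖ = 1 := by
    refine le_antisymm (Padic.norm_int_le_one _) (not_lt.mp fun hlt => ?_)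
    exact hq (Padic.norm_intCast_lt_one_iff.mp hlt)
  by_contra hne
  have hlt : ‖τ (a : K)‖ < 1 := lt_of_le_of_ne (norm_emb_le_one τ a) hne
  have hle : ∏ σ : LocalEmb q K, ‖σ (a : K)‖ ≤ ‖τ (a : K)‖ := by
    rw [← Finset.mul_prod_erase Finset.univ _ (Finset.mem_univ τ)]
    calc ‖τ (a : K)‖ * ∏ σ ∈ Finset.univ.erase τ, ‖σ (a : K)‖ ≤ ‖τ (a : K)‖ * 1 := by
          apply mul_le_mul_of_nonneg_left _ (norm_nonneg _)
          exact Finset.prod_le_one (fun σ _ => norm_nonneg _) (fun σ _ => norm_emb_le_one σ a)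
      _ = ‖τ (a : K)‖ := mul_one _
  rw [← hprod, h1] at hle
  exact absurd hle (not_le.mpr hlt)

theorem finite_setOf_primes_dvd {n : ℤ} (hn : n ≠ 0) :
    {q : Nat.Primes | ((q : ℕ) : ℤ) ∣ n}.Finite := by
  have h : {q : Nat.Primes | ((q : ℕ) : ℤ) ∣ n} ⊆
      (fun q : Nat.Primes => (q : ℕ)) ⁻¹' (n.natAbs.divisors : Set ℕ) := by
    intro q hq
    simp only [Set.mem_preimage, Finset.mem_coe, Nat.mem_divisors]
    exact ⟨Int.natCast_dvd.mp hq, Int.natAbs_ne_zero.mpr hn⟩
  exact (Set.Finite.preimage (Subtype.val_injective.injOn) (Finset.finite_toSet _)).subset h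

/-- **(iii)** Principal ideles are ideles. -/
theorem principalIdele_mem_ideleGroup (x : Kˣ) : principalIdele K x ∈ ideleGroup K := by
  rw [mem_ideleGroup_iff_finite]
  obtain ⟨a, b, hb, hab⟩ := IsFractionRing.div_surjective (𝓞 K) (x : K)
  have hb0 : b ≠ 0 := nonZeroDivisors.ne_zero hb
  have ha0 : a ≠ 0 := by
    rintro rfl
    rw [map_zero, zero_div] at hab
    exact x.ne_zero hab.symm
  have hNa : Algebra.norm ℤ a ≠ 0 := Algebra.norm_ne_zero_iff.mpr ha0
  have hNb : Algebra.norm ℤ b ≠ 0 := Algebra.norm_ne_zero_iff.mpr hb0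
  refine (finite_setOf_primes_dvd (mul_ne_zero hNa hNb)).subset fun q hq => ?_
  by_contra hndvd
  apply hq
  have hqa : ¬ ((q : ℕ) : ℤ) ∣ Algebra.norm ℤ a := fun h => hndvd (Dvd.dvd.mul_right h _)
  have hqb : ¬ ((q : ℕ) : ℤ) ∣ Algebra.norm ℤ b := fun h => hndvd (Dvd.dvd.mul_left h _)
  rw [principalIdele_apply, mem_semiLocalIntegral]
  intro τ
  rw [semiLocalDiag_apply, ← hab, map_div₀, norm_div]
  have h1 := norm_emb_eq_one_of_not_dvd_norm hqa τ
  have h2 := norm_emb_eq_one_of_not_dvd_norm hqb τ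
  rw [RingOfIntegers.coe_eq_algebraMap] at h1 h2
  rw [h1, h2, div_one]

theorem principalIdele_injective : Function.Injective (principalIdele K) := by
  rw [injective_iff_map_eq_one]
  intro x hx
  let q₂ : Nat.Primes := ⟨2, Nat.prime_two⟩
  obtain ⟨τ⟩ := localEmb_nonempty (q₂ : ℕ) K
  have h : (semiLocalDiag x : semiLocalUnits (q₂ : ℕ) K) = 1 := congrFun hx q₂
  have h' := congrArg (fun f : semiLocalUnits (q₂ : ℕ) K =>
    ((f : LocalEmb (q₂ : ℕ) K → (PadicAlgCl (q₂ : ℕ))ˣ) τ : PadicAlgCl (q₂ : ℕ))) h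
  have h1 : τ (x : K) = 1 := h'
  apply Units.ext
  apply τ.injective
  rw [h1]
  exact (map_one τ).symm

end Principal

section GlobalOrd

variable {K : Type} [Field K] [NumberField K]

theorem exists_prime_mem_of_natCast_mem (P : HeightOneSpectrum (𝓞 K)) :
    ∀ n : ℕ, 0 < n → ((n : ℕ) : 𝓞 K) ∈ P.asIdeal → ∃ q : Nat.Primes, ((q : ℕ) : 𝓞 K) ∈ P.asIdeal := by
  intro n
  induction n using Nat.strong_induction_on with
  | _ n ih =>
    intro hn hmem
    have hn1 : n ≠ 1 := by
      rintro rfl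
      rw [Nat.cast_one] at hmem
      exact P.isPrime.ne_top ((Ideal.eq_top_iff_one _).mpr hmem)
    have hp : (Nat.minFac n).Prime := Nat.minFac_prime hn1
    obtain ⟨m, hm⟩ := Nat.minFac_dvd n
    have hm0 : 0 < m := by
      rcases Nat.eq_zero_or_pos m with h | h
      · rw [h, mul_zero] at hm; omega
      · exact h
    have hmn : m < n := by
      have h2 := hp.two_le
      nlinarith
    rw [hm, Nat.cast_mul] at hmem
    rcases P.isPrime.mem_or_mem hmem with h | h
    · exact ⟨⟨Nat.minFac n, hp⟩, h⟩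
    · exact ih m hmn hm0 h

/-- Every prime of `𝓞 K` contains a rational prime. -/
theorem exists_prime_mem (P : HeightOneSpectrum (𝓞 K)) :
    ∃ q : Nat.Primes, ((q : ℕ) : 𝓞 K) ∈ P.asIdeal := by
  have h0 : Ideal.absNorm P.asIdeal ≠ 0 := by
    rw [Ne, Ideal.absNorm_eq_zero_iff]
    exact P.ne_bot
  exact exists_prime_mem_of_natCast_mem P _ (Nat.pos_of_ne_zero h0) (Ideal.absNorm_mem _)

/-- The rational prime below a prime of `𝓞 K` is unique. -/
theorem prime_unique (P : HeightOneSpectrum (𝓞 K)) {q q' : Nat.Primes}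
    (h : ((q : ℕ) : 𝓞 K) ∈ P.asIdeal) (h' : ((q' : ℕ) : 𝓞 K) ∈ P.asIdeal) : q = q' := by
  by_contra hne
  have hne' : (q : ℕ) ≠ (q' : ℕ) := fun h => hne (Subtype.ext h)
  have hcop : Nat.Coprime (q : ℕ) (q' : ℕ) := (Nat.coprime_primes q.2 q'.2).mpr hne'
  have hint : IsCoprime ((q : ℕ) : ℤ) ((q' : ℕ) : ℤ) := Nat.isCoprime_iff_coprime.mpr hcop
  obtain ⟨a, b, hab⟩ := hint
  have h1 : ((a * ((q : ℕ) : ℤ) + b * ((q' : ℕ) : ℤ) : ℤ) : 𝓞 K) ∈ P.asIdeal := by
    push_cast
    exact P.asIdeal.add_mem (P.asIdeal.mul_mem_left _ h) (P.asIdeal.mul_mem_left _ h')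
  rw [hab] at h1
  exact P.isPrime.ne_top ((Ideal.eq_top_iff_one _).mpr (by simpa using h1))

/-- Every prime of `𝓞 K` is the prime of an embedding `K → ℚ̄_q` for some rational prime `q`. -/
theorem exists_emb (P : HeightOneSpectrum (𝓞 K)) :
    ∃ (q : Nat.Primes) (τ : LocalEmb (q : ℕ) K), primeOfH τ = P := by
  obtain ⟨q, hq⟩ := exists_prime_mem P
  have := P.isPrime
  obtain ⟨τ, hτ⟩ := exists_primeOf_eq (q := (q : ℕ)) P.asIdeal hq
  exact ⟨q, τ, HeightOneSpectrum.ext hτ⟩

theorem prime_eq_of_primeOfH_eq {q q' : Nat.Primes} (τ : LocalEmb (q : ℕ) K)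
    (τ' : LocalEmb (q' : ℕ) K) (h : primeOfH τ = primeOfH τ') : q = q' := by
  apply prime_unique (primeOfH τ)
  · exact natCast_mem_primeOf τ
  · rw [h]; exact natCast_mem_primeOf τ'

/-- The order of a family of semi-local units at an embedding depends only on the prime. -/
theorem semiLocalOrd_eq_of_primeOfH_eq (x : IdeleProd K) {q q' : Nat.Primes}
    (τ : LocalEmb (q : ℕ) K) (τ' : LocalEmb (q' : ℕ) K) (h : primeOfH τ = primeOfH τ') :
    semiLocalOrd (x q) τ = semiLocalOrd (x q') τ' := by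
  obtain rfl := prime_eq_of_primeOfH_eq τ τ' h
  exact semiLocalOrd_eq_of_primeOf_eq _ (congrArg HeightOneSpectrum.asIdeal h)

/-- The order of `x : ∏_q (K ⊗ ℚ_q)ˣ` at a prime `P` of `𝓞 K`. -/
def ideleOrd (x : IdeleProd K) (P : HeightOneSpectrum (𝓞 K)) : ℤ :=
  semiLocalOrd (x (exists_emb P).choose) (exists_emb P).choose_spec.choose

theorem ideleOrd_primeOfH (x : IdeleProd K) {q : Nat.Primes} (τ : LocalEmb (q : ℕ) K) :
    ideleOrd x (primeOfH τ) = semiLocalOrd (x q) τ :=
  semiLocalOrd_eq_of_primeOfH_eq x _ τ (exists_emb (primeOfH τ)).choose_spec.choose_spec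

theorem ideleOrd_one (P : HeightOneSpectrum (𝓞 K)) : ideleOrd (1 : IdeleProd K) P = 0 :=
  semiLocalOrd_one _

theorem ideleOrd_mul (x y : IdeleProd K) (P : HeightOneSpectrum (𝓞 K)) :
    ideleOrd (x * y) P = ideleOrd x P + ideleOrd y P :=
  semiLocalOrd_mul _ _ _

theorem ideleOrd_inv (x : IdeleProd K) (P : HeightOneSpectrum (𝓞 K)) :
    ideleOrd x⁻¹ P = -ideleOrd x P :=
  semiLocalOrd_inv _ _

theorem ideleOrd_div (x y : IdeleProd K) (P : HeightOneSpectrum (𝓞 K)) :
    ideleOrd (x / y) P = ideleOrd x P - ideleOrd y P :=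
  semiLocalOrd_div _ _ _

/-- The order at `P` as a homomorphism. -/
def ideleOrdHom (P : HeightOneSpectrum (𝓞 K)) : IdeleProd K →* Multiplicative ℤ where
  toFun x := Multiplicative.ofAdd (ideleOrd x P)
  map_one' := by rw [ideleOrd_one]; rfl
  map_mul' x y := by rw [ideleOrd_mul]; rfl

theorem ideleOrd_principal (y : Kˣ) (P : HeightOneSpectrum (𝓞 K)) :
    ideleOrd (principalIdele K y) P = ordAt P y := by
  obtain ⟨q, τ, rfl⟩ := exists_emb P
  rw [ideleOrd_primeOfH, principalIdele_apply, semiLocalOrd_diag]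

/-- Integrality at `q` in terms of the orders at the primes above `q`. -/
theorem mem_semiLocalIntegral_iff_ideleOrd (x : IdeleProd K) (q : Nat.Primes) :
    x q ∈ semiLocalIntegral (q : ℕ) K ↔
      ∀ τ : LocalEmb (q : ℕ) K, ideleOrd x (primeOfH τ) = 0 := by
  rw [mem_semiLocalIntegral_iff_ord]
  exact forall_congr' fun τ => by rw [ideleOrd_primeOfH]

/-- An idele has only finitely many nonzero orders. -/
theorem finite_setOf_ideleOrd_ne_zero {x : IdeleProd K} (hx : x ∈ ideleGroup K) :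
    {P : HeightOneSpectrum (𝓞 K) | ideleOrd x P ≠ 0}.Finite := by
  rw [mem_ideleGroup_iff_finite] at hx
  have hsub : {P : HeightOneSpectrum (𝓞 K) | ideleOrd x P ≠ 0} ⊆
      ⋃ q ∈ {q : Nat.Primes | x q ∉ semiLocalIntegral (q : ℕ) K},
        Set.range (fun τ : LocalEmb (q : ℕ) K => primeOfH τ) := by
    intro P hP
    obtain ⟨q, τ, rfl⟩ := exists_emb P
    simp only [Set.mem_iUnion]
    refine ⟨q, ?_, τ, rfl⟩
    intro hint
    exact hP ((mem_semiLocalIntegral_iff_ideleOrd x q).mp hint τ)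
  exact (hx.biUnion fun q _ => Set.finite_range _).subset hsub

end GlobalOrd

section Outside

variable (K : Type) [Field K] [NumberField K]

/-- The ideles (families of semi-local units) which are units outside the set `S` of primes of
`𝓞 K` (`J_{K,S}` for a set of *places* `S`). -/
def ideleOutside (S : Set (HeightOneSpectrum (𝓞 K))) : Subgroup (IdeleProd K) where
  carrier := {x | ∀ P : HeightOneSpectrum (𝓞 K), P ∉ S → ideleOrd x P = 0}
  mul_mem' {x y} hx hy P hP := by rw [ideleOrd_mul, hx P hP, hy P hP, add_zero]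
  one_mem' P _ := ideleOrd_one P
  inv_mem' {x} hx P hP := by rw [ideleOrd_inv, hx P hP, neg_zero]

variable {K}

theorem mem_ideleOutside {S : Set (HeightOneSpectrum (𝓞 K))} {x : IdeleProd K} :
    x ∈ ideleOutside K S ↔ ∀ P : HeightOneSpectrum (𝓞 K), P ∉ S → ideleOrd x P = 0 := Iff.rfl

theorem ideleOutside_mono {S S' : Set (HeightOneSpectrum (𝓞 K))} (h : S ⊆ S') :
    ideleOutside K S ≤ ideleOutside K S' :=
  fun _ hx P hP => hx P (fun hPS => hP (h hPS))

/-- Membership in terms of norms: `x ∈ J_{K,S}` iff `‖x_q τ‖ = 1` whenever the prime of `τ` is not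
in `S`. -/
theorem mem_ideleOutside_iff_norm {S : Set (HeightOneSpectrum (𝓞 K))} {x : IdeleProd K} :
    x ∈ ideleOutside K S ↔ ∀ (q : Nat.Primes) (τ : LocalEmb (q : ℕ) K), primeOfH τ ∉ S →
      ‖(((x q : semiLocalUnits (q : ℕ) K) : LocalEmb (q : ℕ) K → (PadicAlgCl (q : ℕ))ˣ) τ :
        PadicAlgCl (q : ℕ))‖ = 1 := by
  constructor
  · intro hx q τ hτ
    rw [← semiLocalOrd_eq_zero_iff, ← ideleOrd_primeOfH]
    exact hx _ hτ
  · intro hx P hP
    obtain ⟨q, τ, rfl⟩ := exists_emb P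
    rw [ideleOrd_primeOfH, semiLocalOrd_eq_zero_iff]
    exact hx q τ hP

theorem ideleOutside_le_ideleGroup {S : Set (HeightOneSpectrum (𝓞 K))} (hS : S.Finite) :
    ideleOutside K S ≤ ideleGroup K := by
  intro x hx
  rw [mem_ideleGroup_iff_finite]
  have hsub : {q : Nat.Primes | x q ∉ semiLocalIntegral (q : ℕ) K} ⊆
      ⋃ P ∈ S, {q : Nat.Primes | ((q : ℕ) : 𝓞 K) ∈ P.asIdeal} := by
    intro q hq
    rw [Set.mem_ofPred_eq, mem_semiLocalIntegral_iff_ideleOrd] at hq
    push Not at hq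
    obtain ⟨τ, hτ⟩ := hq
    simp only [Set.mem_iUnion]
    refine ⟨primeOfH τ, ?_, natCast_mem_primeOf τ⟩
    by_contra hnS
    exact hτ (hx _ hnS)
  refine (hS.biUnion fun P _ => ?_).subset hsub
  exact Set.Subsingleton.finite fun q hq q' hq' => prime_unique P hq hq'

/-- The primes of `𝓞 K` above a set of rational primes. -/
def primesOver (K : Type) [Field K] [NumberField K] (T : Set Nat.Primes) :
    Set (HeightOneSpectrum (𝓞 K)) :=
  {P | ∃ q ∈ T, ((q : ℕ) : 𝓞 K) ∈ P.asIdeal}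

theorem primeOfH_mem_primesOver_iff {T : Set Nat.Primes} {q : Nat.Primes}
    (τ : LocalEmb (q : ℕ) K) : primeOfH τ ∈ primesOver K T ↔ q ∈ T := by
  constructor
  · rintro ⟨q', hq', hmem⟩
    have : q' = q := prime_unique (primeOfH τ) hmem (natCast_mem_primeOf τ)
    rwa [← this]
  · intro hq
    exact ⟨q, hq, natCast_mem_primeOf τ⟩

/-- The `T`-ideles of `IdeleDefs` (`T` a set of rational primes) are the ideles that are units
outside the primes above `T`. -/
theorem ideleGroupOutside_eq_ideleOutside (T : Set Nat.Primes) :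
    ideleGroupOutside K T = ideleOutside K (primesOver K T) := by
  ext x
  constructor
  · intro hx P hP
    obtain ⟨q, τ, rfl⟩ := exists_emb P
    rw [primeOfH_mem_primesOver_iff] at hP
    exact (mem_semiLocalIntegral_iff_ideleOrd x q).mp (hx q hP) τ
  · intro hx q hq
    rw [mem_semiLocalIntegral_iff_ideleOrd]
    intro τ
    apply hx
    rwa [primeOfH_mem_primesOver_iff]

theorem primesOver_finite {T : Set Nat.Primes} (hT : T.Finite) : (primesOver K T).Finite := by
  have hsub : primesOver K T ⊆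
      ⋃ q ∈ T, Set.range (fun τ : LocalEmb (q : ℕ) K => primeOfH τ) := by
    rintro P ⟨q, hq, hmem⟩
    have := P.isPrime
    obtain ⟨τ, hτ⟩ := exists_primeOf_eq (q := (q : ℕ)) P.asIdeal hmem
    simp only [Set.mem_iUnion]
    exact ⟨q, hq, τ, HeightOneSpectrum.ext hτ⟩
  exact (hT.biUnion fun q _ => Set.finite_range _).subset hsub

/-- `Kˣ ∩ J_{K,S}` is the group of `S`-units. -/
theorem principalIdele_mem_ideleOutside_iff (S : Set (HeightOneSpectrum (𝓞 K))) (y : Kˣ) :
    principalIdele K y ∈ ideleOutside K S ↔ y ∈ S.unit K := by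
  rw [mem_ideleOutside]
  refine forall_congr' fun P => forall_congr' fun _ => ?_
  rw [ideleOrd_principal, ordAt_eq_zero_iff]

end Outside

end Fermat.Agent.CFT.IdeleDict
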