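import Fermat.Agent.CFT.Global.IdeleDict.DictUnram

/-!
# The finite set of ramified primes of a number field, and `IsUnramAt` outside it (for every base)

`ramifiedPrimes L : Finset Nat.Primes` depends only on `L`; outside it `IsUnramAt K τ'` holds for
every base field `K` with `[Normal K L]` (in particular for all the fixed fields of subgroups of
a Galois group).
-/

set_option autoImplicit false

open scoped NumberField

noncomputable section

namespace Fermat.Agent.CFT.IdeleDict

open NumberField IsDedekindDomain Fermat.Agent.CFT

/-- The (finite) set of rational primes which ramify in the number field `L`. -/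
def ramifiedPrimes (L : Type) [Field L] [NumberField L] : Finset Nat.Primes :=
  (finite_setOf_ramIdx_ne_one (L := L)).toFinset

theorem mem_ramifiedPrimes {L : Type} [Field L] [NumberField L] {q : Nat.Primes} :
    q ∈ ramifiedPrimes L ↔ ∃ τ' : LocalEmb (q : ℕ) L, ramIdx τ' ≠ 1 := by
  rw [ramifiedPrimes, Set.Finite.mem_toFinset, Set.mem_ofPred_eq]

theorem ramIdx_eq_one_of_notMem_ramifiedPrimes {L : Type} [Field L] [NumberField L]
    {q : Nat.Primes} (hq : q ∉ ramifiedPrimes L) (τ' : LocalEmb (q : ℕ) L) : ramIdx τ' = 1 := by
  rw [mem_ramifiedPrimes] at hq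
  push Not at hq
  exact hq τ'

/-- Outside the ramified primes of `L`, the local hypotheses `IsUnramAt K τ'` hold for every base
`K` (with `L/K` normal) and every embedding `τ'` of `L`. -/
theorem isUnramAt_of_notMem_ramifiedPrimes (K : Type) [Field K] {L : Type} [Field L]
    [NumberField L] [Algebra K L] [Normal K L] {q : Nat.Primes} (hq : q ∉ ramifiedPrimes L)
    (τ' : LocalEmb (q : ℕ) L) : IsUnramAt K τ' :=
  isUnramAt_of_valueGroup K τ'
    (exists_norm_eq_zpow_of_ramIdx_eq_one τ' (ramIdx_eq_one_of_notMem_ramifiedPrimes hq τ'))

end Fermat.Agent.CFT.IdeleDict
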