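import Fermat.Agent.CFT.Global.IdeleDict.KummerUnram
import Fermat.Agent.CFT.Global.IdeleDict.UnitIdelesNorm
import Fermat.Agent.CFT.Global.SemiLocalNormPatch
import Fermat.Agent.CFT.Global.ExistenceModPPlace

/-!
# The hypothesis `hE0` of (E)-hard (node (H-unr) of C7)

* `symClass_eq_zero_of_sum`: `N(b) ∪ δχ = 0` in `H²(G, A)` for every finite group `G`, every
  character `χ` and every `b : A` (explicit coboundary);
* `boxIdele_unitOutsideFam_le_ideleNormSubgroup`: if `M/K` satisfies `IsUnramAt` at all places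
  outside `T`, the ideles of `K` which are trivial at `T` and units outside are norms from `M`;
* `symClass_ideleClassOfBase_eq_zero_of_mem`: `[x] ∪ δχ = 0` in `H²(Gal(M/K), C_M)` for
  `x ∈ J_K^p · N J_M`, `χ` of exponent `p`;
* `hE0_of_isUnramAt`: the hypothesis `hE0` of
  `ExistenceCore.exists_pow_eq_mk_of_forall_inv_eq_zero_of_firstIneq`, for every additive `invM`.
-/

set_option autoImplicit false
set_option linter.unusedSectionVars false
set_option linter.style.haveILetI false

open scoped NumberField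

noncomputable section

namespace Fermat.Agent.CFT.IdeleDict

open Fermat.Agent.CFT groupCohomology

section SymNorm

variable {G : Type} [Group G] [Fintype G] (A : Rep.{0} ℤ G) {n : ℕ} [NeZero n]

/-- `N(b) ∪ δχ = 0`: the symbol class of a norm vanishes, for every finite group and every
character. -/
theorem symClass_eq_zero_of_sum (χ : G →* Multiplicative (ZMod n)) (b : A) {a : A}
    (ha : IsInv A a) (hab : a = ∑ g : G, A.ρ g b) : symClass A χ a ha = 0 := by
  unfold symClass
  show H2π A (symCocycle A χ a ha) = 0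
  rw [H2π_eq_zero_iff]
  refine ⟨fun g => ∑ s : G, bock χ (g, s) • A.ρ (g * s) b, ?_⟩
  funext ⟨g, h⟩
  rw [d₁₂_hom_apply, symCocycle_apply]
  show A.ρ g (∑ s : G, bock χ (h, s) • A.ρ (h * s) b) -
      ∑ s : G, bock χ (g * h, s) • A.ρ (g * h * s) b +
      ∑ s : G, bock χ (g, s) • A.ρ (g * s) b = bock χ (g, h) • a
  have h1 : A.ρ g (∑ s : G, bock χ (h, s) • A.ρ (h * s) b) =
      ∑ s : G, bock χ (h, s) • A.ρ (g * h * s) b := by
    rw [map_sum]
    refine Finset.sum_congr rfl fun s _ => ?_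
    rw [map_zsmul]
    congr 1
    rw [mul_assoc g h s, map_mul (A.ρ) g (h * s)]
    rfl
  have h2 : ∑ s : G, bock χ (g, s) • A.ρ (g * s) b =
      ∑ s : G, bock χ (g, h * s) • A.ρ (g * h * s) b := by
    rw [← Equiv.sum_comp (Equiv.mulLeft h) (fun s => bock χ (g, s) • A.ρ (g * s) b)]
    refine Finset.sum_congr rfl fun s _ => ?_
    rw [Equiv.coe_mulLeft, mul_assoc]
  have h3 : ∑ s : G, A.ρ (g * h * s) b = a := by
    rw [hab, ← Equiv.sum_comp (Equiv.mulLeft (g * h)) (fun s => A.ρ s b)]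
    rfl
  rw [h1, h2, ← Finset.sum_sub_distrib, ← Finset.sum_add_distrib, ← h3, Finset.smul_sum]
  refine Finset.sum_congr rfl fun s _ => ?_
  rw [← sub_smul, ← add_smul]
  congr 1
  have := isZCocycle_bock χ g h s
  linarith

end SymNorm

section NormBox

variable {K M : Type} [Field K] [NumberField K] [Field M] [NumberField M] [Algebra K M]
  [IsGalois K M]

open ExistenceCore FirstIneq

/-- If `M/K` satisfies the local hypotheses `IsUnramAt` at all places of `K` outside `T`, then the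
ideles of `K` which are trivial at `T` and units outside `T` are norms from `M`. -/
theorem boxIdele_unitOutsideFam_le_ideleNormSubgroup (T : Set (IdelePlace K))
    (hunr : ∀ (q : Nat.Primes) (τ' : LocalEmb (q : ℕ) M),
      (⟨q, (localEmbRestrict K τ').place⟩ : IdelePlace K) ∉ T → IsUnramAt K τ') :
    boxIdele (unitOutsideFam T) ≤ ideleNormSubgroup K M := by
  classical
  intro x hx
  rw [mem_boxIdele] at hx
  have hloc : ∀ q : Nat.Primes, ∃ z : semiLocalUnits (q : ℕ) M,
      ∏ σ : M ≃ₐ[K] M, σ • z = semiLocalMap (algebraMap K M) ((x : IdeleProd K) q) ∧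
      ((x : IdeleProd K) q ∈ semiLocalIntegral (q : ℕ) K → z ∈ semiLocalIntegral (q : ℕ) M) := by
    intro q
    apply exists_prod_smul_eq_of_local_norm K ((x : IdeleProd K) q)
    intro τ'
    set τ : LocalEmb (q : ℕ) K := localEmbRestrict K τ' with hτ
    set v : IdelePlace K := ⟨q, τ.place⟩ with hv
    have hxv := hx v
    have hrep : ((((x : IdeleProd K) q : semiLocalUnits (q : ℕ) K) :
        LocalEmb (q : ℕ) K → (PadicAlgCl (q : ℕ))ˣ) τ : PadicAlgCl (q : ℕ)) =
        τ.toRep (((((x : IdeleProd K) q : semiLocalUnits (q : ℕ) K) :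
          LocalEmb (q : ℕ) K → (PadicAlgCl (q : ℕ))ˣ) τ.place.emb : PadicAlgCl (q : ℕ))) := by
      conv_lhs => rw [← τ.toRep_smul]
      exact semiLocalUnits_apply_smul _ _ _
    by_cases hvT : v ∈ T
    · rw [unitOutsideFam_of_mem hvT, Subgroup.mem_bot] at hxv
      have h1 : ((((x : IdeleProd K) q : semiLocalUnits (q : ℕ) K) :
          LocalEmb (q : ℕ) K → (PadicAlgCl (q : ℕ))ˣ) τ.place.emb : PadicAlgCl (q : ℕ)) = 1 :=
        congrArg (fun u : (localFieldAt v.2.emb)ˣ =>
          ((u : localFieldAt v.2.emb) : PadicAlgCl (q : ℕ))) hxv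
      have hone : ((1 : (PadicAlgCl (q : ℕ))ˣ) : PadicAlgCl (q : ℕ)) ∈ localFieldAt τ' := by
        rw [Units.val_one]
        exact one_mem _
      refine ⟨1, hone, ?_, fun _ => by rw [Units.val_one, norm_one]⟩
      have e : (⟨((1 : (PadicAlgCl (q : ℕ))ˣ) : PadicAlgCl (q : ℕ)), hone⟩ : localLayer K τ') = 1 :=
        Subtype.ext Units.val_one
      rw [e, map_one, hrep, h1, map_one]
      rfl
    · rw [unitOutsideFam_of_notMem hvT] at hxv
      have h1 : ‖((((x : IdeleProd K) q : semiLocalUnits (q : ℕ) K) :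
          LocalEmb (q : ℕ) K → (PadicAlgCl (q : ℕ))ˣ) τ.place.emb : PadicAlgCl (q : ℕ))‖ = 1 := hxv
      have h2 : ‖((((x : IdeleProd K) q : semiLocalUnits (q : ℕ) K) :
          LocalEmb (q : ℕ) K → (PadicAlgCl (q : ℕ))ˣ) τ : PadicAlgCl (q : ℕ))‖ = 1 := by
        rw [hrep, norm_gq_apply, h1]
      obtain ⟨y, hy1, hyN⟩ := (hunr q τ' hvT).exists_norm_eq
        ⟨_, semiLocalUnits_apply_mem ((x : IdeleProd K) q) τ⟩ h2
      have hy0 : (y : PadicAlgCl (q : ℕ)) ≠ 0 := by
        intro h0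
        rw [h0, norm_zero] at hy1
        exact zero_ne_one hy1
      refine ⟨Units.mk0 (y : PadicAlgCl (q : ℕ)) hy0, y.2, ?_, fun _ => hy1⟩
      have e : (⟨((Units.mk0 (y : PadicAlgCl (q : ℕ)) hy0 : (PadicAlgCl (q : ℕ))ˣ) :
          PadicAlgCl (q : ℕ)), y.2⟩ : localLayer K τ') = y := Subtype.ext rfl
      rw [e, hyN]
  choose g hgx hg using hloc
  have hmem : (fun q => g q : IdeleProd M) ∈ ideleGroup M := by
    rw [mem_ideleGroup]
    have hxI := (mem_ideleGroup (K := K)).1 x.2
    exact hxI.mono fun q hq => hg q hq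
  refine mem_ideleNormSubgroup.2 ⟨⟨fun q => g q, hmem⟩, ?_⟩
  apply Subtype.ext
  funext q
  rw [ideleMap_coe, ideleProdMap_apply, ← hgx q]
  have h1 : ((∏ σ : M ≃ₐ[K] M, σ • (⟨fun q => g q, hmem⟩ : ideleGroup M) : ideleGroup M) :
      IdeleProd M) q = ∏ σ : M ≃ₐ[K] M, ((σ • (⟨fun q => g q, hmem⟩ : ideleGroup M) :
        ideleGroup M) : IdeleProd M) q := by
    rw [Subgroup.val_finsetProd, Finset.prod_apply]
  rw [h1]
  rfl

end NormBox

section SymPow

variable {G : Type} [Group G] (A : Rep.{0} ℤ G) {n : ℕ} [NeZero n]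

theorem symClass_pow_char (χ : G →* Multiplicative (ZMod n)) (k : ℕ) {a : A} (ha : IsInv A a) :
    symClass A (χ ^ k) a ha = k • symClass A χ a ha := by
  induction k with
  | zero => rw [pow_zero, zero_smul, symClass_one_char]
  | succ k ih => rw [pow_succ, symClass_mul_char, ih, succ_nsmul]

theorem char_pow_eq_one (χ : G →* Multiplicative (ZMod n)) : χ ^ n = 1 := by
  ext g
  rw [MonoidHom.pow_apply, MonoidHom.one_apply]
  apply Multiplicative.toAdd.injective
  rw [toAdd_pow, toAdd_one, nsmul_eq_mul, ZMod.natCast_self, zero_mul]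

/-- The symbol classes are killed by `n`. -/
theorem nsmul_symClass_eq_zero (χ : G →* Multiplicative (ZMod n)) {a : A} (ha : IsInv A a) :
    n • symClass A χ a ha = 0 := by
  rw [← symClass_pow_char, char_pow_eq_one, symClass_one_char]

/-- `(n • a) ∪ δχ = 0`. -/
theorem symClass_nsmul_eq_zero (χ : G →* Multiplicative (ZMod n)) {a c : A} (ha : IsInv A a)
    (hc : IsInv A c) (hac : a = n • c) : symClass A χ a ha = 0 := by
  have h1 : a = (n : ℤ) • c := by rw [hac, natCast_zsmul]
  rw [symClass_congr A χ ha h1, symClass_zsmul A χ (n : ℤ) hc, natCast_zsmul,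
    nsmul_symClass_eq_zero]

end SymPow

section E0

variable (K M : Type) [Field K] [NumberField K] [Field M] [NumberField M] [Algebra K M]
  [IsGalois K M]

open ExistenceCore FirstIneq ExistenceModP

/-- `[x] ∪ δχ = 0` in `H²(Gal(M/K), C_M)` for `x` a norm from `M`. -/
theorem symClass_ideleClassOfBase_eq_zero_of_mem_norm {n : ℕ} [NeZero n]
    (χ : (M ≃ₐ[K] M) →* Multiplicative (ZMod n)) {x : ideleGroup K}
    (hx : x ∈ ideleNormSubgroup K M) :
    symClass (ideleClassRep M (M ≃ₐ[K] M)) χ (ideleClassOfBase K M x)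
      (isInv_ideleClassOfBase K M x) = 0 := by
  obtain ⟨z, hz⟩ := mem_ideleNormSubgroup.1 hx
  refine symClass_eq_zero_of_sum _ χ
    (Additive.ofMul (QuotientGroup.mk z : ideleClass M)) _ ?_
  unfold ideleClassOfBase
  rw [← hz]
  have h1 : (QuotientGroup.mk (∏ σ : M ≃ₐ[K] M, σ • z) : ideleClass M) =
      ∏ σ : M ≃ₐ[K] M, (QuotientGroup.mk (σ • z) : ideleClass M) :=
    map_prod (QuotientGroup.mk' (principalSubgroup M)) _ _
  have h2 : (Additive.ofMul (∏ σ : M ≃ₐ[K] M, (QuotientGroup.mk (σ • z) : ideleClass M)) :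
      Additive (ideleClass M)) =
      ∑ σ : M ≃ₐ[K] M, Additive.ofMul (QuotientGroup.mk (σ • z) : ideleClass M) :=
    ofMul_prod _ _
  refine (congrArg Additive.ofMul h1).trans (h2.trans ?_)
  refine Finset.sum_congr rfl fun σ _ => ?_
  show _ = Additive.ofMul (σ • (QuotientGroup.mk z : ideleClass M))
  rw [ideleClass_smul_mk]

/-- `[y ^ n] ∪ δχ = 0` for a character `χ` of exponent `n`. -/
theorem symClass_ideleClassOfBase_pow_eq_zero {n : ℕ} [NeZero n]
    (χ : (M ≃ₐ[K] M) →* Multiplicative (ZMod n)) (y : ideleGroup K) :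
    symClass (ideleClassRep M (M ≃ₐ[K] M)) χ (ideleClassOfBase K M (y ^ n))
      (isInv_ideleClassOfBase K M (y ^ n)) = 0 := by
  refine symClass_nsmul_eq_zero _ χ _ (isInv_ideleClassOfBase K M y) ?_
  unfold ideleClassOfBase
  rw [map_pow, QuotientGroup.mk_pow]
  rfl

/-- **`hE0` from the local unramified hypotheses**: if `M/K` satisfies `IsUnramAt` at all places
outside `T`, then `[x] ∪ δχ = 0` in `H²(Gal(M/K), C_M)` for every `x` in the box
`∏_{v ∈ T} K_v^{×p} × ∏_{v ∉ T} U_v` and every character `χ` of exponent `p`. -/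
theorem symClass_eq_zero_of_mem_boxIdele_sPowFam {p : ℕ} [NeZero p] (T : Finset (IdelePlace K))
    (hunr : ∀ (q : Nat.Primes) (τ' : LocalEmb (q : ℕ) M),
      (⟨q, (localEmbRestrict K τ').place⟩ : IdelePlace K) ∉ (T : Set (IdelePlace K)) →
        IsUnramAt K τ')
    {x : ideleGroup K} (hx : x ∈ boxIdele (sPowFam p (T : Set (IdelePlace K))))
    (χ : (M ≃ₐ[K] M) →* Multiplicative (ZMod p)) :
    symClass (ideleClassRep M (M ≃ₐ[K] M)) χ (ideleClassOfBase K M x)
      (isInv_ideleClassOfBase K M x) = 0 := by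
  have h1 := boxIdele_sPowFam_le p T hx
  obtain ⟨w, hw, y, hy, rfl⟩ := Subgroup.mem_sup.1 h1
  obtain ⟨g, -, rfl⟩ := mem_powSubgroup.1 hy
  have hwN := boxIdele_unitOutsideFam_le_ideleNormSubgroup (M := M) (T : Set (IdelePlace K)) hunr hw
  rw [symClass_congr _ χ (isInv_ideleClassOfBase K M (w * g ^ p)) (ideleClassOfBase_mul K M w (g ^ p)),
    symClass_add _ χ (isInv_ideleClassOfBase K M w) (isInv_ideleClassOfBase K M (g ^ p)),
    symClass_ideleClassOfBase_eq_zero_of_mem_norm K M χ hwN,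
    symClass_ideleClassOfBase_pow_eq_zero K M χ g, add_zero]

variable {K M}

/-- **(H-unr), place form**: if `M = K(G)`, every `α ∈ G` has `α ^ p = u ∈ K` with `u` a unit at all
places outside `T`, and `T` contains the places over `p`, then `IsUnramAt K τ'` holds for every
`τ'` whose place of `K` is outside `T`. -/
theorem isUnramAt_of_kummer_gen (pp : Nat.Primes) (T : Set (IdelePlace K))
    (hT : ∀ v : IdelePlace K, v.1 = pp → v ∈ T) {G : Set M}
    (hG : IntermediateField.adjoin K G = ⊤)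
    (hroot : ∀ α ∈ G, ∃ u : K, α ^ (pp : ℕ) = algebraMap K M u ∧
      ∀ v : IdelePlace K, v ∉ T → (IdelePlace.prime v).valuation K u = 1)
    (q : Nat.Primes) (τ' : LocalEmb (q : ℕ) M)
    (hv : (⟨q, (localEmbRestrict K τ').place⟩ : IdelePlace K) ∉ T) : IsUnramAt K τ' := by
  have hpq : (pp : ℕ) ≠ (q : ℕ) := by
    intro h
    exact hv (hT _ (Subtype.ext h.symm))
  refine isUnramAt_of_pow_roots K τ' pp.2 hpq hG ?_
  intro α hα
  obtain ⟨u, hu, hval⟩ := hroot α hα
  refine ⟨u, hu, ?_⟩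
  rw [norm_emb_eq_one_iff, ← IdelePlace.prime_mk]
  exact hval _ hv

variable (K M)

/-- **`hE0` for the Kummer field of the `T`-units**, verbatim the hypothesis of
`ExistenceCore.exists_pow_eq_mk_of_forall_inv_eq_zero_of_firstIneq`, for every additive `invM`:
`M` is generated over `K` by `p`-th roots of `T`-units and `T` contains the places over `p`. -/
theorem hE0_of_kummer (pp : Nat.Primes) (T : Finset (IdelePlace K))
    (hT : ∀ v : IdelePlace K, v.1 = pp → v ∈ T)
    (hgen : IntermediateField.adjoin K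
      {α : M | ∃ u ∈ (IdelePlace.prime '' (T : Set (IdelePlace K))).unit K,
        α ^ (pp : ℕ) = algebraMap K M (u : K)} = ⊤)
    (invM : H2 (ideleClassRep M (M ≃ₐ[K] M)) →+ AddCircle (1 : ℚ)) :
    ∀ x ∈ boxIdele (sPowFam (pp : ℕ) (T : Set (IdelePlace K))),
      ∀ χ : (M ≃ₐ[K] M) →* Multiplicative (ZMod (pp : ℕ)),
      invM (symClass _ χ (ideleClassOfBase K M x) (isInv_ideleClassOfBase K M x)) = 0 := by
  intro x hx χ
  have hunr : ∀ (q : Nat.Primes) (τ' : LocalEmb (q : ℕ) M),
      (⟨q, (localEmbRestrict K τ').place⟩ : IdelePlace K) ∉ (T : Set (IdelePlace K)) →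
        IsUnramAt K τ' := by
    intro q τ' hv
    refine isUnramAt_of_kummer_gen pp (T : Set (IdelePlace K)) (fun v hv' => hT v hv') hgen ?_ q τ' hv
    rintro α ⟨u, hu, hα⟩
    refine ⟨(u : K), hα, fun v hvT => ?_⟩
    have hvT' : IdelePlace.prime v ∉ IdelePlace.prime '' (T : Set (IdelePlace K)) := by
      rintro ⟨v', hv', he⟩
      exact hvT (IdelePlace.prime_injective he ▸ hv')
    exact hu _ hvT'
  rw [symClass_eq_zero_of_mem_boxIdele_sPowFam K M T hunr hx χ, map_zero]

end E0

end Fermat.Agent.CFT.IdeleDict
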