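import Fermat.Agent.CFT.Global.IdeleDict.DictUnram
import Fermat.Agent.CFT.Global.SemiLocalSubgroup
import Fermat.Agent.CFT.Global.ValESBridge
import Fermat.Agent.S13.InertiaValue
import Fermat.Prelude.Def_GroupCohomology_ContinuousUnramified

/-!
# U-BRIDGE (forward half): Prelude-unramified ⟹ `IsUnramAt`

`Qb = AlgebraicClosure ℚ`.  A field `F ⊆ Qb` is *Prelude-unramified at `q`* if the inertia subgroup
(`ValuationSubring.inertiaSubgroupIn ℚ`) of every valuation subring of `Qb` over `q` fixes `F`.

* `exists_norm_eq_zpow_of_inertia_fixed`: then the value group of every `τ' : F → ℚ̄_q` is `q^ℤ`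
  (via `S13.valuation_eq_zpow_of_inertia_fixed`);
* `isUnramAt_of_inertia_fixed`: hence helper11's `IsUnramAt K τ'` for every base `K`, `F/K` normal;
* `isUnramAt_layer_of_isUnramifiedOutside`, `h1h2TrivialOn_of_isUnramifiedOutside`: the layer forms
  consumed by `PLayerInvTransport.sClassInvSystem` (`hunr`) and `SClassIdele` (`hunr1`, `hunr2`);
* `exists_localEmb_layer`: `hne`.
-/

set_option autoImplicit false
set_option linter.unusedSectionVars false
set_option linter.style.haveILetI false

open scoped NumberField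

noncomputable section

namespace Fermat.Agent.CFT.IdeleDict

open Fermat.Agent.CFT IntermediateField

local notation "Qb" => AlgebraicClosure ℚ

local instance instIsGaloisQbUnramPrelude : IsGalois ℚ Qb :=
  Fermat.Agent.S54.FrobExists.isGalois_rat_algebraicClosure

section ValueGroup

variable {q : ℕ} [Fact q.Prime] {F : Type} [Field F] [NumberField F] [Algebra F Qb]
  [Algebra.IsAlgebraic F Qb]

/-- If the inertia groups over `q` fix (the image of) `F` in `Qb`, the value group of every
embedding `τ' : F → ℚ̄_q` is `q^ℤ`. -/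
theorem exists_norm_eq_zpow_of_inertia_fixed
    (hfix : ∀ A : ValuationSubring Qb, A.LiesOverPrime q → ∀ σ ∈ A.inertiaSubgroupIn ℚ,
      ∀ x : F, σ (algebraMap F Qb x) = algebraMap F Qb x)
    (τ' : LocalEmb q F) (y : PadicAlgCl q) (hy : y ∈ localFieldAt τ') (hy0 : y ≠ 0) :
    ∃ n : ℤ, ‖y‖ = ((q : ℝ)⁻¹) ^ n := by
  obtain ⟨x, -, hx⟩ := exists_unit_norm_emb_eq τ' hy hy0
  obtain ⟨τt, hτt⟩ := localEmbRestrict_surjective (q := q) F (L := Qb) τ'
  have hA := embPlace_liesOverPrime τt
  have hx0 : algebraMap F Qb (x : F) ≠ 0 := (map_ne_zero _).2 x.ne_zero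
  obtain ⟨n, hn⟩ := Fermat.Agent.S13.valuation_eq_zpow_of_inertia_fixed (embPlace τt)
    (Fact.out : q.Prime) hA hx0 (fun σ hσ => hfix _ hA σ hσ x)
  refine ⟨n, ?_⟩
  have hq0 : ((q : ℕ) : Qb) ≠ 0 := Nat.cast_ne_zero.2 (Fact.out : q.Prime).ne_zero
  have h1 : (embPlace τt).valuation (algebraMap F Qb (x : F) * ((q : Qb) ^ n)⁻¹) = 1 := by
    rw [map_mul, map_inv₀, map_zpow₀, hn]
    exact mul_inv_cancel₀ (zpow_ne_zero _ ((Valuation.ne_zero_iff _).2 hq0))
  rw [embPlace_valuation_eq_one_iff, map_mul, map_inv₀, map_zpow₀, norm_mul, norm_inv, norm_zpow,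
    norm_emb_natCast_self] at h1
  have h2 : τt (algebraMap F Qb (x : F)) = τ' (x : F) := by
    rw [← hτt]; rfl
  rw [h2, hx] at h1
  have hpos : (0 : ℝ) < ((q : ℝ)⁻¹) ^ n := zpow_pos inv_prime_pos n
  exact (mul_inv_eq_one₀ hpos.ne').1 h1

/-- Prelude-unramified at `q` ⟹ helper11's local hypotheses `IsUnramAt K τ'`, for every base `K`
over which `F` is normal. -/
theorem isUnramAt_of_inertia_fixed (K : Type) [Field K] [Algebra K F] [Normal K F]
    (hfix : ∀ A : ValuationSubring Qb, A.LiesOverPrime q → ∀ σ ∈ A.inertiaSubgroupIn ℚ,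
      ∀ x : F, σ (algebraMap F Qb x) = algebraMap F Qb x)
    (τ' : LocalEmb q F) : IsUnramAt K τ' :=
  isUnramAt_of_valueGroup K τ' (exists_norm_eq_zpow_of_inertia_fixed hfix τ')

end ValueGroup

section Layer

open Fermat.Agent.CFT.GaloisTower

variable {E E' : IntermediateField ℚ Qb} (h : E ≤ E')

/-- A finite subextension of `Qb/ℚ` is a number field. -/
theorem numberField_of_finiteDimensional (E : IntermediateField ℚ Qb) [FiniteDimensional ℚ E] :
    NumberField E := by
  refine @NumberField.mk E _ inferInstance ?_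
  convert ‹FiniteDimensional ℚ E›

theorem numberField_layer [FiniteDimensional ℚ E'] : NumberField (layer h) := by
  haveI : FiniteDimensional ℚ E :=
    FiniteDimensional.of_injective (IntermediateField.inclusion h).toLinearMap
      (IntermediateField.inclusion_injective h)
  haveI : NumberField E := numberField_of_finiteDimensional E
  haveI : FiniteDimensional E (layer h) := finiteDimensional_layer h
  exact NumberField.of_module_finite E (layer h)

theorem isAlgebraic_layer : Algebra.IsAlgebraic (layer h) Qb := by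
  haveI : Normal E Qb := Normal.tower_top_of_normal ℚ E Qb
  haveI : Algebra.IsAlgebraic E Qb := Normal.toIsAlgebraic
  exact Algebra.IsAlgebraic.tower_top (K := E) (layer h)

variable {S : Finset Nat.Primes}

/-- The inertia groups over `q ∉ S` fix the layer `E'/E` when `E'` is unramified outside `S`. -/
theorem inertia_fixed_layer (hE' : E'.IsUnramifiedOutside S) {q : Nat.Primes} (hq : q ∉ S)
    (A : ValuationSubring Qb) (hA : A.LiesOverPrime (q : ℕ)) (σ : Qb ≃ₐ[ℚ] Qb)
    (hσ : σ ∈ A.inertiaSubgroupIn ℚ) (x : layer h) :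
    σ (algebraMap (layer h) Qb x) = algebraMap (layer h) Qb x := by
  have h1 := hE'.2 q hq A hA hσ
  rw [IntermediateField.mem_fixingSubgroup_iff] at h1
  exact h1 _ x.2

/-- **U-BRIDGE (ii), layer form**: if `E'` is unramified outside `S` (Prelude), then for `q ∉ S`
the layer `E'/E` satisfies `IsUnramAt K τ'` at every `τ'`, for every base `K` over which the layer
is normal (e.g. `K = E` or `K = fixedField H`). -/
theorem isUnramAt_layer_of_isUnramifiedOutside (hE' : E'.IsUnramifiedOutside S) {q : Nat.Primes}
    (hq : q ∉ S) (K : Type) [Field K] [Algebra K (layer h)] [Normal K (layer h)]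
    (τ' : LocalEmb (q : ℕ) (layer h)) :
    haveI := hE'.1
    haveI := numberField_layer h
    IsUnramAt K τ' := by
  haveI := hE'.1
  haveI := numberField_layer h
  haveI := isAlgebraic_layer h
  exact isUnramAt_of_inertia_fixed K (inertia_fixed_layer h hE' hq) τ'

/-- **U-BRIDGE (iii)**: the shape of `hunr` of `PLayerInvTransport.sClassInvSystem` and of
`hunr1`, `hunr2` of `SClassIdele`: for `E'` unramified outside `S` (Prelude) and `q ∉ S`, the
integral semi-local units of the layer `E'/E` at `q` have trivial `H¹`, `H²` for every subgroup of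
the Galois group. -/
theorem h1h2TrivialOn_of_isUnramifiedOutside (hE' : E'.IsUnramifiedOutside S)
    [Normal E (layer h)] (H : Subgroup (layer h ≃ₐ[E] layer h)) (q : Nat.Primes) (hq : q ∉ S) :
    H1TrivialOn H (semiLocalIntegral (q : ℕ) (layer h)) ∧
      H2TrivialOn H (semiLocalIntegral (q : ℕ) (layer h)) := by
  haveI := hE'.1
  haveI : FiniteDimensional ℚ E :=
    FiniteDimensional.of_injective (IntermediateField.inclusion h).toLinearMap
      (IntermediateField.inclusion_injective h)
  haveI : NumberField E := numberField_of_finiteDimensional E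
  haveI : FiniteDimensional E (layer h) := finiteDimensional_layer h
  haveI : NumberField (layer h) := numberField_layer h
  haveI : IsGalois E (layer h) := { to_isSeparable := inferInstance, to_normal := inferInstance }
  have hunr : ∀ ω : LocalPlace (q : ℕ) (fixedField H),
      IsUnramAt (fixedField H) (placeLift (fixedField H) ω : LocalEmb (q : ℕ) (layer h)) :=
    fun ω => isUnramAt_layer_of_isUnramifiedOutside h hE' hq (fixedField H) _
  exact ⟨semiLocalIntegral_h1TrivialOn_subgroup E H hunr,
    semiLocalIntegral_h2TrivialOn_subgroup E H hunr⟩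

/-- Norm surjectivity on the integral semi-local units, same hypotheses. -/
theorem normSurjOn_of_isUnramifiedOutside (hE' : E'.IsUnramifiedOutside S)
    [Normal E (layer h)] (H : Subgroup (layer h ≃ₐ[E] layer h)) [Fintype H] (q : Nat.Primes)
    (hq : q ∉ S) : NormSurjOn H (semiLocalIntegral (q : ℕ) (layer h)) := by
  haveI := hE'.1
  haveI : FiniteDimensional ℚ E :=
    FiniteDimensional.of_injective (IntermediateField.inclusion h).toLinearMap
      (IntermediateField.inclusion_injective h)
  haveI : NumberField E := numberField_of_finiteDimensional E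
  haveI : FiniteDimensional E (layer h) := finiteDimensional_layer h
  haveI : NumberField (layer h) := numberField_layer h
  haveI : IsGalois E (layer h) := { to_isSeparable := inferInstance, to_normal := inferInstance }
  have hunr : ∀ ω : LocalPlace (q : ℕ) (fixedField H),
      IsUnramAt (fixedField H) (placeLift (fixedField H) ω : LocalEmb (q : ℕ) (layer h)) :=
    fun ω => isUnramAt_layer_of_isUnramifiedOutside h hE' hq (fixedField H) _
  exact semiLocalIntegral_normSurjOn_subgroup E H hunr

/-- **U-BRIDGE (iv)** (`hne`): every field has an embedding into `ℚ̄_q`. -/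
theorem nonempty_localEmb_layer (q : ℕ) [Fact q.Prime] : Nonempty (LocalEmb q (layer h)) := by
  haveI : Algebra.IsAlgebraic ℚ (layer h) := Algebra.IsAlgebraic.of_injective
    (IsScalarTower.toAlgHom ℚ (layer h) Qb) (algebraMap (layer h) Qb).injective
  obtain ⟨τ, -⟩ := localEmbRestrict_surjective (q := q) ℚ (L := layer h)
    ((algebraMap ℚ_[q] (PadicAlgCl q)).comp (algebraMap ℚ ℚ_[q]))
  exact ⟨τ⟩

theorem exists_localEmb_layer {S' : Set Nat.Primes} (hS' : S'.Nonempty) :
    ∃ q ∈ S', Nonempty (LocalEmb ((q : Nat.Primes) : ℕ) (layer h)) := by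
  obtain ⟨q, hq⟩ := hS'
  exact ⟨q, hq, nonempty_localEmb_layer h (q : ℕ)⟩

end Layer

end Fermat.Agent.CFT.IdeleDict
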