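import Fermat.Agent.CFT.Global.IdeleDict.DictEmb
import Fermat.Agent.CFT.Global.SUnits

/-!
# Layer C, node C1c (dictionary), part 2: norms versus valuations

* `ordAt P x : ℤ`, the `P`-adic order of `x : Kˣ` (`P.valuation K x = exp (-(ordAt P x))`);
* `ramIdx τ = ordAt (primeOfH τ) q`, the ramification index of the prime of `τ` over `q`;
* **(ii)** `‖τ x‖ ^ ramIdx τ = (q⁻¹) ^ ordAt (primeOfH τ) x`;
* `τ K` is dense in `K_τ = localFieldAt τ`; hence the value group of `K_τ` is that of `τ K`;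
* `semiLocalOrd f τ : ℤ`, the order of a semi-local unit at (the place of) `τ`.
-/

set_option autoImplicit false
set_option linter.unusedSectionVars false

open scoped NumberField

noncomputable section

namespace Fermat.Agent.CFT.IdeleDict

open NumberField IsDedekindDomain Fermat.Agent.CFT Fermat.Agent.CFT.SUnits

section Ord

variable {K : Type} [Field K] [NumberField K]

/-- The `P`-adic order of a unit of `K`. -/
def ordAt (P : HeightOneSpectrum (𝓞 K)) (x : Kˣ) : ℤ :=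
  -(Multiplicative.toAdd (unitOrd K P x))

theorem ordAt_mul (P : HeightOneSpectrum (𝓞 K)) (x y : Kˣ) :
    ordAt P (x * y) = ordAt P x + ordAt P y := by
  simp only [ordAt, map_mul, toAdd_mul]; ring

theorem ordAt_one (P : HeightOneSpectrum (𝓞 K)) : ordAt P (1 : Kˣ) = 0 := by
  simp [ordAt]

theorem ordAt_inv (P : HeightOneSpectrum (𝓞 K)) (x : Kˣ) : ordAt P x⁻¹ = -ordAt P x := by
  simp only [ordAt, map_inv, toAdd_inv]

theorem ordAt_div (P : HeightOneSpectrum (𝓞 K)) (x y : Kˣ) :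
    ordAt P (x / y) = ordAt P x - ordAt P y := by
  rw [div_eq_mul_inv, ordAt_mul, ordAt_inv]; ring

theorem ordAt_zpow (P : HeightOneSpectrum (𝓞 K)) (x : Kˣ) (n : ℤ) :
    ordAt P (x ^ n) = n * ordAt P x := by
  simp only [ordAt, map_zpow, toAdd_zpow, smul_eq_mul]; ring

theorem ordAt_pow (P : HeightOneSpectrum (𝓞 K)) (x : Kˣ) (n : ℕ) :
    ordAt P (x ^ n) = n * ordAt P x := by
  rw [← zpow_natCast, ordAt_zpow]

theorem ordAt_prod {ι : Type*} (P : HeightOneSpectrum (𝓞 K)) (s : Finset ι) (f : ι → Kˣ) :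
    ordAt P (∏ i ∈ s, f i) = ∑ i ∈ s, ordAt P (f i) := by
  classical
  induction s using Finset.induction_on with
  | empty => simp [ordAt_one]
  | insert a s ha ih => rw [Finset.prod_insert ha, Finset.sum_insert ha, ordAt_mul, ih]

theorem valuation_eq_exp_neg_ordAt (P : HeightOneSpectrum (𝓞 K)) (x : Kˣ) :
    P.valuation K (x : K) = WithZero.exp (-(ordAt P x)) := by
  rw [← coe_unitOrd, ordAt, neg_neg]
  rfl

theorem ordAt_eq_zero_iff (P : HeightOneSpectrum (𝓞 K)) (x : Kˣ) :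
    ordAt P x = 0 ↔ P.valuation K (x : K) = 1 := by
  rw [← unitOrd_eq_one_iff, ordAt, neg_eq_zero]
  exact Iff.rfl

theorem ordAt_pos_iff (P : HeightOneSpectrum (𝓞 K)) (x : Kˣ) :
    0 < ordAt P x ↔ P.valuation K (x : K) < 1 := by
  rw [valuation_eq_exp_neg_ordAt, ← WithZero.exp_zero, WithZero.exp_lt_exp]
  omega

theorem ordAt_nonneg_iff (P : HeightOneSpectrum (𝓞 K)) (x : Kˣ) :
    0 ≤ ordAt P x ↔ P.valuation K (x : K) ≤ 1 := by
  rw [valuation_eq_exp_neg_ordAt, ← WithZero.exp_zero, WithZero.exp_le_exp]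
  omega

end Ord

section Ram

variable {q : ℕ} [Fact q.Prime] {K : Type} [Field K] [NumberField K]

variable (q K) in
/-- The rational prime `q` as a unit of `K`. -/
def primeUnit : Kˣ :=
  Units.mk0 (q : K) (by exact_mod_cast (Fact.out : q.Prime).ne_zero)

@[simp]
theorem coe_primeUnit : ((primeUnit q K : Kˣ) : K) = (q : K) := rfl

/-- The ramification index of the prime of `τ` over `q`. -/
def ramIdx (τ : LocalEmb q K) : ℤ := ordAt (primeOfH τ) (primeUnit q K)

theorem ramIdx_pos (τ : LocalEmb q K) : 0 < ramIdx τ := by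
  rw [ramIdx, ordAt_pos_iff, coe_primeUnit, ← norm_emb_lt_one_iff]
  exact norm_emb_self_lt_one τ

theorem ramIdx_smul (γ : Gq q) (τ : LocalEmb q K) : ramIdx (γ • τ) = ramIdx τ := by
  rw [ramIdx, ramIdx, primeOfH_smul]

theorem ramIdx_eq_of_primeOf_eq {τ τ' : LocalEmb q K} (h : primeOf τ = primeOf τ') :
    ramIdx τ = ramIdx τ' := by
  have hH : primeOfH τ = primeOfH τ' := HeightOneSpectrum.ext h
  rw [ramIdx, ramIdx, hH]

/-- **Dictionary (ii)**: `‖τ x‖ ^ e = (q⁻¹) ^ ord_P x`, `P` the prime of `τ`, `e = e(P | q)`. -/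
theorem norm_emb_zpow_ramIdx (τ : LocalEmb q K) (x : Kˣ) :
    ‖τ (x : K)‖ ^ (ramIdx τ) = ((q : ℝ)⁻¹) ^ (ordAt (primeOfH τ) x) := by
  set n := ordAt (primeOfH τ) x with hn
  set e := ramIdx τ with he
  -- `z = x ^ e / q ^ n` is a unit at the prime of `τ`
  set z : Kˣ := x ^ e / (primeUnit q K) ^ n with hz
  have hz0 : ordAt (primeOfH τ) z = 0 := by
    rw [hz, ordAt_div, ordAt_zpow, ordAt_zpow, ← hn, ← ramIdx, ← he]; ring
  have hz1 : ‖τ (z : K)‖ = 1 := by
    rw [norm_emb_eq_one_iff, ← ordAt_eq_zero_iff]; exact hz0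
  have hzval : (z : K) = (x : K) ^ e / (q : K) ^ n := by
    rw [hz]; push_cast; rfl
  rw [hzval, map_div₀, map_zpow₀, map_zpow₀, norm_div, norm_zpow, norm_zpow, norm_emb_self] at hz1
  have hq0 : (0 : ℝ) < (q : ℝ)⁻¹ ^ n :=
    zpow_pos (inv_pos.mpr (by exact_mod_cast (Fact.out : q.Prime).pos)) _
  rwa [div_eq_one_iff_eq hq0.ne'] at hz1

theorem norm_emb_eq_one_iff_ordAt (τ : LocalEmb q K) (x : Kˣ) :
    ‖τ (x : K)‖ = 1 ↔ ordAt (primeOfH τ) x = 0 := by
  rw [norm_emb_eq_one_iff, ordAt_eq_zero_iff]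

end Ram

section Density

variable {q : ℕ} [Fact q.Prime] {K : Type} [Field K] [NumberField K]

/-- `τ K` is dense in `K_τ = ℚ_q(τ K)`. -/
theorem exists_norm_emb_sub_lt (τ : LocalEmb q K) {u : PadicAlgCl q} (hu : u ∈ localFieldAt τ)
    {ε : ℝ} (hε : 0 < ε) : ∃ y : K, ‖τ y - u‖ < ε := by
  obtain ⟨θ, hθ⟩ := Field.exists_primitive_element ℚ K
  rw [localFieldAt_eq_adjoin_simple τ hθ, ← IntermediateField.mem_toSubalgebra,
    IntermediateField.adjoin_simple_toSubalgebra_of_isAlgebraic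
      (Algebra.IsAlgebraic.isAlgebraic (τ θ)),
    Algebra.adjoin_singleton_eq_range_aeval] at hu
  obtain ⟨g, rfl⟩ := hu
  set M := max 1 ‖τ θ‖ with hMdef
  have hM1 : 1 ≤ M := le_max_left _ _
  have hMd : 0 < M ^ g.natDegree := pow_pos (zero_lt_one.trans_le hM1) _
  set ε' := ε / (2 * M ^ g.natDegree) with hε'
  have hε'0 : 0 < ε' := div_pos hε (mul_pos two_pos hMd)
  have hε'M : ε' * M ^ g.natDegree < ε := by
    rw [hε', div_mul_eq_mul_div, div_lt_iff₀ (mul_pos two_pos hMd)]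
    nlinarith
  choose r hr using fun i : ℕ => Padic.rat_dense q (g.coeff i) hε'0
  refine ⟨∑ i ∈ Finset.range (g.natDegree + 1), (r i : K) * θ ^ i, ?_⟩
  have hmap : τ (∑ i ∈ Finset.range (g.natDegree + 1), (r i : K) * θ ^ i) =
      ∑ i ∈ Finset.range (g.natDegree + 1), (r i : PadicAlgCl q) * (τ θ) ^ i := by
    rw [map_sum]
    refine Finset.sum_congr rfl fun i _ => ?_
    rw [map_mul, map_pow, map_ratCast]
  rw [hmap]
  exact lt_of_le_of_lt (norm_sum_ratCast_sub_aeval_le g r hε'0.le hM1 (fun i => (hr i).le)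
    (le_max_right _ _)) hε'M

/-- The value group of `K_τ` equals that of `τ K`. -/
theorem exists_unit_norm_emb_eq (τ : LocalEmb q K) {u : PadicAlgCl q} (hu : u ∈ localFieldAt τ)
    (hu0 : u ≠ 0) : ∃ y : Kˣ, ‖τ (y : K) - u‖ < ‖u‖ ∧ ‖τ (y : K)‖ = ‖u‖ := by
  obtain ⟨y, hy⟩ := exists_norm_emb_sub_lt τ hu (norm_pos_iff.mpr hu0)
  have hnorm : ‖τ y‖ = ‖u‖ := by
    have hsplit : τ y = (τ y - u) + u := by ring
    rw [hsplit, IsUltrametricDist.norm_add_eq_max_of_norm_ne_norm (ne_of_lt hy)]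
    exact max_eq_right hy.le
  have hy0 : y ≠ 0 := by
    rintro rfl
    rw [map_zero, norm_zero] at hnorm
    exact hu0 (norm_eq_zero.mp hnorm.symm)
  exact ⟨Units.mk0 y hy0, hy, hnorm⟩

end Density

section SemiLocalOrd

variable {q : ℕ} [Fact q.Prime] {K : Type} [Field K] [NumberField K]

theorem exists_unit_norm_emb_eq_apply (f : semiLocalUnits q K) (τ : LocalEmb q K) :
    ∃ y : Kˣ, ‖τ (y : K)‖ = ‖((f : LocalEmb q K → (PadicAlgCl q)ˣ) τ : PadicAlgCl q)‖ := by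
  obtain ⟨y, -, hy⟩ := exists_unit_norm_emb_eq τ (semiLocalUnits_apply_mem f τ)
    ((f : LocalEmb q K → (PadicAlgCl q)ˣ) τ).ne_zero
  exact ⟨y, hy⟩

/-- The order of a semi-local unit `f` at (the place of) `τ`. -/
def semiLocalOrd (f : semiLocalUnits q K) (τ : LocalEmb q K) : ℤ :=
  ordAt (primeOfH τ) (Classical.choose (exists_unit_norm_emb_eq_apply f τ))

theorem inv_prime_pos : (0 : ℝ) < (q : ℝ)⁻¹ :=
  inv_pos.mpr (by exact_mod_cast (Fact.out : q.Prime).pos)

theorem inv_prime_ne_one : (q : ℝ)⁻¹ ≠ 1 := by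
  have hq : (1 : ℝ) < q := by exact_mod_cast (Fact.out : q.Prime).one_lt
  exact (inv_lt_one_of_one_lt₀ hq).ne

/-- Characterisation of the order: `‖f τ‖ ^ e = (q⁻¹) ^ ord`. -/
theorem norm_apply_zpow_ramIdx (f : semiLocalUnits q K) (τ : LocalEmb q K) :
    ‖((f : LocalEmb q K → (PadicAlgCl q)ˣ) τ : PadicAlgCl q)‖ ^ (ramIdx τ) =
      ((q : ℝ)⁻¹) ^ (semiLocalOrd f τ) := by
  rw [← Classical.choose_spec (exists_unit_norm_emb_eq_apply f τ), norm_emb_zpow_ramIdx]
  rfl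

theorem semiLocalOrd_eq_iff (f : semiLocalUnits q K) (τ : LocalEmb q K) (n : ℤ) :
    semiLocalOrd f τ = n ↔
      ‖((f : LocalEmb q K → (PadicAlgCl q)ˣ) τ : PadicAlgCl q)‖ ^ (ramIdx τ) =
        ((q : ℝ)⁻¹) ^ n := by
  rw [norm_apply_zpow_ramIdx]
  exact ⟨fun h => by rw [h], fun h => zpow_right_injective₀ inv_prime_pos inv_prime_ne_one h⟩

theorem semiLocalOrd_one (τ : LocalEmb q K) : semiLocalOrd (1 : semiLocalUnits q K) τ = 0 := by
  rw [semiLocalOrd_eq_iff]
  simp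

theorem semiLocalOrd_mul (f g : semiLocalUnits q K) (τ : LocalEmb q K) :
    semiLocalOrd (f * g) τ = semiLocalOrd f τ + semiLocalOrd g τ := by
  rw [semiLocalOrd_eq_iff, zpow_add₀ inv_prime_pos.ne', ← norm_apply_zpow_ramIdx,
    ← norm_apply_zpow_ramIdx, ← mul_zpow, ← norm_mul]
  rfl

theorem semiLocalOrd_inv (f : semiLocalUnits q K) (τ : LocalEmb q K) :
    semiLocalOrd f⁻¹ τ = -semiLocalOrd f τ := by
  have h := semiLocalOrd_mul f f⁻¹ τ
  rw [mul_inv_cancel, semiLocalOrd_one] at h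
  omega

theorem semiLocalOrd_div (f g : semiLocalUnits q K) (τ : LocalEmb q K) :
    semiLocalOrd (f / g) τ = semiLocalOrd f τ - semiLocalOrd g τ := by
  rw [div_eq_mul_inv, semiLocalOrd_mul, semiLocalOrd_inv]; ring

/-- The order at `τ`, as a homomorphism. -/
def semiLocalOrdHom (τ : LocalEmb q K) : semiLocalUnits q K →* Multiplicative ℤ where
  toFun f := Multiplicative.ofAdd (semiLocalOrd f τ)
  map_one' := by rw [semiLocalOrd_one]; rfl
  map_mul' f g := by rw [semiLocalOrd_mul]; rfl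

theorem semiLocalOrd_smul (f : semiLocalUnits q K) (γ : Gq q) (τ : LocalEmb q K) :
    semiLocalOrd f (γ • τ) = semiLocalOrd f τ := by
  rw [semiLocalOrd_eq_iff, ramIdx_smul, semiLocalUnits_apply_smul, norm_gq_apply,
    norm_apply_zpow_ramIdx]

theorem semiLocalOrd_eq_of_primeOf_eq (f : semiLocalUnits q K) {τ τ' : LocalEmb q K}
    (h : primeOf τ = primeOf τ') : semiLocalOrd f τ = semiLocalOrd f τ' := by
  obtain ⟨γ, rfl⟩ := exists_smul_eq_of_primeOf_eq h
  rw [semiLocalOrd_smul]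

theorem semiLocalOrd_diag (x : Kˣ) (τ : LocalEmb q K) :
    semiLocalOrd (semiLocalDiag x : semiLocalUnits q K) τ = ordAt (primeOfH τ) x := by
  rw [semiLocalOrd_eq_iff, semiLocalDiag_apply, norm_emb_zpow_ramIdx]

theorem semiLocalOrd_eq_zero_iff (f : semiLocalUnits q K) (τ : LocalEmb q K) :
    semiLocalOrd f τ = 0 ↔
      ‖((f : LocalEmb q K → (PadicAlgCl q)ˣ) τ : PadicAlgCl q)‖ = 1 := by
  rw [semiLocalOrd_eq_iff, zpow_zero]
  constructor
  · intro h
    have hpos := ramIdx_pos τ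
    have hnn : (0 : ℝ) ≤ ‖((f : LocalEmb q K → (PadicAlgCl q)ˣ) τ : PadicAlgCl q)‖ :=
      norm_nonneg _
    obtain ⟨e, he⟩ := Int.eq_ofNat_of_zero_le hpos.le
    rw [he, zpow_natCast] at h
    have he0 : e ≠ 0 := by
      rintro rfl
      rw [he] at hpos
      exact lt_irrefl _ hpos
    exact (pow_eq_one_iff_of_nonneg hnn he0).mp h
  · intro h
    rw [h, one_zpow]

/-- `f` is integral at `q` iff all its orders vanish. -/
theorem mem_semiLocalIntegral_iff_ord (f : semiLocalUnits q K) :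
    f ∈ semiLocalIntegral q K ↔ ∀ τ : LocalEmb q K, semiLocalOrd f τ = 0 := by
  rw [mem_semiLocalIntegral]
  exact forall_congr' fun τ => (semiLocalOrd_eq_zero_iff f τ).symm

end SemiLocalOrd

end Fermat.Agent.CFT.IdeleDict
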