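import Fermat.Agent.CFT.Global.IdeleDict.DictEmb
import Fermat.Agent.CFT.Global.SemiLocalIntegralCor
import Fermat.Agent.CFT.Local.LayerUnramDefs

/-!
# Bridge between the Layer-B unramified setting and the norm formulation `IsUnramAt`

* `isIntegral_padicInt_iff_norm_le_one`: for `y : PadicAlgCl q`, `IsIntegral ℤ_[q] y ↔ ‖y‖ ≤ 1`;
-/

set_option autoImplicit false
set_option linter.unusedSectionVars false
set_option linter.style.haveILetI false

open scoped NumberField

noncomputable section

namespace Fermat.Agent.CFT.IdeleDict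

open Fermat.Agent.CFT Polynomial

section Integral

variable {q : ℕ} [Fact q.Prime]

/-- Elements of `ℚ̄_q` integral over `ℤ_q` have norm at most one. -/
theorem norm_le_one_of_isIntegral_padicInt {y : PadicAlgCl q} (hy : IsIntegral ℤ_[q] y) :
    ‖y‖ ≤ 1 := by
  by_contra hlt
  push Not at hlt
  obtain ⟨p, hpm, hp⟩ := hy
  rw [← Polynomial.aeval_def] at hp
  have hsum := Polynomial.aeval_eq_sum_range (p := p) y
  rw [hp, Finset.sum_range_succ, hpm.coeff_natDegree, one_smul] at hsum
  have hyn : y ^ p.natDegree = - ∑ i ∈ Finset.range p.natDegree, p.coeff i • y ^ i :=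
    eq_neg_of_add_eq_zero_right hsum.symm
  have hlt' : ‖∑ i ∈ Finset.range p.natDegree, p.coeff i • y ^ i‖ < ‖y‖ ^ p.natDegree := by
    by_cases hn : p.natDegree = 0
    · rw [hn, Finset.range_zero, Finset.sum_empty, norm_zero, pow_zero]; exact one_pos
    have hne : (Finset.range p.natDegree).Nonempty :=
      ⟨0, Finset.mem_range.mpr (Nat.pos_of_ne_zero hn)⟩
    obtain ⟨i, hi, hle⟩ := IsUltrametricDist.exists_norm_finsetSum_le_of_nonempty hne
      (fun i => p.coeff i • y ^ i)
    refine lt_of_le_of_lt hle ?_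
    rw [Algebra.smul_def, norm_mul, norm_pow]
    have h1 : ‖algebraMap ℤ_[q] (PadicAlgCl q) (p.coeff i)‖ ≤ 1 := by
      have : algebraMap ℤ_[q] (PadicAlgCl q) (p.coeff i) =
          algebraMap ℚ_[q] (PadicAlgCl q) ((p.coeff i : ℤ_[q]) : ℚ_[q]) := rfl
      rw [this, norm_algebraMap']
      exact (p.coeff i).2
    have h2 : ‖y‖ ^ i < ‖y‖ ^ p.natDegree := pow_lt_pow_right₀ hlt (Finset.mem_range.mp hi)
    calc ‖algebraMap ℤ_[q] (PadicAlgCl q) (p.coeff i)‖ * ‖y‖ ^ i ≤ 1 * ‖y‖ ^ i :=
          mul_le_mul_of_nonneg_right h1 (pow_nonneg (norm_nonneg _) _)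
      _ = ‖y‖ ^ i := one_mul _
      _ < ‖y‖ ^ p.natDegree := h2
  rw [← norm_pow, hyn, norm_neg] at hlt'
  exact lt_irrefl _ hlt'

/-- Elements of `ℚ̄_q` of norm at most one are integral over `ℤ_q`. -/
theorem isIntegral_padicInt_of_norm_le_one {y : PadicAlgCl q} (hy : ‖y‖ ≤ 1) :
    IsIntegral ℤ_[q] y := by
  have halg : IsIntegral ℚ_[q] y := (PadicAlgCl.isAlgebraic q).isAlgebraic y |>.isIntegral
  have hmonic : (minpoly ℚ_[q] y).Monic := minpoly.monic halg
  have hsv : spectralValue (minpoly ℚ_[q] y) ≤ 1 := by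
    have : spectralNorm ℚ_[q] (PadicAlgCl q) y = ‖y‖ := PadicAlgCl.spectralNorm_eq q y
    rw [spectralNorm] at this
    rw [this]
    exact hy
  have hcoeff := (spectralValue_le_one_iff hmonic).mp hsv
  have hlift : minpoly ℚ_[q] y ∈ Polynomial.lifts (algebraMap ℤ_[q] ℚ_[q]) := by
    rw [Polynomial.lifts_iff_coeff_lifts]
    intro n
    exact ⟨⟨(minpoly ℚ_[q] y).coeff n, hcoeff n⟩, rfl⟩
  obtain ⟨g, hg, -, hgm⟩ := Polynomial.lifts_and_degree_eq_and_monic hlift hmonic
  refine ⟨g, hgm, ?_⟩
  have h0 : Polynomial.aeval y (minpoly ℚ_[q] y) = 0 := minpoly.aeval ℚ_[q] y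
  rw [← hg, Polynomial.aeval_def, Polynomial.eval₂_map] at h0
  exact h0

theorem isIntegral_padicInt_iff_norm_le_one {y : PadicAlgCl q} :
    IsIntegral ℤ_[q] y ↔ ‖y‖ ≤ 1 :=
  ⟨norm_le_one_of_isIntegral_padicInt, isIntegral_padicInt_of_norm_le_one⟩

end Integral

/-! ### Subrings cut out by an absolute value -/

section AbsSubring

variable {A F : Type*} [CommRing A] [Field F] [Algebra A F] (R : Subalgebra A F)
  (ν : AbsoluteValue F ℝ) (hR : ∀ x : F, x ∈ R ↔ ν x ≤ 1)

include hR in
theorem isUnit_iff_abv_eq_one (x : R) : IsUnit x ↔ ν (x : F) = 1 := by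
  constructor
  · rintro ⟨u, rfl⟩
    have h1 : ν ((u : R) : F) ≤ 1 := (hR _).mp (u : R).2
    have h2 : ν (((u⁻¹ : Rˣ) : R) : F) ≤ 1 := (hR _).mp ((u⁻¹ : Rˣ) : R).2
    have h3 : ν ((u : R) : F) * ν (((u⁻¹ : Rˣ) : R) : F) = 1 := by
      rw [← map_mul, ← Subalgebra.coe_mul, ← Units.val_mul, mul_inv_cancel, Units.val_one,
        Subalgebra.coe_one, map_one]
    by_contra hne
    have hlt : ν ((u : R) : F) < 1 := lt_of_le_of_ne h1 hne
    have : ν ((u : R) : F) * ν (((u⁻¹ : Rˣ) : R) : F) < 1 :=
      calc ν ((u : R) : F) * ν (((u⁻¹ : Rˣ) : R) : F) ≤ ν ((u : R) : F) * 1 :=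
            mul_le_mul_of_nonneg_left h2 (ν.nonneg _)
        _ < 1 := by rwa [mul_one]
    rw [h3] at this
    exact lt_irrefl _ this
  · intro h
    have hx0 : (x : F) ≠ 0 := by
      intro h0
      rw [h0, map_zero] at h
      exact zero_ne_one h
    have hinv : ν ((x : F)⁻¹) = 1 := by rw [map_inv₀, h, inv_one]
    have hmem : (x : F)⁻¹ ∈ R := (hR _).mpr hinv.le
    refine ⟨⟨x, ⟨(x : F)⁻¹, hmem⟩, ?_, ?_⟩, rfl⟩
    · exact Subtype.ext (mul_inv_cancel₀ hx0)
    · exact Subtype.ext (inv_mul_cancel₀ hx0)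

include hR in
theorem mem_maximalIdeal_iff_abv_lt_one [IsLocalRing R] (x : R) :
    x ∈ IsLocalRing.maximalIdeal R ↔ ν (x : F) < 1 := by
  rw [IsLocalRing.mem_maximalIdeal, mem_nonunits_iff, isUnit_iff_abv_eq_one R ν hR]
  have h1 : ν (x : F) ≤ 1 := (hR _).mp x.2
  exact ⟨fun h => lt_of_le_of_ne h1 h, fun h => h.ne⟩

end AbsSubring

/-! ### Layers of a tower inside a normed field -/

section AbstractLayer

open Fermat.Agent.CFT.GaloisTower Fermat.Agent.CFT.Tower IsLocalRing

/-- The absolute value `x ↦ ‖ι x‖` attached to a ring homomorphism into a normed field. -/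
def normAbv {F Ω : Type*} [Field F] [NormedField Ω] (ι : F →+* Ω) : AbsoluteValue F ℝ where
  toFun x := ‖ι x‖
  map_mul' x y := by rw [map_mul, norm_mul]
  nonneg' x := norm_nonneg _
  eq_zero' x := by rw [norm_eq_zero, map_eq_zero]
  add_le' x y := by rw [map_add]; exact norm_add_le _ _

@[simp]
theorem normAbv_apply {F Ω : Type*} [Field F] [NormedField Ω] (ι : F →+* Ω) (x : F) :
    normAbv ι x = ‖ι x‖ := rfl

variable (O : Type) {k Ω : Type} [CommRing O] [Field k] [Algebra O k] [NormedField Ω]
  [Algebra k Ω] [Algebra O Ω] [IsScalarTower O k Ω]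
  (hint : ∀ y : Ω, IsIntegral O y ↔ ‖y‖ ≤ 1)
  {E E' : IntermediateField k Ω} (h : E ≤ E')

include hint in
theorem mem_intRing_iff_norm_le_one (x : E) :
    x ∈ integralClosure O E ↔ normAbv (algebraMap E Ω) x ≤ 1 := by
  rw [mem_integralClosure_iff_coe O E x]
  exact hint _

include hint in
theorem mem_intRing_layer_iff_norm_le_one (y : layer h) :
    y ∈ integralClosure (integralClosure O E) (layer h) ↔
      normAbv (algebraMap (layer h) Ω) y ≤ 1 := by
  rw [mem_integralClosure_layer_iff O h y]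
  exact hint _

include hint in
/-- If `ϖ ∈ O` has norm `< 1` and generates the value group of `E'`, the layer `E'/E` is
unramified: the maximal ideal of the ring of integers of `E` generates the maximal ideal
upstairs. -/
theorem map_maximalIdeal_layer_eq (ϖ : O) (hϖ0 : algebraMap O Ω ϖ ≠ 0)
    (hϖ : ‖algebraMap O Ω ϖ‖ < 1)
    (hV : ∀ y : Ω, y ∈ E' → y ≠ 0 → ∃ n : ℤ, ‖y‖ = ‖algebraMap O Ω ϖ‖ ^ n)
    [IsLocalRing (integralClosure O E)]
    [IsLocalRing (integralClosure (integralClosure O E) (layer h))] :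
    (maximalIdeal (integralClosure O E)).map
        (algebraMap (integralClosure O E) (integralClosure (integralClosure O E) (layer h))) =
      maximalIdeal (integralClosure (integralClosure O E) (layer h)) := by
  have hRE := mem_intRing_iff_norm_le_one O hint (E := E)
  have hRL := mem_intRing_layer_iff_norm_le_one O hint h
  set r : ℝ := ‖algebraMap O Ω ϖ‖ with hr
  have hrpos : 0 < r := norm_pos_iff.mpr hϖ0
  apply le_antisymm
  · rw [Ideal.map_le_iff_le_comap]
    intro x hx
    rw [Ideal.mem_comap, mem_maximalIdeal_iff_abv_lt_one _ _ hRL]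
    exact (mem_maximalIdeal_iff_abv_lt_one _ _ hRE x).mp hx
  · intro y hy
    have hylt : ‖algebraMap (layer h) Ω (y : layer h)‖ < 1 :=
      (mem_maximalIdeal_iff_abv_lt_one _ _ hRL y).mp hy
    by_cases hy0 : (y : layer h) = 0
    · have : y = 0 := Subtype.ext hy0
      rw [this]
      exact Ideal.zero_mem _
    have hy0' : algebraMap (layer h) Ω (y : layer h) ≠ 0 := by
      rwa [Ne, map_eq_zero]
    obtain ⟨n, hn⟩ := hV _ ((y : layer h).2) hy0'
    -- `n ≥ 1`
    have hn1 : 1 ≤ n := by
      by_contra hlt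
      push Not at hlt
      have hn0 : n ≤ 0 := by omega
      have h1 : (1 : ℝ) ≤ r ^ n := by
        rw [← zpow_zero r]
        exact zpow_le_zpow_right_of_le_one₀ hrpos hϖ.le hn0
      have h2 : ‖algebraMap (layer h) Ω (y : layer h)‖ = r ^ n := hn
      rw [h2] at hylt
      exact absurd hylt (not_lt.mpr h1)
    have hyle : ‖algebraMap (layer h) Ω (y : layer h)‖ ≤ r := by
      have h2 : ‖algebraMap (layer h) Ω (y : layer h)‖ = r ^ n := hn
      rw [h2]
      calc r ^ n ≤ r ^ (1 : ℤ) := zpow_le_zpow_right_of_le_one₀ hrpos hϖ.le hn1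
        _ = r := zpow_one r
    -- the uniformizer in the ring of integers of `E`
    set ϖ' : integralClosure O E := algebraMap O (integralClosure O E) ϖ with hϖ'
    have := isScalarTower_mid O E
    have hϖ'norm : ‖algebraMap E Ω (ϖ' : E)‖ = r := by
      have : algebraMap E Ω (ϖ' : E) = algebraMap O Ω ϖ := by
        rw [IsScalarTower.algebraMap_apply O E Ω]
        rfl
      rw [this]
    have hϖ'mem : ϖ' ∈ maximalIdeal (integralClosure O E) := by
      rw [mem_maximalIdeal_iff_abv_lt_one _ _ hRE, normAbv_apply, hϖ'norm]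
      exact hϖ
    -- the quotient `y / ϖ`
    set t : layer h := (y : layer h) / algebraMap E (layer h) (ϖ' : E) with ht
    have htnorm : ‖algebraMap (layer h) Ω t‖ ≤ 1 := by
      rw [ht, map_div₀, norm_div]
      have : algebraMap (layer h) Ω (algebraMap E (layer h) (ϖ' : E)) = algebraMap E Ω (ϖ' : E) :=
        rfl
      rw [this, hϖ'norm]
      exact (div_le_one hrpos).mpr hyle
    have htmem : t ∈ integralClosure (integralClosure O E) (layer h) := (hRL t).mpr htnorm
    have hϖE0 : algebraMap E (layer h) (ϖ' : E) ≠ 0 := by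
      intro h0
      have : ‖algebraMap E Ω (ϖ' : E)‖ = 0 := by
        have h1 : algebraMap E Ω (ϖ' : E) = algebraMap (layer h) Ω (algebraMap E (layer h) (ϖ' : E)) :=
          rfl
        rw [h1, h0, map_zero, norm_zero]
      rw [hϖ'norm] at this
      exact hrpos.ne' this
    have hyeq : y = algebraMap (integralClosure O E)
        (integralClosure (integralClosure O E) (layer h)) ϖ' * ⟨t, htmem⟩ := by
      apply Subtype.ext
      show (y : layer h) = algebraMap E (layer h) (ϖ' : E) * t
      rw [ht, mul_div_cancel₀ _ hϖE0]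
    rw [hyeq]
    exact Ideal.mul_mem_right _ _ (Ideal.mem_map_of_mem _ hϖ'mem)

variable [IsDomain O] [IsDiscreteValuationRing O] [IsAdicComplete (maximalIdeal O) O]
  [Finite (ResidueField O)] [IsFractionRing O k] [CharZero k] [FiniteDimensional k E']

set_option synthInstance.maxHeartbeats 400000 in
set_option maxHeartbeats 1600000 in
include hint in
/-- The three local facts for an unramified layer `E'/E` inside `Ω` (value group generated by the
norm of an element of `O`): cyclic Galois group, norm-one elements of `E` are norms of norm-one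
elements of `E'`, and the value groups agree. -/
theorem layer_unram_facts (ϖ : O) (hϖ0 : algebraMap O Ω ϖ ≠ 0) (hϖ : ‖algebraMap O Ω ϖ‖ < 1)
    (hV : ∀ y : Ω, y ∈ E' → y ≠ 0 → ∃ n : ℤ, ‖y‖ = ‖algebraMap O Ω ϖ‖ ^ n)
    [IsGalois E (layer h)] :
    IsCyclic (layer h ≃ₐ[E] layer h) ∧
    (∀ u : E, ‖algebraMap E Ω u‖ = 1 →
      ∃ y : layer h, ‖algebraMap (layer h) Ω y‖ = 1 ∧ Algebra.norm E y = u) ∧
    (∀ y : layer h, ∃ z : E, ‖algebraMap E Ω z‖ = ‖algebraMap (layer h) Ω y‖) := by
  haveI : FiniteDimensional k E := finiteDimensional_of_le' h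
  haveI := base_isDiscreteValuationRing O k E
  haveI := base_isLocalRing O k E
  haveI := base_isAdicComplete O k E
  haveI := base_finite_residueField O k E
  haveI := base_isFractionRing O k E
  haveI := finiteDimensional_layer' h
  haveI := intRing_isLocalRing (integralClosure O E) E (layer h)
  haveI := intRing_isLocalHom (integralClosure O E) E (layer h)
  have hmap := map_maximalIdeal_layer_eq O hint h ϖ hϖ0 hϖ hV
  have hunr : IsUnramExt (integralClosure O E) (layer h) :=
    (isUnramExt_iff_map_eq (integralClosure O E) (layer h)).mpr hmap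
  have hRE := mem_intRing_iff_norm_le_one O hint (E := E)
  have hRL := mem_intRing_layer_iff_norm_le_one O hint h
  haveI := isScalarTower_mid O E
  refine ⟨isCyclic_gal_of_isUnramExt (integralClosure O E) E (layer h) hunr, ?_, ?_⟩
  · -- norm-one elements are norms
    intro u hu
    have := intRing_isDiscreteValuationRing (integralClosure O E) E (layer h)
    have := intRing_isFractionRing (integralClosure O E) E (layer h)
    have := intRing_finite (integralClosure O E) E (layer h)
    have := intRing_free (integralClosure O E) E (layer h)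
    have := henselianLocalRing_of_isAdicComplete (integralClosure O E)
    have : Module.IsTorsionFree (integralClosure O E) (layer h) :=
      intRing_isTorsionFree (integralClosure O E) E (layer h)
    have : IsLocalization (Algebra.algebraMapSubmonoid
        (integralClosure (integralClosure O E) (layer h))
        (nonZeroDivisors (integralClosure O E))) (layer h) :=
      IsIntegralClosure.isLocalization (integralClosure O E) E (layer h)
        (integralClosure (integralClosure O E) (layer h))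
    have humem : u ∈ integralClosure O E := (hRE u).mpr hu.le
    have huunit : IsUnit (⟨u, humem⟩ : integralClosure O E) :=
      (isUnit_iff_abv_eq_one _ _ hRE _).mpr hu
    obtain ⟨u₀, hu₀⟩ := huunit
    have hfin : Finite ((integralClosure O E) ⧸ maximalIdeal (integralClosure O E)) :=
      ‹Finite (ResidueField (integralClosure O E))›
    obtain ⟨s, hs⟩ := exists_unit_norm_eq (O := integralClosure O E)
      (S := integralClosure (integralClosure O E) (layer h)) hmap u₀
    refine ⟨((s : integralClosure (integralClosure O E) (layer h)) : layer h), ?_, ?_⟩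
    · exact (isUnit_iff_abv_eq_one _ _ hRL _).mp s.isUnit
    · have h1 := Algebra.norm_localization (integralClosure O E)
        (nonZeroDivisors (integralClosure O E)) (Rₘ := E) (Sₘ := layer h)
        (s : integralClosure (integralClosure O E) (layer h))
      rw [hs, hu₀] at h1
      exact h1
  · -- value groups agree
    intro y
    by_cases hy0 : y = 0
    · exact ⟨0, by rw [hy0, map_zero, map_zero]⟩
    have hy0' : algebraMap (layer h) Ω y ≠ 0 := by rwa [Ne, map_eq_zero]
    obtain ⟨n, hn⟩ := hV _ y.2 hy0'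
    refine ⟨(algebraMap O E ϖ) ^ n, ?_⟩
    rw [map_zpow₀, norm_zpow, ← IsScalarTower.algebraMap_apply O E Ω]
    exact hn.symm

end AbstractLayer

/-! ### The hypotheses `IsUnramAt` from the value group -/

section IsUnramAt

variable {q : ℕ} [Fact q.Prime] (K : Type) [Field K] {L : Type} [Field L] [NumberField L]
  [Algebra K L] [Normal K L]

theorem norm_algebraMap_padicInt_prime :
    ‖algebraMap ℤ_[q] (PadicAlgCl q) ((q : ℕ) : ℤ_[q])‖ = (q : ℝ)⁻¹ := by
  have h1 : algebraMap ℤ_[q] (PadicAlgCl q) ((q : ℕ) : ℤ_[q]) = ((q : ℕ) : PadicAlgCl q) :=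
    map_natCast _ _
  rw [h1, norm_natCast_padicAlgCl, Padic.norm_p]

set_option synthInstance.maxHeartbeats 400000 in
set_option maxHeartbeats 1600000 in
/-- If the value group of `L_τ'` is `q^ℤ` (i.e. the prime of `τ'` is unramified over `q`), the
local hypotheses `IsUnramAt K τ'` hold. -/
theorem isUnramAt_of_valueGroup (τ' : LocalEmb q L)
    (hV : ∀ y : PadicAlgCl q, y ∈ localFieldAt τ' → y ≠ 0 → ∃ n : ℤ, ‖y‖ = ((q : ℝ)⁻¹) ^ n) :
    IsUnramAt K τ' := by
  haveI := finiteDimensional_localFieldAt τ'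
  haveI := isGalois_localLayer K τ'
  have hq1 : (1 : ℝ) < q := by exact_mod_cast (Fact.out : q.Prime).one_lt
  have hϖ0 : algebraMap ℤ_[q] (PadicAlgCl q) ((q : ℕ) : ℤ_[q]) ≠ 0 := by
    rw [← norm_ne_zero_iff, norm_algebraMap_padicInt_prime]
    exact (inv_pos.mpr (by linarith)).ne'
  have hϖ : ‖algebraMap ℤ_[q] (PadicAlgCl q) ((q : ℕ) : ℤ_[q])‖ < 1 := by
    rw [norm_algebraMap_padicInt_prime]
    exact inv_lt_one_of_one_lt₀ hq1
  have hV' : ∀ y : PadicAlgCl q, y ∈ localFieldAt τ' → y ≠ 0 →
      ∃ n : ℤ, ‖y‖ = ‖algebraMap ℤ_[q] (PadicAlgCl q) ((q : ℕ) : ℤ_[q])‖ ^ n := by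
    intro y hy hy0
    rw [norm_algebraMap_padicInt_prime]
    exact hV y hy hy0
  obtain ⟨h1, h2, h3⟩ := layer_unram_facts ℤ_[q]
    (fun y => isIntegral_padicInt_iff_norm_le_one) (localFieldAt_restrict_le K τ')
    ((q : ℕ) : ℤ_[q]) hϖ0 hϖ hV'
  exact
    { isCyclic := isCyclic_of_surjective (decompEquiv K τ') (decompEquiv K τ').surjective
      exists_norm_eq := h2
      exists_norm_eq_norm := h3 }

end IsUnramAt

end Fermat.Agent.CFT.IdeleDict
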