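import Fermat.Agent.CFT.Global.IdeleDict.DictContent

/-!
# Layer C, node C1c (dictionary), part 5: weak approximation

* `exists_abv_sub_lt`: Mathlib's abstract weak approximation (`denseRange_algebraMap_pi`) in
  elementwise form;
* `exists_norm_emb_sub_lt_of_places`: simultaneous approximation of elements `u i ∈ K_{τ i}` at
  finitely many pairwise distinct places by one element of `K`;
* **(vi)** `exists_unit_norm_div_sub_one_lt`: for a finite set `T` of rational primes, a family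
  `x` of semi-local units and `ε > 0` there is `a ∈ Kˣ` with `‖τ a / x_q τ - 1‖ < ε` for all
  `q ∈ T` and all `τ : K → ℚ̄_q`.
-/

set_option autoImplicit false
set_option linter.unusedSectionVars false

open scoped NumberField

noncomputable section

namespace Fermat.Agent.CFT.IdeleDict

open NumberField IsDedekindDomain Fermat.Agent.CFT

/-- Abstract weak approximation, elementwise form. -/
theorem exists_abv_sub_lt {F : Type*} [Field F] {ι : Type*} [Finite ι]
    {v : ι → AbsoluteValue F ℝ} (h : ∀ i, (v i).IsNontrivial)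
    (hv : Pairwise fun i j => ¬ (v i).IsEquiv (v j)) (z : ι → F) {ε : ℝ} (hε : 0 < ε) :
    ∃ a : F, ∀ i, v i (a - z i) < ε := by
  have := Fintype.ofFinite ι
  obtain ⟨a, ha⟩ := Metric.denseRange_iff.mp (AbsoluteValue.denseRange_algebraMap_pi h hv)
    (fun i => WithAbs.toAbs (v i) (z i)) ε hε
  rw [dist_pi_lt_iff hε] at ha
  refine ⟨a, fun i => ?_⟩
  have hi := ha i
  rw [dist_comm, dist_eq_norm] at hi
  exact hi

variable {K : Type} [Field K] [NumberField K]

/-- Equivalent embedding absolute values have the same prime. -/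
theorem primeOf_eq_of_isEquiv {q q' : ℕ} [Fact q.Prime] [Fact q'.Prime] {τ : LocalEmb q K}
    {τ' : LocalEmb q' K} (h : (embAbs τ).IsEquiv (embAbs τ')) : primeOf τ = primeOf τ' := by
  ext x
  rw [mem_primeOf, mem_primeOf]
  exact h.lt_one_iff

/-- Weak approximation at finitely many pairwise distinct places of `K`. -/
theorem exists_norm_emb_sub_lt_of_places {ι : Type*} [Finite ι] (q : ι → Nat.Primes)
    (τ : ∀ i, LocalEmb (q i : ℕ) K)
    (hτ : Pairwise fun i j => primeOfH (τ i) ≠ primeOfH (τ j))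
    (u : ∀ i, PadicAlgCl (q i : ℕ)) (hu : ∀ i, u i ∈ localFieldAt (τ i)) {ε : ℝ} (hε : 0 < ε) :
    ∃ a : K, ∀ i, ‖τ i a - u i‖ < ε := by
  choose z hz using fun i => exists_norm_emb_sub_lt (τ i) (hu i) hε
  obtain ⟨a, ha⟩ := exists_abv_sub_lt (v := fun i => embAbs (τ i))
    (fun i => embAbs_isNontrivial (τ i))
    (fun i j hij heq => hτ hij (HeightOneSpectrum.ext (primeOf_eq_of_isEquiv heq))) z hε
  refine ⟨a, fun i => ?_⟩
  have h1 : τ i a - u i = τ i (a - z i) + (τ i (z i) - u i) := by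
    rw [map_sub]; ring
  rw [h1]
  exact lt_of_le_of_lt (IsUltrametricDist.norm_add_le_max _ _) (max_lt (ha i) (hz i))

/-- **(vi) Weak approximation for semi-local units.** -/
theorem exists_unit_norm_div_sub_one_lt (T : Finset Nat.Primes) (x : IdeleProd K) {ε : ℝ}
    (hε : 0 < ε) :
    ∃ a : Kˣ, ∀ q ∈ T, ∀ τ : LocalEmb (q : ℕ) K,
      ‖τ (a : K) / (((x q : semiLocalUnits (q : ℕ) K) :
        LocalEmb (q : ℕ) K → (PadicAlgCl (q : ℕ))ˣ) τ : PadicAlgCl (q : ℕ)) - 1‖ < ε := by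
  classical
  by_cases hT : T = ∅
  · exact ⟨1, fun q hq => by rw [hT] at hq; exact absurd hq (Finset.notMem_empty q)⟩
  obtain ⟨q₀, hq₀⟩ := Finset.nonempty_iff_ne_empty.mpr hT
  -- index set: pairs (q ∈ T, place of K over q)
  let ι := Σ q : T, LocalPlace ((q : Nat.Primes) : ℕ) K
  have hfin : Finite ι := by
    have : ∀ q : T, Finite (LocalPlace ((q : Nat.Primes) : ℕ) K) := fun q =>
      Quotient.finite _
    exact inferInstance
  let qq : ι → Nat.Primes := fun i => (i.1 : Nat.Primes)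
  let ττ : ∀ i : ι, LocalEmb (qq i : ℕ) K := fun i => i.2.emb
  let uu : ∀ i : ι, PadicAlgCl (qq i : ℕ) := fun i =>
    (((x (qq i) : semiLocalUnits (qq i : ℕ) K) :
      LocalEmb (qq i : ℕ) K → (PadicAlgCl (qq i : ℕ))ˣ) (ττ i) : PadicAlgCl (qq i : ℕ))
  have huu : ∀ i, uu i ∈ localFieldAt (ττ i) := fun i => semiLocalUnits_apply_mem _ _
  have huu0 : ∀ i, uu i ≠ 0 := fun i => Units.ne_zero _
  have hpair : Pairwise fun i j : ι => primeOfH (ττ i) ≠ primeOfH (ττ j) := by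
    rintro ⟨q, ω⟩ ⟨q', ω'⟩ hne heq
    apply hne
    have hqq : (q : Nat.Primes) = q' := prime_eq_of_primeOfH_eq _ _ heq
    have hqq' : q = q' := Subtype.ext hqq
    subst hqq'
    obtain ⟨γ, hγ⟩ := exists_smul_eq_of_primeOf_eq (congrArg HeightOneSpectrum.asIdeal heq)
    have h1 : ω.emb.place = ω'.emb.place := by
      show (ω.emb).place = (ω'.emb).place
      have hγ' : γ • ω.emb = ω'.emb := hγ
      rw [← hγ', LocalEmb.place_smul]
    rw [LocalPlace.place_emb, LocalPlace.place_emb] at h1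
    rw [h1]
  -- a positive lower bound for the norms of the targets
  obtain ⟨M, hM⟩ := Finite.exists_le (fun i : ι => ‖uu i‖⁻¹)
  set m : ℝ := (max M 1)⁻¹ with hm
  have hm0 : 0 < m := inv_pos.mpr (lt_of_lt_of_le one_pos (le_max_right _ _))
  have hmle : ∀ i, m ≤ ‖uu i‖ := by
    intro i
    have hpos : 0 < ‖uu i‖ := norm_pos_iff.mpr (huu0 i)
    rw [hm, inv_le_comm₀ (lt_of_lt_of_le one_pos (le_max_right _ _)) hpos]
    exact (hM i).trans (le_max_left _ _)
  set ε₁ : ℝ := min ε 1 with hε₁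
  have hε₁0 : 0 < ε₁ := lt_min hε one_pos
  obtain ⟨a, ha⟩ := exists_norm_emb_sub_lt_of_places qq ττ hpair uu huu (mul_pos hε₁0 hm0)
  -- the key estimate at an arbitrary embedding
  have key : ∀ q ∈ T, ∀ τ : LocalEmb (q : ℕ) K,
      ‖τ a - (((x q : semiLocalUnits (q : ℕ) K) :
        LocalEmb (q : ℕ) K → (PadicAlgCl (q : ℕ))ˣ) τ : PadicAlgCl (q : ℕ))‖ < ε₁ * m ∧
      m ≤ ‖(((x q : semiLocalUnits (q : ℕ) K) :
        LocalEmb (q : ℕ) K → (PadicAlgCl (q : ℕ))ˣ) τ : PadicAlgCl (q : ℕ))‖ := by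
    intro q hq τ
    obtain ⟨γ, hγ⟩ := τ.exists_smul_emb_place
    let i : ι := ⟨⟨q, hq⟩, τ.place⟩
    have hi := ha i
    have hmi := hmle i
    have h1 : (((x q : semiLocalUnits (q : ℕ) K) :
        LocalEmb (q : ℕ) K → (PadicAlgCl (q : ℕ))ˣ) τ : PadicAlgCl (q : ℕ)) = γ (uu i) := by
      rw [← hγ]
      exact semiLocalUnits_apply_smul (x q) γ τ.place.emb
    have h2 : τ a = γ (ττ i a) := by
      rw [← hγ]; rfl
    rw [h1, h2, ← map_sub, norm_gq_apply, norm_gq_apply]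
    exact ⟨hi, hmi⟩
  have ha0 : a ≠ 0 := by
    rintro rfl
    obtain ⟨τ₀⟩ := localEmb_nonempty ((q₀ : Nat.Primes) : ℕ) K
    obtain ⟨h1, h2⟩ := key q₀ hq₀ τ₀
    rw [map_zero, zero_sub, norm_neg] at h1
    have h3 : ε₁ * m ≤ m := by
      have : ε₁ ≤ 1 := min_le_right _ _
      nlinarith
    linarith
  refine ⟨Units.mk0 a ha0, fun q hq τ => ?_⟩
  obtain ⟨h1, h2⟩ := key q hq τ
  set y : PadicAlgCl (q : ℕ) := (((x q : semiLocalUnits (q : ℕ) K) :
    LocalEmb (q : ℕ) K → (PadicAlgCl (q : ℕ))ˣ) τ : PadicAlgCl (q : ℕ)) with hy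
  have hy0 : y ≠ 0 := Units.ne_zero _
  have hypos : 0 < ‖y‖ := norm_pos_iff.mpr hy0
  have h3 : τ ((Units.mk0 a ha0 : Kˣ) : K) / y - 1 = (τ a - y) / y := by
    rw [Units.val_mk0, sub_div, div_self hy0]
  rw [h3, norm_div, div_lt_iff₀ hypos]
  calc ‖τ a - y‖ < ε₁ * m := h1
    _ ≤ ε * ‖y‖ := mul_le_mul (min_le_left _ _) h2 hm0.le hε.le

end Fermat.Agent.CFT.IdeleDict
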