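import Fermat.Agent.CFT.Global.IdeleDefs
import Fermat.Agent.CFT.Global.SemiLocal

/-!
# Layer C, node C1c (dictionary), part 1: embeddings into `ℚ̄_q` and primes of `𝓞 K`

For a number field `K`, a prime `q` and `τ : LocalEmb q K = (K →+* PadicAlgCl q)`:

* `embAbs τ : AbsoluteValue K ℝ`, `x ↦ ‖τ x‖`; it is `Gq`-invariant, nonarchimedean, `≤ 1` on
  integral elements, and `embAbs τ q = q⁻¹`;
* `primeOf τ : Ideal (𝓞 K)`, `{x | ‖τ x‖ < 1}`, a nonzero prime ideal containing `q`;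
  `primeOfH τ : HeightOneSpectrum (𝓞 K)`.
-/

set_option autoImplicit false
set_option linter.unusedSectionVars false

open scoped NumberField

noncomputable section

namespace Fermat.Agent.CFT.IdeleDict

open NumberField IsDedekindDomain

section Basic

variable {q : ℕ} [Fact q.Prime] {K : Type} [Field K]

/-- Elements of `Gq` preserve the norm of `ℚ̄_q`. -/
theorem norm_gq_apply (γ : Gq q) (y : PadicAlgCl q) : ‖γ y‖ = ‖y‖ :=
  (spectralNorm_eq_of_equiv γ y).symm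

/-- The absolute value `x ↦ ‖τ x‖` on `K` attached to an embedding `τ : K → ℚ̄_q`. -/
def embAbs (τ : LocalEmb q K) : AbsoluteValue K ℝ where
  toFun x := ‖τ x‖
  map_mul' x y := by rw [map_mul, norm_mul]
  nonneg' x := norm_nonneg _
  eq_zero' x := by rw [norm_eq_zero, map_eq_zero]
  add_le' x y := by rw [map_add]; exact norm_add_le _ _

@[simp]
theorem embAbs_apply (τ : LocalEmb q K) (x : K) : embAbs τ x = ‖τ x‖ := rfl

theorem embAbs_smul (γ : Gq q) (τ : LocalEmb q K) : embAbs (γ • τ) = embAbs τ := by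
  ext x
  rw [embAbs_apply, embAbs_apply, localEmb_smul_apply, norm_gq_apply]

theorem norm_emb_add_le_max (τ : LocalEmb q K) (x y : K) :
    ‖τ (x + y)‖ ≤ max ‖τ x‖ ‖τ y‖ := by
  rw [map_add]; exact IsUltrametricDist.norm_add_le_max _ _

theorem norm_emb_sub_le_max (τ : LocalEmb q K) (x y : K) :
    ‖τ (x - y)‖ ≤ max ‖τ x‖ ‖τ y‖ := by
  rw [sub_eq_add_neg, map_add, map_neg]
  have := IsUltrametricDist.norm_add_le_max (τ x) (-τ y)
  rwa [norm_neg] at this

theorem norm_natCast_padicAlgCl (n : ℕ) : ‖(n : PadicAlgCl q)‖ = ‖(n : ℚ_[q])‖ := by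
  rw [← map_natCast (algebraMap ℚ_[q] (PadicAlgCl q)), PadicAlgCl.norm_extends]

theorem norm_intCast_padicAlgCl (n : ℤ) : ‖(n : PadicAlgCl q)‖ = ‖(n : ℚ_[q])‖ := by
  rw [← map_intCast (algebraMap ℚ_[q] (PadicAlgCl q)), PadicAlgCl.norm_extends]

theorem norm_emb_natCast (τ : LocalEmb q K) (n : ℕ) : ‖τ (n : K)‖ = ‖(n : ℚ_[q])‖ := by
  rw [map_natCast, norm_natCast_padicAlgCl]

theorem norm_emb_intCast (τ : LocalEmb q K) (n : ℤ) : ‖τ (n : K)‖ = ‖(n : ℚ_[q])‖ := by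
  rw [map_intCast, norm_intCast_padicAlgCl]

theorem norm_emb_self (τ : LocalEmb q K) : ‖τ (q : K)‖ = (q : ℝ)⁻¹ := by
  rw [norm_emb_natCast, Padic.norm_p]

theorem norm_emb_self_lt_one (τ : LocalEmb q K) : ‖τ (q : K)‖ < 1 := by
  rw [norm_emb_self]
  have hq : (1 : ℝ) < q := by exact_mod_cast (Fact.out : q.Prime).one_lt
  exact inv_lt_one_of_one_lt₀ hq

theorem embAbs_isNontrivial (τ : LocalEmb q K) : (embAbs τ).IsNontrivial := by
  refine ⟨(q : K), ?_, ?_⟩
  · intro h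
    have := norm_emb_self τ
    rw [h, map_zero, norm_zero] at this
    have hq : (0 : ℝ) < q := by exact_mod_cast (Fact.out : q.Prime).pos
    exact absurd this.symm (inv_pos.mpr hq).ne'
  · rw [embAbs_apply]; exact (norm_emb_self_lt_one τ).ne

/-- Integral elements have norm at most one. -/
theorem norm_le_one_of_isIntegral_padicAlgCl {y : PadicAlgCl q} (hy : IsIntegral ℤ y) :
    ‖y‖ ≤ 1 := by
  by_contra hlt
  push Not at hlt
  obtain ⟨p, hpm, hp⟩ := hy
  rw [← Polynomial.aeval_def] at hp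
  have hy0 : y ≠ 0 := by rintro rfl; rw [norm_zero] at hlt; linarith
  -- `y ^ n = - ∑_{i<n} a_i y ^ i`
  have hsum := Polynomial.aeval_eq_sum_range (p := p) y
  rw [hp, Finset.sum_range_succ, hpm.coeff_natDegree, one_smul] at hsum
  have hyn : y ^ p.natDegree = - ∑ i ∈ Finset.range p.natDegree, p.coeff i • y ^ i :=
    eq_neg_of_add_eq_zero_right hsum.symm
  have hlt' : ‖∑ i ∈ Finset.range p.natDegree, p.coeff i • y ^ i‖ < ‖y‖ ^ p.natDegree := by
    by_cases hn : p.natDegree = 0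
    · rw [hn, Finset.range_zero, Finset.sum_empty, norm_zero, pow_zero]; exact one_pos
    have hne : (Finset.range p.natDegree).Nonempty := ⟨0, Finset.mem_range.mpr (Nat.pos_of_ne_zero hn)⟩
    obtain ⟨i, hi, hle⟩ := IsUltrametricDist.exists_norm_finsetSum_le_of_nonempty hne
      (fun i => p.coeff i • y ^ i)
    refine lt_of_le_of_lt hle ?_
    rw [zsmul_eq_mul, norm_mul, norm_pow, norm_intCast_padicAlgCl]
    have h1 : ‖(p.coeff i : ℚ_[q])‖ ≤ 1 := Padic.norm_int_le_one _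
    have h2 : ‖y‖ ^ i < ‖y‖ ^ p.natDegree := pow_lt_pow_right₀ hlt (Finset.mem_range.mp hi)
    calc ‖(p.coeff i : ℚ_[q])‖ * ‖y‖ ^ i ≤ 1 * ‖y‖ ^ i :=
          mul_le_mul_of_nonneg_right h1 (pow_nonneg (norm_nonneg _) _)
      _ = ‖y‖ ^ i := one_mul _
      _ < ‖y‖ ^ p.natDegree := h2
  rw [← norm_pow, hyn, norm_neg] at hlt'
  exact lt_irrefl _ hlt'

theorem norm_emb_le_one_of_isIntegral (τ : LocalEmb q K) {x : K} (hx : IsIntegral ℤ x) :
    ‖τ x‖ ≤ 1 :=
  norm_le_one_of_isIntegral_padicAlgCl (hx.map τ.toIntAlgHom)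

end Basic

section Prime

variable {q : ℕ} [Fact q.Prime] {K : Type} [Field K] [NumberField K]

theorem coe_add_ringOfIntegers (x y : 𝓞 K) : ((x + y : 𝓞 K) : K) = (x : K) + (y : K) := rfl

theorem coe_mul_ringOfIntegers (x y : 𝓞 K) : ((x * y : 𝓞 K) : K) = (x : K) * (y : K) := rfl

theorem coe_one_ringOfIntegers : ((1 : 𝓞 K) : K) = 1 := rfl

theorem coe_natCast_ringOfIntegers (n : ℕ) : ((n : 𝓞 K) : K) = (n : K) := rfl

theorem norm_emb_le_one (τ : LocalEmb q K) (x : 𝓞 K) : ‖τ (x : K)‖ ≤ 1 :=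
  norm_emb_le_one_of_isIntegral τ (RingOfIntegers.isIntegral_coe x)

/-- The prime ideal `{x ∈ 𝓞 K | ‖τ x‖ < 1}` of `𝓞 K` attached to an embedding `τ : K → ℚ̄_q`. -/
def primeOf (τ : LocalEmb q K) : Ideal (𝓞 K) where
  carrier := {x | ‖τ (x : K)‖ < 1}
  add_mem' {x y} hx hy := by
    change ‖τ (x : K)‖ < 1 at hx
    change ‖τ (y : K)‖ < 1 at hy
    change ‖τ ((x + y : 𝓞 K) : K)‖ < 1
    rw [coe_add_ringOfIntegers]
    exact lt_of_le_of_lt (norm_emb_add_le_max τ _ _) (max_lt hx hy)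
  zero_mem' := by simp
  smul_mem' c x hx := by
    change ‖τ (x : K)‖ < 1 at hx
    change ‖τ ((c * x : 𝓞 K) : K)‖ < 1
    rw [coe_mul_ringOfIntegers, map_mul, norm_mul]
    calc ‖τ (c : K)‖ * ‖τ (x : K)‖ ≤ 1 * ‖τ (x : K)‖ :=
          mul_le_mul_of_nonneg_right (norm_emb_le_one τ c) (norm_nonneg _)
      _ = ‖τ (x : K)‖ := one_mul _
      _ < 1 := hx

theorem mem_primeOf {τ : LocalEmb q K} {x : 𝓞 K} : x ∈ primeOf τ ↔ ‖τ (x : K)‖ < 1 := Iff.rfl

theorem norm_emb_eq_one_of_notMem {τ : LocalEmb q K} {x : 𝓞 K} (hx : x ∉ primeOf τ) :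
    ‖τ (x : K)‖ = 1 :=
  le_antisymm (norm_emb_le_one τ x) (not_lt.mp hx)

theorem natCast_mem_primeOf (τ : LocalEmb q K) : (q : 𝓞 K) ∈ primeOf τ := by
  rw [mem_primeOf, coe_natCast_ringOfIntegers]
  exact norm_emb_self_lt_one τ

theorem primeOf_ne_bot (τ : LocalEmb q K) : primeOf τ ≠ ⊥ := by
  intro h
  have h1 := natCast_mem_primeOf τ
  rw [h, Ideal.mem_bot] at h1
  have hq : (q : 𝓞 K) ≠ 0 := by
    exact_mod_cast (Fact.out : q.Prime).ne_zero
  exact hq h1

instance primeOf_isPrime (τ : LocalEmb q K) : (primeOf τ).IsPrime where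
  ne_top' := by
    intro h
    have h1 : (1 : 𝓞 K) ∈ primeOf τ := by rw [h]; trivial
    rw [mem_primeOf, coe_one_ringOfIntegers, map_one, norm_one] at h1
    exact lt_irrefl _ h1
  mem_or_mem' {x y} hxy := by
    rw [mem_primeOf, coe_mul_ringOfIntegers, map_mul, norm_mul] at hxy
    by_contra hcon
    push Not at hcon
    rw [norm_emb_eq_one_of_notMem hcon.1, norm_emb_eq_one_of_notMem hcon.2, one_mul] at hxy
    exact lt_irrefl _ hxy

/-- The prime of `𝓞 K` attached to `τ`, as an element of the height one spectrum. -/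
def primeOfH (τ : LocalEmb q K) : HeightOneSpectrum (𝓞 K) :=
  ⟨primeOf τ, primeOf_isPrime τ, primeOf_ne_bot τ⟩

@[simp]
theorem primeOfH_asIdeal (τ : LocalEmb q K) : (primeOfH τ).asIdeal = primeOf τ := rfl

theorem primeOf_smul (γ : Gq q) (τ : LocalEmb q K) : primeOf (γ • τ) = primeOf τ := by
  ext x
  rw [mem_primeOf, mem_primeOf, localEmb_smul_apply, norm_gq_apply]

theorem primeOfH_smul (γ : Gq q) (τ : LocalEmb q K) : primeOfH (γ • τ) = primeOfH τ :=
  HeightOneSpectrum.ext (primeOf_smul γ τ)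

/-- `v_𝔓 x ≤ 1 → ‖τ x‖ ≤ 1` for `𝔓 = primeOf τ`. -/
theorem norm_emb_le_one_of_valuation_le_one (τ : LocalEmb q K) {x : K}
    (hx : (primeOfH τ).valuation K x ≤ 1) : ‖τ x‖ ≤ 1 := by
  obtain ⟨n, d, hnd⟩ := (primeOfH τ).exists_primeCompl_mul_eq_of_integer x hx
  have hd : ‖τ ((d : 𝓞 K) : K)‖ = 1 := norm_emb_eq_one_of_notMem d.2
  have h1 := congrArg (fun z => ‖τ z‖) hnd
  simp only [map_mul, norm_mul] at h1
  have h2 : ‖τ x‖ = ‖τ ((n : 𝓞 K) : K)‖ := by
    have : ‖τ x‖ * ‖τ ((d : 𝓞 K) : K)‖ = ‖τ ((n : 𝓞 K) : K)‖ := h1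
    rwa [hd, mul_one] at this
  rw [h2]; exact norm_emb_le_one τ n

/-- `v_𝔓 x < 1 → ‖τ x‖ < 1` for `𝔓 = primeOf τ`. -/
theorem norm_emb_lt_one_of_valuation_lt_one (τ : LocalEmb q K) {x : K}
    (hx : (primeOfH τ).valuation K x < 1) : ‖τ x‖ < 1 := by
  obtain ⟨n, d, hnd⟩ := (primeOfH τ).exists_primeCompl_mul_eq_of_integer x hx.le
  have hd : ‖τ ((d : 𝓞 K) : K)‖ = 1 := norm_emb_eq_one_of_notMem d.2
  have hdv : (primeOfH τ).valuation K ((d : 𝓞 K) : K) = 1 :=
    (HeightOneSpectrum.valuation_eq_one_iff_notMem (K := K) (primeOfH τ)).mpr d.2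
  have hn : (primeOfH τ).valuation K ((n : 𝓞 K) : K) < 1 := by
    have := congrArg ((primeOfH τ).valuation K) hnd
    rw [map_mul, hdv, mul_one] at this
    rw [← this]; exact hx
  have hnmem : n ∈ primeOf τ :=
    (HeightOneSpectrum.valuation_lt_one_iff_mem (K := K) (primeOfH τ) n).mp hn
  have h1 := congrArg (fun z => ‖τ z‖) hnd
  simp only [map_mul, norm_mul] at h1
  have h2 : ‖τ x‖ = ‖τ ((n : 𝓞 K) : K)‖ := by
    have : ‖τ x‖ * ‖τ ((d : 𝓞 K) : K)‖ = ‖τ ((n : 𝓞 K) : K)‖ := h1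
    rwa [hd, mul_one] at this
  rw [h2]; exact hnmem

theorem norm_emb_lt_one_iff (τ : LocalEmb q K) (x : K) :
    ‖τ x‖ < 1 ↔ (primeOfH τ).valuation K x < 1 := by
  refine ⟨fun h => ?_, norm_emb_lt_one_of_valuation_lt_one τ⟩
  by_contra hcon
  push Not at hcon
  have hx0 : x ≠ 0 := by
    rintro rfl
    rw [map_zero] at hcon
    exact absurd hcon (not_le.mpr zero_lt_one)
  have hinv : (primeOfH τ).valuation K x⁻¹ ≤ 1 := by
    rw [map_inv₀]
    exact inv_le_one_of_one_le₀ hcon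
  have h1 := norm_emb_le_one_of_valuation_le_one τ hinv
  rw [map_inv₀, norm_inv] at h1
  have hpos : 0 < ‖τ x‖ := norm_pos_iff.mpr ((map_ne_zero τ).mpr hx0)
  have : 1 ≤ ‖τ x‖ := (inv_le_one₀ hpos).mp h1
  exact absurd h (not_lt.mpr this)

theorem norm_emb_le_one_iff (τ : LocalEmb q K) (x : K) :
    ‖τ x‖ ≤ 1 ↔ (primeOfH τ).valuation K x ≤ 1 := by
  refine ⟨fun h => ?_, norm_emb_le_one_of_valuation_le_one τ⟩
  by_contra hcon
  push Not at hcon
  have hx0 : x ≠ 0 := by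
    rintro rfl
    rw [map_zero] at hcon
    exact absurd hcon (not_lt.mpr zero_le_one)
  have hinv : (primeOfH τ).valuation K x⁻¹ < 1 := by
    rw [map_inv₀]
    exact inv_lt_one_of_one_lt₀ hcon
  have h1 := norm_emb_lt_one_of_valuation_lt_one τ hinv
  rw [map_inv₀, norm_inv] at h1
  have hpos : 0 < ‖τ x‖ := norm_pos_iff.mpr ((map_ne_zero τ).mpr hx0)
  have : 1 < ‖τ x‖ := (inv_lt_one₀ hpos).mp h1
  exact absurd h (not_le.mpr this)

theorem norm_emb_eq_one_iff (τ : LocalEmb q K) (x : K) :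
    ‖τ x‖ = 1 ↔ (primeOfH τ).valuation K x = 1 := by
  rw [le_antisymm_iff, le_antisymm_iff, norm_emb_le_one_iff, ← not_lt (a := ‖τ x‖),
    norm_emb_lt_one_iff, not_lt]

/-- Two embeddings with the same prime induce the same absolute value on `K`. -/
theorem embAbs_eq_of_primeOf_eq {τ τ' : LocalEmb q K} (h : primeOf τ = primeOf τ') :
    embAbs τ = embAbs τ' := by
  have hH : primeOfH τ = primeOfH τ' := HeightOneSpectrum.ext h
  have hequiv : (embAbs τ).IsEquiv (embAbs τ') := by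
    apply AbsoluteValue.isEquiv_of_lt_one_imp (embAbs_isNontrivial τ)
    intro x hx
    rw [embAbs_apply] at hx ⊢
    rw [norm_emb_lt_one_iff] at hx ⊢
    rwa [← hH]
  obtain ⟨c, hc, hceq⟩ := AbsoluteValue.isEquiv_iff_exists_rpow_eq.mp hequiv
  have hq := congrFun hceq (q : K)
  simp only [embAbs_apply, norm_emb_self] at hq
  have hq1 : (1 : ℝ) < q := by exact_mod_cast (Fact.out : q.Prime).one_lt
  have hq0 : (0 : ℝ) < q := by linarith
  have hc1 : c = 1 := by
    have hlog := congrArg Real.log hq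
    rw [Real.log_rpow (inv_pos.mpr hq0), Real.log_inv] at hlog
    have hl : Real.log q ≠ 0 := (Real.log_pos hq1).ne'
    have : (c - 1) * Real.log q = 0 := by linarith
    rcases mul_eq_zero.mp this with h' | h'
    · linarith
    · exact absurd h' hl
  ext x
  have := congrFun hceq x
  rw [hc1] at this
  simpa using this

theorem norm_emb_eq_of_primeOf_eq {τ τ' : LocalEmb q K} (h : primeOf τ = primeOf τ') (x : K) :
    ‖τ x‖ = ‖τ' x‖ := by
  have := congrArg (fun a : AbsoluteValue K ℝ => a x) (embAbs_eq_of_primeOf_eq h)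
  simpa using this

end Prime

section Embeddings

variable (q : ℕ) [Fact q.Prime] (K : Type) [Field K] [NumberField K]

instance localEmb_nonempty : Nonempty (LocalEmb q K) :=
  ⟨((IsAlgClosed.lift : K →ₐ[ℚ] PadicAlgCl q) : K →+* PadicAlgCl q)⟩

variable {q K}

/-- The `q`-adic norm of the (rational) norm of `x` is the product of the `‖τ x‖`. -/
theorem norm_algebraNorm_eq_prod (x : K) [Fintype (LocalEmb q K)] :
    ‖((Algebra.norm ℚ x : ℚ) : ℚ_[q])‖ = ∏ τ : LocalEmb q K, ‖τ x‖ := by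
  classical
  have h := Algebra.norm_eq_prod_embeddings ℚ (PadicAlgCl q) x
  have h1 : ‖algebraMap ℚ (PadicAlgCl q) (Algebra.norm ℚ x)‖ =
      ‖((Algebra.norm ℚ x : ℚ) : ℚ_[q])‖ := by
    rw [eq_ratCast, ← map_ratCast (algebraMap ℚ_[q] (PadicAlgCl q)), PadicAlgCl.norm_extends]
  rw [← h1, h, norm_prod]
  exact Fintype.prod_equiv (RingHom.equivRatAlgHom K (PadicAlgCl q)).symm _ _ (fun σ => rfl)

/-- **Surjectivity**: every prime of `𝓞 K` containing `q` comes from an embedding `K → ℚ̄_q`. -/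
theorem exists_primeOf_eq (P : Ideal (𝓞 K)) [hP : P.IsPrime] (hq : (q : 𝓞 K) ∈ P) :
    ∃ τ : LocalEmb q K, primeOf τ = P := by
  classical
  by_contra hcon
  push Not at hcon
  have := Fintype.ofFinite (LocalEmb q K)
  have hqne : (q : 𝓞 K) ≠ 0 := by exact_mod_cast (Fact.out : q.Prime).ne_zero
  have hP0 : P ≠ ⊥ := fun h => hqne (by rwa [h, Ideal.mem_bot] at hq)
  have hPmax : P.IsMaximal := hP.isMaximal hP0
  -- prime avoidance
  have hnot : ¬ ((P : Set (𝓞 K)) ⊆ ⋃ τ ∈ (↑(Finset.univ : Finset (LocalEmb q K)) : Set (LocalEmb q K)),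
      ((primeOf τ : Ideal (𝓞 K)) : Set (𝓞 K))) := by
    obtain ⟨τ₀⟩ := localEmb_nonempty q K
    rw [Ideal.subset_union_prime τ₀ τ₀ (fun τ _ _ _ => primeOf_isPrime τ)]
    rintro ⟨τ, -, hle⟩
    exact hcon τ (hPmax.eq_of_le (primeOf_isPrime τ).ne_top hle).symm
  rw [Set.not_subset] at hnot
  obtain ⟨x, hxP, hxU⟩ := hnot
  have hx1 : ∀ τ : LocalEmb q K, ‖τ (x : K)‖ = 1 := by
    intro τ
    apply norm_emb_eq_one_of_notMem
    intro hmem
    apply hxU
    simp only [Set.mem_iUnion]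
    exact ⟨τ, by simp, hmem⟩
  have hnorm : ‖((Algebra.norm ℚ (x : K) : ℚ) : ℚ_[q])‖ = 1 := by
    rw [norm_algebraNorm_eq_prod]
    exact Finset.prod_eq_one (fun τ _ => hx1 τ)
  rw [← Algebra.coe_norm_int] at hnorm
  -- but `q ∣ N(x)`
  have hdvd1 : (Ideal.absNorm P : ℤ) ∣ Algebra.norm ℤ x := Ideal.absNorm_dvd_norm_of_mem hxP
  have hdvd2 : (q : ℤ) ∣ (Ideal.absNorm P : ℤ) := by
    by_contra hndvd
    have hcop : IsCoprime (q : ℤ) (Ideal.absNorm P : ℤ) :=
      (Nat.prime_iff_prime_int.mp (Fact.out : q.Prime)).irreducible.coprime_iff_not_dvd.mpr hndvd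
    obtain ⟨a, b, hab⟩ := hcop
    have h1 : ((a * q + b * Ideal.absNorm P : ℤ) : 𝓞 K) ∈ P := by
      push_cast
      exact P.add_mem (P.mul_mem_left _ hq) (P.mul_mem_left _ (Ideal.absNorm_mem P))
    rw [hab] at h1
    exact hP.ne_top ((Ideal.eq_top_iff_one P).mpr (by simpa using h1))
  have hlt : ‖((Algebra.norm ℤ x : ℤ) : ℚ_[q])‖ < 1 :=
    Padic.norm_intCast_lt_one_iff.mpr (hdvd2.trans hdvd1)
  have hcast : (((Algebra.norm ℤ x : ℤ) : ℚ) : ℚ_[q]) = ((Algebra.norm ℤ x : ℤ) : ℚ_[q]) := by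
    push_cast; rfl
  rw [hcast] at hnorm
  exact absurd hnorm hlt.ne

end Embeddings

section Orbit

variable {q : ℕ} [Fact q.Prime] {K : Type} [Field K] [NumberField K]

/-- Embeddings agreeing on a primitive element are equal. -/
theorem localEmb_ext_of_primitive {θ : K} (hθ : IntermediateField.adjoin ℚ {θ} = ⊤)
    {τ τ' : LocalEmb q K} (h : τ θ = τ' θ) : τ = τ' := by
  have hadj : Algebra.adjoin ℚ {θ} = ⊤ := by
    have h1 := IntermediateField.adjoin_simple_toSubalgebra_of_isAlgebraic (F := ℚ) (α := θ)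
      (Algebra.IsAlgebraic.isAlgebraic θ)
    rw [hθ] at h1
    rw [← h1]; rfl
  have h2 : RingHom.equivRatAlgHom K (PadicAlgCl q) τ = RingHom.equivRatAlgHom K (PadicAlgCl q) τ' := by
    apply AlgHom.ext_of_adjoin_eq_top hadj
    intro x hx
    rw [Set.mem_singleton_iff] at hx
    subst hx
    exact h
  exact (RingHom.equivRatAlgHom K (PadicAlgCl q)).injective h2

/-- Approximation of a polynomial over `ℚ_q` by a rational one: the evaluation estimate. -/
theorem norm_sum_ratCast_sub_aeval_le (g : Polynomial ℚ_[q]) (r : ℕ → ℚ) {ε M : ℝ} (hε : 0 ≤ ε)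
    (hM : 1 ≤ M) (hr : ∀ i, ‖g.coeff i - (r i : ℚ_[q])‖ ≤ ε) {z : PadicAlgCl q} (hz : ‖z‖ ≤ M) :
    ‖(∑ i ∈ Finset.range (g.natDegree + 1), (r i : PadicAlgCl q) * z ^ i) -
      Polynomial.aeval z g‖ ≤ ε * M ^ g.natDegree := by
  rw [Polynomial.aeval_eq_sum_range, ← Finset.sum_sub_distrib]
  apply IsUltrametricDist.norm_sum_le_of_forall_le_of_nonneg
    (mul_nonneg hε (pow_nonneg (zero_le_one.trans hM) _))
  intro i hi
  have hi' : i ≤ g.natDegree := Nat.lt_succ_iff.mp (Finset.mem_range.mp hi)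
  rw [Algebra.smul_def, ← sub_mul, norm_mul, norm_pow]
  have h1 : ‖(r i : PadicAlgCl q) - algebraMap ℚ_[q] (PadicAlgCl q) (g.coeff i)‖ ≤ ε := by
    rw [← map_ratCast (algebraMap ℚ_[q] (PadicAlgCl q)), ← map_sub, PadicAlgCl.norm_extends,
      norm_sub_rev]
    exact hr i
  have h2 : ‖z‖ ^ i ≤ M ^ g.natDegree :=
    (pow_le_pow_left₀ (norm_nonneg _) hz i).trans (pow_le_pow_right₀ hM hi')
  exact mul_le_mul h1 h2 (pow_nonneg (norm_nonneg _) _) hε

/-- **Single orbit**: two embeddings `K → ℚ̄_q` with the same prime of `𝓞 K` are conjugate under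
`Gq = Gal(ℚ̄_q/ℚ_q)`. -/
theorem exists_smul_eq_of_primeOf_eq {τ τ' : LocalEmb q K} (h : primeOf τ = primeOf τ') :
    ∃ γ : Gq q, γ • τ = τ' := by
  obtain ⟨θ, hθ⟩ := Field.exists_primitive_element ℚ K
  have : Normal ℚ_[q] (PadicAlgCl q) := IsAlgClosure.normal _ _
  have hyalg : IsAlgebraic ℚ_[q] (τ θ) := Algebra.IsAlgebraic.isAlgebraic _
  by_cases hroot : Polynomial.aeval (τ' θ) (minpoly ℚ_[q] (τ θ)) = 0
  · obtain ⟨σ, hσ⟩ := minpoly.exists_algEquiv_of_root (K := ℚ_[q]) (L := PadicAlgCl q)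
      (x := τ' θ) (y := τ θ) hyalg hroot
    refine ⟨σ.symm, localEmb_ext_of_primitive hθ ?_⟩
    rw [localEmb_smul_apply, ← hσ]
    exact σ.symm_apply_apply _
  · exfalso
    set g := minpoly ℚ_[q] (τ θ) with hg
    have hgy : Polynomial.aeval (τ θ) g = 0 := minpoly.aeval _ _
    set δ := ‖Polynomial.aeval (τ' θ) g‖ with hδ
    have hδ0 : 0 < δ := norm_pos_iff.mpr hroot
    set M := max 1 (max ‖τ θ‖ ‖τ' θ‖) with hMdef
    have hM1 : 1 ≤ M := le_max_left _ _
    have hMy : ‖τ θ‖ ≤ M := (le_max_left _ _).trans (le_max_right _ _)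
    have hMy' : ‖τ' θ‖ ≤ M := (le_max_right _ _).trans (le_max_right _ _)
    have hMd : 0 < M ^ g.natDegree := pow_pos (zero_lt_one.trans_le hM1) _
    set ε := δ / (2 * M ^ g.natDegree) with hε
    have hε0 : 0 < ε := div_pos hδ0 (mul_pos two_pos hMd)
    have hεM : ε * M ^ g.natDegree < δ := by
      rw [hε, div_mul_eq_mul_div, div_lt_iff₀ (mul_pos two_pos hMd)]
      nlinarith
    choose r hr using fun i : ℕ => Padic.rat_dense q (g.coeff i) hε0
    set x : K := ∑ i ∈ Finset.range (g.natDegree + 1), (r i : K) * θ ^ i with hx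
    have hmap : ∀ ρ : LocalEmb q K, ρ x =
        ∑ i ∈ Finset.range (g.natDegree + 1), (r i : PadicAlgCl q) * (ρ θ) ^ i := by
      intro ρ
      rw [hx, map_sum]
      refine Finset.sum_congr rfl fun i _ => ?_
      rw [map_mul, map_pow, map_ratCast]
    have key := fun (z : PadicAlgCl q) (hz : ‖z‖ ≤ M) =>
      norm_sum_ratCast_sub_aeval_le g r hε0.le hM1 (fun i => (hr i).le) hz
    have h1 : ‖τ x‖ < δ := by
      have := key (τ θ) hMy
      rw [hgy, sub_zero, ← hmap τ] at this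
      exact lt_of_le_of_lt this hεM
    have h2 : ‖τ' x‖ = δ := by
      have hlt := lt_of_le_of_lt (key (τ' θ) hMy') hεM
      rw [← hmap τ'] at hlt
      have hsplit : τ' x = (τ' x - Polynomial.aeval (τ' θ) g) + Polynomial.aeval (τ' θ) g := by
        ring
      rw [hsplit, IsUltrametricDist.norm_add_eq_max_of_norm_ne_norm (ne_of_lt hlt)]
      exact max_eq_right hlt.le
    have h3 := norm_emb_eq_of_primeOf_eq h x
    rw [h2] at h3
    exact absurd h3 h1.ne

/-- The fibres of `primeOf` are exactly the `Gq`-orbits. -/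
theorem primeOf_eq_iff_exists_smul {τ τ' : LocalEmb q K} :
    primeOf τ = primeOf τ' ↔ ∃ γ : Gq q, γ • τ = τ' :=
  ⟨exists_smul_eq_of_primeOf_eq, fun ⟨γ, hγ⟩ => by rw [← hγ, primeOf_smul]⟩

variable (q K)

/-- The primes of `𝓞 K` above `q`. -/
abbrev PrimesAbove : Type := {P : HeightOneSpectrum (𝓞 K) // (q : 𝓞 K) ∈ P.asIdeal}

/-- **Dictionary (i)**: places of `K` above `q` (`Gq`-orbits of embeddings `K → ℚ̄_q`) correspond
bijectively to the primes of `𝓞 K` containing `q`. -/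
def placeEquivPrimes : LocalPlace q K ≃ PrimesAbove q K :=
  Equiv.ofBijective
    (Quotient.lift (fun τ : LocalEmb q K => (⟨primeOfH τ, natCast_mem_primeOf τ⟩ : PrimesAbove q K))
      (fun τ τ' h => by
        obtain ⟨γ, hγ⟩ := h
        apply Subtype.ext
        show primeOfH τ = primeOfH τ'
        rw [← hγ, primeOfH_smul]))
    ⟨fun ω ω' => by
      induction ω using Quotient.inductionOn with
      | h τ =>
      induction ω' using Quotient.inductionOn with
      | h τ' =>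
      intro h
      have h1 : primeOf τ = primeOf τ' := congrArg (fun P : PrimesAbove q K => P.1.asIdeal) h
      obtain ⟨γ, hγ⟩ := exists_smul_eq_of_primeOf_eq h1
      exact Quotient.sound ⟨γ⁻¹, by
        show γ⁻¹ • τ' = τ
        rw [← hγ, inv_smul_smul]⟩,
    fun P => by
      have := P.1.isPrime
      obtain ⟨τ, hτ⟩ := exists_primeOf_eq P.1.asIdeal P.2
      exact ⟨Quotient.mk _ τ, Subtype.ext (HeightOneSpectrum.ext hτ)⟩⟩

variable {q K}

@[simp]
theorem placeEquivPrimes_mk (τ : LocalEmb q K) :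
    ((placeEquivPrimes q K (τ.place)) : HeightOneSpectrum (𝓞 K)) = primeOfH τ := rfl

end Orbit

end Fermat.Agent.CFT.IdeleDict
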