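import Fermat.Agent.CFT.Global.IdeleDict.DictApprox
import Fermat.Agent.CFT.Global.Second.SecondIdele

/-!
# Layer C, node C1c (dictionary), part 7: ideles and ideals

Instantiation of the abstract ideal/idele translation of `Second/SecondIdele.lean` with the idele
group of the model `IdeleDefs.lean`.

* `ideleOfPrimes a`: the idele `τ ↦ τ (a 𝔓_τ)` attached to a family `a : primes → Kˣ`;
* `uniformizer P`, `ideleOfOrd e`: an idele with prescribed orders;
* `ideleRestrict T x`: the components of `x` at the rational primes in `T`, `1` elsewhere;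
* `RelIdeal T x I`: the idele `x` is trivial at `T` and has content the ideal `I`;
* `index_le_finrank_of_local`: the second inequality for a subgroup `PN` of the idele group
  containing the principal ideles, the unit ideles trivial at `T`, the ideles supported at `T`
  and close to `1`, and ideles of content `N(w)` for the primes `w` of `L` not above `T`.
-/

set_option autoImplicit false
set_option linter.unusedSectionVars false

open scoped NumberField nonZeroDivisors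

noncomputable section

namespace Fermat.Agent.CFT.IdeleDict

open NumberField IsDedekindDomain Fermat.Agent.CFT

variable {K : Type} [Field K] [NumberField K]

/-! ### Ideles from families of global elements indexed by the primes -/

/-- The semi-local unit `τ ↦ τ (a 𝔓_τ)`. -/
def semiLocalOfPrimes (q : ℕ) [Fact q.Prime] (a : HeightOneSpectrum (𝓞 K) → Kˣ) :
    semiLocalUnits q K :=
  ⟨fun τ => Units.map (τ : K →* PadicAlgCl q) (a (primeOfH τ)), fun γ τ => by
    show Units.map ((γ • τ : LocalEmb q K) : K →* PadicAlgCl q) (a (primeOfH (γ • τ))) = _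
    rw [primeOfH_smul]; ext; rfl⟩

@[simp]
theorem semiLocalOfPrimes_apply (q : ℕ) [Fact q.Prime] (a : HeightOneSpectrum (𝓞 K) → Kˣ)
    (τ : LocalEmb q K) :
    (((semiLocalOfPrimes q a : semiLocalUnits q K) : LocalEmb q K → (PadicAlgCl q)ˣ) τ :
      PadicAlgCl q) = τ (a (primeOfH τ) : K) := rfl

/-- The idele `τ ↦ τ (a 𝔓_τ)` attached to a family of global units. -/
def ideleOfPrimes (a : HeightOneSpectrum (𝓞 K) → Kˣ) : IdeleProd K :=
  fun q => semiLocalOfPrimes (q : ℕ) a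

theorem ideleOfPrimes_apply (a : HeightOneSpectrum (𝓞 K) → Kˣ) (q : Nat.Primes)
    (τ : LocalEmb (q : ℕ) K) :
    (((ideleOfPrimes a q : semiLocalUnits (q : ℕ) K) :
      LocalEmb (q : ℕ) K → (PadicAlgCl (q : ℕ))ˣ) τ : PadicAlgCl (q : ℕ)) =
      τ (a (primeOfH τ) : K) := rfl

theorem semiLocalOrd_semiLocalOfPrimes (q : ℕ) [Fact q.Prime]
    (a : HeightOneSpectrum (𝓞 K) → Kˣ) (τ : LocalEmb q K) :
    semiLocalOrd (semiLocalOfPrimes q a) τ = ordAt (primeOfH τ) (a (primeOfH τ)) := by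
  rw [semiLocalOrd_eq_iff, semiLocalOfPrimes_apply, norm_emb_zpow_ramIdx]

theorem ideleOrd_ideleOfPrimes (a : HeightOneSpectrum (𝓞 K) → Kˣ)
    (P : HeightOneSpectrum (𝓞 K)) : ideleOrd (ideleOfPrimes a) P = ordAt P (a P) := by
  obtain ⟨q, τ, rfl⟩ := exists_emb P
  rw [ideleOrd_primeOfH]
  exact semiLocalOrd_semiLocalOfPrimes (q : ℕ) a τ

theorem ideleOfPrimes_apply_eq_one (a : HeightOneSpectrum (𝓞 K) → Kˣ) (q : Nat.Primes)
    (h : ∀ τ : LocalEmb (q : ℕ) K, a (primeOfH τ) = 1) : ideleOfPrimes a q = 1 := by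
  apply Subtype.ext
  funext τ
  apply Units.ext
  rw [ideleOfPrimes_apply, h τ]
  simp

theorem ideleOfPrimes_mem_ideleGroup (a : HeightOneSpectrum (𝓞 K) → Kˣ)
    (h : {P : HeightOneSpectrum (𝓞 K) | ordAt P (a P) ≠ 0}.Finite) :
    ideleOfPrimes a ∈ ideleGroup K := by
  apply ideleOutside_le_ideleGroup h
  intro P hP
  rw [ideleOrd_ideleOfPrimes]
  by_contra hne
  exact hP hne

/-! ### Uniformizers and ideles with prescribed orders -/

theorem exists_ordAt_eq_one (P : HeightOneSpectrum (𝓞 K)) : ∃ π : Kˣ, ordAt P π = 1 := by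
  obtain ⟨π, hπ⟩ := P.valuation_exists_uniformizer K
  have hπ0 : π ≠ 0 := by
    rintro rfl
    rw [map_zero] at hπ
    exact WithZero.zero_ne_coe hπ
  refine ⟨Units.mk0 π hπ0, ?_⟩
  have h := valuation_eq_exp_neg_ordAt P (Units.mk0 π hπ0)
  rw [Units.val_mk0, hπ, WithZero.exp_inj] at h
  omega

/-- A uniformizer at `P`, as a unit of `K`. -/
def uniformizer (P : HeightOneSpectrum (𝓞 K)) : Kˣ := (exists_ordAt_eq_one P).choose

theorem ordAt_uniformizer (P : HeightOneSpectrum (𝓞 K)) : ordAt P (uniformizer P) = 1 :=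
  (exists_ordAt_eq_one P).choose_spec

/-- An idele with prescribed orders `e`. -/
def ideleOfOrd (e : HeightOneSpectrum (𝓞 K) → ℤ) : IdeleProd K :=
  ideleOfPrimes fun P => uniformizer P ^ e P

theorem ideleOrd_ideleOfOrd (e : HeightOneSpectrum (𝓞 K) → ℤ) (P : HeightOneSpectrum (𝓞 K)) :
    ideleOrd (ideleOfOrd e) P = e P := by
  rw [ideleOfOrd, ideleOrd_ideleOfPrimes, ordAt_zpow, ordAt_uniformizer, mul_one]

theorem ideleOfOrd_mem_ideleGroup (e : HeightOneSpectrum (𝓞 K) → ℤ)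
    (h : {P : HeightOneSpectrum (𝓞 K) | e P ≠ 0}.Finite) : ideleOfOrd e ∈ ideleGroup K := by
  apply ideleOfPrimes_mem_ideleGroup
  refine h.subset fun P hP => ?_
  rw [Set.mem_ofPred_eq, ordAt_zpow, ordAt_uniformizer, mul_one] at hP
  exact hP

theorem ideleOfOrd_apply_eq_one (e : HeightOneSpectrum (𝓞 K) → ℤ) (q : Nat.Primes)
    (h : ∀ τ : LocalEmb (q : ℕ) K, e (primeOfH τ) = 0) : ideleOfOrd e q = 1 :=
  ideleOfPrimes_apply_eq_one _ q fun τ => by rw [h τ, zpow_zero]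

/-! ### Components at a set of rational primes -/

open Classical in
/-- The components of `x` at the rational primes in `T`, and `1` elsewhere. -/
def ideleRestrict (T : Set Nat.Primes) (x : IdeleProd K) : IdeleProd K :=
  fun q => if q ∈ T then x q else 1

theorem ideleRestrict_apply_of_mem {T : Set Nat.Primes} (x : IdeleProd K) {q : Nat.Primes}
    (hq : q ∈ T) : ideleRestrict T x q = x q := by
  simp [ideleRestrict, hq]

theorem ideleRestrict_apply_of_notMem {T : Set Nat.Primes} (x : IdeleProd K) {q : Nat.Primes}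
    (hq : q ∉ T) : ideleRestrict T x q = 1 := by
  simp [ideleRestrict, hq]

theorem ideleRestrict_mul_compl (T : Set Nat.Primes) (x : IdeleProd K) :
    ideleRestrict T x * ideleRestrict Tᶜ x = x := by
  funext q
  by_cases hq : q ∈ T
  · rw [Pi.mul_apply, ideleRestrict_apply_of_mem x hq,
      ideleRestrict_apply_of_notMem x (fun h : q ∈ Tᶜ => h hq), mul_one]
  · rw [Pi.mul_apply, ideleRestrict_apply_of_notMem x hq,
      ideleRestrict_apply_of_mem x (show q ∈ Tᶜ from hq), one_mul]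

theorem ideleRestrict_mem_ideleGroup (T : Set Nat.Primes) {x : IdeleProd K}
    (hx : x ∈ ideleGroup K) : ideleRestrict T x ∈ ideleGroup K := by
  rw [mem_ideleGroup] at hx ⊢
  filter_upwards [hx] with q hq
  by_cases hqT : q ∈ T
  · rwa [ideleRestrict_apply_of_mem x hqT]
  · rw [ideleRestrict_apply_of_notMem x hqT]; exact one_mem _

theorem ideleOrd_ideleRestrict_of_mem {T : Set Nat.Primes} (x : IdeleProd K) {q : Nat.Primes}
    (hq : q ∈ T) (τ : LocalEmb (q : ℕ) K) :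
    ideleOrd (ideleRestrict T x) (primeOfH τ) = ideleOrd x (primeOfH τ) := by
  rw [ideleOrd_primeOfH, ideleOrd_primeOfH, ideleRestrict_apply_of_mem x hq]

theorem ideleOrd_ideleRestrict_of_notMem {T : Set Nat.Primes} (x : IdeleProd K) {q : Nat.Primes}
    (hq : q ∉ T) (τ : LocalEmb (q : ℕ) K) :
    ideleOrd (ideleRestrict T x) (primeOfH τ) = 0 := by
  rw [ideleOrd_primeOfH, ideleRestrict_apply_of_notMem x hq, semiLocalOrd_one]

/-! ### Multiplicities of primes in ideals -/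

/-- The multiplicity of the prime `P` in the ideal `I`, integer valued. -/
def idealCount (P : HeightOneSpectrum (𝓞 K)) (I : Ideal (𝓞 K)) : ℤ :=
  FractionalIdeal.count K P (I : FractionalIdeal (𝓞 K)⁰ K)

theorem idealCount_nonneg (P : HeightOneSpectrum (𝓞 K)) (I : Ideal (𝓞 K)) :
    0 ≤ idealCount P I := FractionalIdeal.count_coe_nonneg K P I

theorem idealCount_mul (P : HeightOneSpectrum (𝓞 K)) {I I' : Ideal (𝓞 K)} (hI : I ≠ ⊥)
    (hI' : I' ≠ ⊥) : idealCount P (I * I') = idealCount P I + idealCount P I' := by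
  unfold idealCount
  rw [FractionalIdeal.coeIdeal_mul, FractionalIdeal.count_mul K P
    (FractionalIdeal.coeIdeal_ne_zero.mpr hI) (FractionalIdeal.coeIdeal_ne_zero.mpr hI')]

theorem idealCount_span_singleton (P : HeightOneSpectrum (𝓞 K)) {α : 𝓞 K} (hα : α ≠ 0)
    (hα' : (α : K) ≠ 0) :
    idealCount P (Ideal.span {α}) = ordAt P (Units.mk0 (α : K) hα') := by
  have hne : (Ideal.span {α} : Ideal (𝓞 K)) ≠ 0 := by
    rw [Ne, Ideal.zero_eq_bot, Ideal.span_singleton_eq_bot]; exact hα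
  rw [idealCount, FractionalIdeal.count_coe K P hne]
  have h1 := valuation_eq_exp_neg_ordAt P (Units.mk0 (α : K) hα')
  rw [Units.val_mk0] at h1
  have h2 : P.valuation K (α : K) = P.intValuation α := P.valuation_of_algebraMap α
  rw [h2, P.intValuation_if_neg hα, WithZero.exp_inj] at h1
  omega

theorem idealCount_eq_zero_of_not_le (P : HeightOneSpectrum (𝓞 K)) {I : Ideal (𝓞 K)} (hI : I ≠ ⊥)
    (h : ¬ I ≤ P.asIdeal) : idealCount P I = 0 := by
  have hI0 : I ≠ 0 := hI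
  rw [idealCount, FractionalIdeal.count_coe K P hI0, Nat.cast_eq_zero]
  by_contra hne
  exact h (Ideal.dvd_iff_le.mp ((Associates.count_ne_zero_iff_dvd hI0 P.irreducible).mp hne))

open Classical in
theorem idealCount_prod_pow (P : HeightOneSpectrum (𝓞 K)) (s : Finset (HeightOneSpectrum (𝓞 K)))
    (n : HeightOneSpectrum (𝓞 K) → ℕ) :
    idealCount P (∏ Q ∈ s, Q.asIdeal ^ n Q) = if P ∈ s then (n P : ℤ) else 0 := by
  unfold idealCount
  have h1 : ((∏ Q ∈ s, Q.asIdeal ^ n Q : Ideal (𝓞 K)) : FractionalIdeal (𝓞 K)⁰ K) =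
      ∏ Q ∈ s, (Q.asIdeal : FractionalIdeal (𝓞 K)⁰ K) ^ n Q := by
    rw [← FractionalIdeal.coeIdealHom_apply, map_prod]
    simp only [map_pow, FractionalIdeal.coeIdealHom_apply]
  rw [h1, FractionalIdeal.count_prod K P s _ fun Q _ =>
    pow_ne_zero _ (FractionalIdeal.coeIdeal_ne_zero.mpr Q.ne_bot)]
  simp only [FractionalIdeal.count_pow, FractionalIdeal.count_maximal, mul_ite, mul_one, mul_zero,
    Finset.sum_ite_eq']

theorem prod_pow_ne_bot (s : Finset (HeightOneSpectrum (𝓞 K)))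
    (n : HeightOneSpectrum (𝓞 K) → ℕ) : (∏ Q ∈ s, Q.asIdeal ^ n Q : Ideal (𝓞 K)) ≠ ⊥ := by
  rw [← Ideal.zero_eq_bot, Finset.prod_ne_zero_iff]
  exact fun Q _ => pow_ne_zero _ Q.ne_bot

/-! ### The relation between ideles and ideals -/

/-- The idele `x` is trivial at the rational primes in `T` and has content the (nonzero) ideal
`I`. -/
def RelIdeal (T : Finset Nat.Primes) (x : ideleGroup K) (I : Ideal (𝓞 K)) : Prop :=
  I ≠ ⊥ ∧ (∀ q ∈ T, (x : IdeleProd K) q = 1) ∧
    ∀ P : HeightOneSpectrum (𝓞 K), ideleOrd (x : IdeleProd K) P = idealCount P I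

theorem finite_setOf_idealCount_ne_zero {I : Ideal (𝓞 K)} (hI : I ≠ ⊥) :
    {P : HeightOneSpectrum (𝓞 K) | idealCount P I ≠ 0}.Finite := by
  refine (Ideal.finite_factors (show I ≠ 0 from hI)).subset fun P hP => ?_
  rw [Set.mem_ofPred_eq, Ideal.dvd_iff_le]
  by_contra hle
  exact hP (idealCount_eq_zero_of_not_le P hI hle)

section Modulus

variable {T : Finset Nat.Primes} {N : ℕ}

/-- A prime containing `N` lies over a prime divisor of `N`. -/
theorem exists_prime_dvd_of_natCast_mem (P : HeightOneSpectrum (𝓞 K))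
    (h : ((N : ℕ) : 𝓞 K) ∈ P.asIdeal) :
    ∃ q : Nat.Primes, (q : ℕ) ∣ N ∧ ((q : ℕ) : 𝓞 K) ∈ P.asIdeal := by
  obtain ⟨q, hq⟩ := exists_prime_mem P
  refine ⟨q, ?_, hq⟩
  by_contra hndvd
  have hcop : Nat.Coprime (q : ℕ) N := (Nat.Prime.coprime_iff_not_dvd q.2).mpr hndvd
  have hint : IsCoprime ((q : ℕ) : ℤ) ((N : ℕ) : ℤ) := Nat.isCoprime_iff_coprime.mpr hcop
  obtain ⟨a, b, hab⟩ := hint
  have h1 : ((a * ((q : ℕ) : ℤ) + b * ((N : ℕ) : ℤ) : ℤ) : 𝓞 K) ∈ P.asIdeal := by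
    push_cast
    exact P.asIdeal.add_mem (P.asIdeal.mul_mem_left _ hq) (P.asIdeal.mul_mem_left _ h)
  rw [hab] at h1
  exact P.isPrime.ne_top ((Ideal.eq_top_iff_one _).mpr (by simpa using h1))

theorem natCast_mem_primeOf_of_dvd {q : Nat.Primes} (hq : (q : ℕ) ∣ N)
    (τ : LocalEmb (q : ℕ) K) : ((N : ℕ) : 𝓞 K) ∈ primeOf τ := by
  obtain ⟨k, rfl⟩ := hq
  rw [Nat.cast_mul]
  exact (primeOf τ).mul_mem_right _ (natCast_mem_primeOf τ)

/-- An ideal coprime to `(N)` has multiplicity `0` at the primes over the divisors of `N`. -/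
theorem idealCount_eq_zero_of_isCoprime {I : Ideal (𝓞 K)} (hI : I ≠ ⊥)
    (hcop : IsCoprime I (Ideal.span {((N : ℕ) : 𝓞 K)})) {q : Nat.Primes} (hq : (q : ℕ) ∣ N)
    (τ : LocalEmb (q : ℕ) K) : idealCount (primeOfH τ) I = 0 := by
  apply idealCount_eq_zero_of_not_le _ hI
  intro hle
  have hm : Ideal.span {((N : ℕ) : 𝓞 K)} ≤ (primeOfH τ).asIdeal := by
    rw [Ideal.span_singleton_le_iff_mem]
    exact natCast_mem_primeOf_of_dvd hq τ
  have htop : I ⊔ Ideal.span {((N : ℕ) : 𝓞 K)} = ⊤ := Ideal.isCoprime_iff_sup_eq.mp hcop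
  have : (⊤ : Ideal (𝓞 K)) ≤ (primeOfH τ).asIdeal := htop ▸ sup_le hle hm
  exact (primeOfH τ).isPrime.ne_top (top_le_iff.mp this)

/-- A prime not containing `N` is coprime to `(N)`. -/
theorem isCoprime_of_natCast_notMem (Q : HeightOneSpectrum (𝓞 K))
    (h : ((N : ℕ) : 𝓞 K) ∉ Q.asIdeal) :
    IsCoprime Q.asIdeal (Ideal.span {((N : ℕ) : 𝓞 K)}) := by
  rw [Ideal.isCoprime_iff_sup_eq]
  by_contra hne
  have hQ : Q.asIdeal.IsMaximal := Q.isMaximal
  have heq := hQ.eq_of_le hne le_sup_left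
  apply h
  rw [heq]
  exact Ideal.mem_sup_right (Ideal.mem_span_singleton_self _)

theorem isCoprime_prod_pow (s : Finset (HeightOneSpectrum (𝓞 K)))
    (n : HeightOneSpectrum (𝓞 K) → ℕ) (h : ∀ Q ∈ s, ((N : ℕ) : 𝓞 K) ∉ Q.asIdeal) :
    IsCoprime (∏ Q ∈ s, Q.asIdeal ^ n Q : Ideal (𝓞 K)) (Ideal.span {((N : ℕ) : 𝓞 K)}) :=
  IsCoprime.prod_left fun Q hQ => IsCoprime.pow_left (isCoprime_of_natCast_notMem Q (h Q hQ))

variable (hT : ∀ q : Nat.Primes, q ∈ T ↔ (q : ℕ) ∣ N)

include hT in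
/-- `hex`: every nonzero ideal prime to `(N)` is the content of an idele trivial at `T`. -/
theorem exists_relIdeal {I : Ideal (𝓞 K)} (hI : I ≠ ⊥)
    (hcop : IsCoprime I (Ideal.span {((N : ℕ) : 𝓞 K)})) : ∃ x : ideleGroup K, RelIdeal T x I := by
  set e : HeightOneSpectrum (𝓞 K) → ℤ := fun P => idealCount P I with he
  have hmem : ideleOfOrd e ∈ ideleGroup K :=
    ideleOfOrd_mem_ideleGroup e (finite_setOf_idealCount_ne_zero hI)
  refine ⟨⟨ideleOfOrd e, hmem⟩, hI, fun q hq => ?_, fun P => ?_⟩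
  · show ideleOfOrd e q = 1
    exact ideleOfOrd_apply_eq_one e q fun τ =>
      idealCount_eq_zero_of_isCoprime hI hcop ((hT q).mp hq) τ
  · show ideleOrd (ideleOfOrd e) P = idealCount P I
    exact ideleOrd_ideleOfOrd e P

/-- `hmul`. -/
theorem RelIdeal.mul {x y : ideleGroup K} {I I' : Ideal (𝓞 K)} (hx : RelIdeal T x I)
    (hy : RelIdeal T y I') : RelIdeal T (x * y) (I * I') := by
  refine ⟨mul_ne_zero hx.1 hy.1, fun q hq => ?_, fun P => ?_⟩
  · rw [Subgroup.coe_mul, Pi.mul_apply, hx.2.1 q hq, hy.2.1 q hq, mul_one]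
  · rw [Subgroup.coe_mul, ideleOrd_mul, hx.2.2 P, hy.2.2 P, idealCount_mul P hx.1 hy.1]

/-- `hdiv`: two ideles related to the same ideal differ by a unit idele trivial at `T`. -/
theorem RelIdeal.div_mem {x y : ideleGroup K} {I : Ideal (𝓞 K)} (hx : RelIdeal T x I)
    (hy : RelIdeal T y I) :
    ((x / y : ideleGroup K) : IdeleProd K) ∈ unitIdelesOutside K (T : Set Nat.Primes) := by
  rw [Subgroup.coe_div]
  refine ⟨fun q _ => ?_, fun q hq => ?_⟩
  · rw [mem_semiLocalIntegral_iff_ideleOrd]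
    intro τ
    rw [ideleOrd_div, hx.2.2, hy.2.2, sub_self]
  · rw [Pi.div_apply, hx.2.1 q hq, hy.2.1 q hq, div_one]

end Modulus

/-! ### Principal ideles and restrictions inside the idele group -/

/-- The principal idele of `a`, as an element of the idele group. -/
def principalIdeleG (a : Kˣ) : ideleGroup K :=
  ⟨principalIdele K a, principalIdele_mem_ideleGroup a⟩

theorem principalIdeleG_mem (a : Kˣ) : principalIdeleG a ∈ principalSubgroup K := by
  rw [principalSubgroup, Subgroup.mem_subgroupOf]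
  exact ⟨a, rfl⟩

/-- The components at `S` of an idele, as an element of the idele group. -/
def ideleRestrictG (S : Set Nat.Primes) (x : ideleGroup K) : ideleGroup K :=
  ⟨ideleRestrict S x, ideleRestrict_mem_ideleGroup S x.2⟩

theorem ideleRestrictG_mul_compl (S : Set Nat.Primes) (x : ideleGroup K) :
    ideleRestrictG S x * ideleRestrictG Sᶜ x = x :=
  Subtype.ext (ideleRestrict_mul_compl S (x : IdeleProd K))

section Final

variable {T : Finset Nat.Primes} {N : ℕ} (hT : ∀ q : Nat.Primes, q ∈ T ↔ (q : ℕ) ∣ N)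
  (PN : Subgroup (ideleGroup K)) {δ : ℝ}
  (hprinc : principalSubgroup K ≤ PN)
  (hW1 : ∀ x : ideleGroup K, (x : IdeleProd K) ∈ unitIdelesOutside K (T : Set Nat.Primes) → x ∈ PN)
  (hW2 : ∀ x : ideleGroup K, (∀ q : Nat.Primes, q ∉ T → (x : IdeleProd K) q = 1) →
    (∀ q : Nat.Primes, q ∈ T → ∀ τ : LocalEmb (q : ℕ) K,
      ‖((((x : IdeleProd K) q : semiLocalUnits (q : ℕ) K) :
        LocalEmb (q : ℕ) K → (PadicAlgCl (q : ℕ))ˣ) τ : PadicAlgCl (q : ℕ)) - 1‖ < δ) → x ∈ PN)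

include hT hprinc hW2 in
/-- `hP`: for `α ≡ 1 mod N` the ideal `(α)` is the content of an element of `PN`. -/
theorem exists_relIdeal_span (hNδ : ∀ q : Nat.Primes, q ∈ T → ‖((N : ℕ) : ℚ_[(q : ℕ)])‖ < δ)
    {α : 𝓞 K} (hα : α ≠ 0) (h1 : α - 1 ∈ Ideal.span {((N : ℕ) : 𝓞 K)}) :
    ∃ x : ideleGroup K, RelIdeal T x (Ideal.span {α}) ∧ x ∈ PN := by
  have hα' : (α : K) ≠ 0 := fun h => hα (RingOfIntegers.coe_eq_zero_iff.mp h)
  set a : Kˣ := Units.mk0 (α : K) hα' with ha
  have hne : (Ideal.span {α} : Ideal (𝓞 K)) ≠ ⊥ := by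
    rw [Ne, Ideal.span_singleton_eq_bot]; exact hα
  have hcop : IsCoprime (Ideal.span {α}) (Ideal.span {((N : ℕ) : 𝓞 K)}) := by
    rw [Ideal.isCoprime_iff_exists]
    exact ⟨α, Ideal.mem_span_singleton_self α, -(α - 1), neg_mem h1, by ring⟩
  refine ⟨ideleRestrictG (T : Set Nat.Primes)ᶜ (principalIdeleG a), ⟨hne, fun q hq => ?_, fun P => ?_⟩, ?_⟩
  · exact ideleRestrict_apply_of_notMem _ (fun h : q ∈ (T : Set Nat.Primes)ᶜ => h hq)
  · obtain ⟨q, τ, rfl⟩ := exists_emb P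
    show ideleOrd (ideleRestrict (T : Set Nat.Primes)ᶜ (principalIdele K a)) (primeOfH τ) = _
    by_cases hq : q ∈ T
    · rw [ideleOrd_ideleRestrict_of_notMem _ (fun h : q ∈ (T : Set Nat.Primes)ᶜ => h hq),
        idealCount_eq_zero_of_isCoprime hne hcop ((hT q).mp hq) τ]
    · rw [ideleOrd_ideleRestrict_of_mem _ (show q ∈ (T : Set Nat.Primes)ᶜ from hq),
        ideleOrd_principal, idealCount_span_singleton _ hα hα']
  · have hmul := ideleRestrictG_mul_compl (T : Set Nat.Primes) (principalIdeleG a)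
    have hx : ideleRestrictG (T : Set Nat.Primes)ᶜ (principalIdeleG a) =
        principalIdeleG a / ideleRestrictG (T : Set Nat.Primes) (principalIdeleG a) := by
      rw [eq_div_iff_mul_eq', mul_comm, hmul]
    rw [hx]
    refine PN.div_mem (hprinc (principalIdeleG_mem a)) (hW2 _ (fun q hq => ?_) fun q hq τ => ?_)
    · exact ideleRestrict_apply_of_notMem _ (fun h : q ∈ (T : Set Nat.Primes) => hq h)
    · have h2 : (ideleRestrictG (T : Set Nat.Primes) (principalIdeleG a) : IdeleProd K) q =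
          principalIdele K a q :=
        ideleRestrict_apply_of_mem _ (show q ∈ (T : Set Nat.Primes) from hq)
      rw [h2, principalIdele_apply, semiLocalDiag_apply]
      obtain ⟨β, hβ⟩ := Ideal.mem_span_singleton'.mp h1
      have h3 : (α : K) - 1 = (β : K) * ((N : ℕ) : K) := by
        have := congrArg (fun z : 𝓞 K => (z : K)) hβ
        simp only [coe_mul_ringOfIntegers, coe_natCast_ringOfIntegers] at this
        rw [this]
        rfl
      have h4 : τ (a : K) - 1 = τ (β : K) * τ ((N : ℕ) : K) := by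
        rw [← map_mul, ← h3, map_sub, map_one]
        rfl
      rw [h4, norm_mul, norm_emb_natCast]
      calc ‖τ (β : K)‖ * ‖((N : ℕ) : ℚ_[(q : ℕ)])‖ ≤ 1 * ‖((N : ℕ) : ℚ_[(q : ℕ)])‖ :=
            mul_le_mul_of_nonneg_right (norm_emb_le_one τ β) (norm_nonneg _)
        _ < δ := by rw [one_mul]; exact hNδ q hq

include hT hprinc hW1 hW2 in
/-- `hsurj`: modulo `PN`, every idele is a quotient of two ideles related to ideals prime to
`N` (weak approximation). -/
theorem exists_relIdeal_div_mem (hδ : 0 < δ) (x : ideleGroup K) :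
    ∃ (y y' : ideleGroup K) (I I' : Ideal (𝓞 K)), I ≠ ⊥ ∧ I' ≠ ⊥ ∧
      IsCoprime I (Ideal.span {((N : ℕ) : 𝓞 K)}) ∧ IsCoprime I' (Ideal.span {((N : ℕ) : 𝓞 K)}) ∧
      RelIdeal T y I ∧ RelIdeal T y' I' ∧ x * y' / y ∈ PN := by
  classical
  obtain ⟨a, ha⟩ := exists_unit_norm_div_sub_one_lt T (x : IdeleProd K) hδ
  set pa : ideleGroup K := principalIdeleG a with hpa
  set z : ideleGroup K := pa / x with hz
  set zT : ideleGroup K := ideleRestrictG (T : Set Nat.Primes) z with hzT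
  set zc : ideleGroup K := ideleRestrictG (T : Set Nat.Primes)ᶜ z with hzc
  have hzz : zT * zc = z := ideleRestrictG_mul_compl _ z
  -- the `T`-part is close to `1`
  have hzTPN : zT ∈ PN := by
    refine hW2 zT (fun q hq => ideleRestrict_apply_of_notMem _ hq) (fun q hq τ => ?_)
    have h2 : (zT : IdeleProd K) q = (z : IdeleProd K) q := ideleRestrict_apply_of_mem _ hq
    have h3 : (z : IdeleProd K) q = (pa : IdeleProd K) q / (x : IdeleProd K) q := by
      rw [hz, Subgroup.coe_div, Pi.div_apply]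
    have h4 : (((((pa : IdeleProd K) q / (x : IdeleProd K) q : semiLocalUnits (q : ℕ) K) :
        LocalEmb (q : ℕ) K → (PadicAlgCl (q : ℕ))ˣ) τ : (PadicAlgCl (q : ℕ))ˣ) :
          PadicAlgCl (q : ℕ)) =
        τ (a : K) / ((((x : IdeleProd K) q : semiLocalUnits (q : ℕ) K) :
          LocalEmb (q : ℕ) K → (PadicAlgCl (q : ℕ))ˣ) τ : PadicAlgCl (q : ℕ)) := by
      rw [Subgroup.coe_div, Pi.div_apply, Units.val_div_eq_div_val]
      rfl
    rw [h2, h3, h4]
    exact ha q hq τ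
  -- the orders of the part away from `T`
  set e : HeightOneSpectrum (𝓞 K) → ℤ := fun P => ideleOrd (zc : IdeleProd K) P with he
  have hfin : {P : HeightOneSpectrum (𝓞 K) | e P ≠ 0}.Finite :=
    finite_setOf_ideleOrd_ne_zero zc.2
  set s : Finset (HeightOneSpectrum (𝓞 K)) := hfin.toFinset with hs
  have hsmem : ∀ P, P ∈ s ↔ e P ≠ 0 := fun P => hfin.mem_toFinset
  have heT : ∀ q : Nat.Primes, q ∈ T → ∀ τ : LocalEmb (q : ℕ) K, e (primeOfH τ) = 0 :=
    fun q hq τ => ideleOrd_ideleRestrict_of_notMem _ (fun h : q ∈ (T : Set Nat.Primes)ᶜ => h hq) τ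
  have hsN : ∀ Q ∈ s, ((N : ℕ) : 𝓞 K) ∉ Q.asIdeal := by
    intro Q hQ hmem
    obtain ⟨q, hqN, hqQ⟩ := exists_prime_dvd_of_natCast_mem Q hmem
    have := Q.isPrime
    obtain ⟨τ, hτ⟩ := exists_primeOf_eq (q := (q : ℕ)) Q.asIdeal hqQ
    have hQτ : primeOfH τ = Q := HeightOneSpectrum.ext hτ
    exact (hsmem Q).mp hQ (hQτ ▸ heT q ((hT q).mpr hqN) τ)
  set I : Ideal (𝓞 K) := ∏ Q ∈ s, Q.asIdeal ^ (e Q).toNat with hIdef
  set I' : Ideal (𝓞 K) := ∏ Q ∈ s, Q.asIdeal ^ (-e Q).toNat with hI'def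
  have hI : I ≠ ⊥ := prod_pow_ne_bot s _
  have hI' : I' ≠ ⊥ := prod_pow_ne_bot s _
  have hIc : IsCoprime I (Ideal.span {((N : ℕ) : 𝓞 K)}) :=
    isCoprime_prod_pow s (fun Q => (e Q).toNat) hsN
  have hIc' : IsCoprime I' (Ideal.span {((N : ℕ) : 𝓞 K)}) :=
    isCoprime_prod_pow s (fun Q => (-e Q).toNat) hsN
  have hcI : ∀ P, idealCount P I = ((e P).toNat : ℤ) := by
    intro P
    rw [hIdef, idealCount_prod_pow]
    split_ifs with h
    · rfl
    · have h0 : e P = 0 := by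
        by_contra h0
        exact h ((hsmem P).mpr h0)
      rw [h0]; rfl
  have hcI' : ∀ P, idealCount P I' = ((-e P).toNat : ℤ) := by
    intro P
    rw [hI'def, idealCount_prod_pow]
    split_ifs with h
    · rfl
    · have h0 : e P = 0 := by
        by_contra h0
        exact h ((hsmem P).mpr h0)
      rw [h0]; rfl
  obtain ⟨y, hy⟩ := exists_relIdeal hT hI hIc
  obtain ⟨y', hy'⟩ := exists_relIdeal hT hI' hIc'
  set u : ideleGroup K := zc / (y / y') with hu
  have huPN : u ∈ PN := by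
    apply hW1
    rw [hu, Subgroup.coe_div, Subgroup.coe_div]
    refine ⟨fun q _ => ?_, fun q hq => ?_⟩
    · rw [mem_semiLocalIntegral_iff_ideleOrd]
      intro τ
      rw [ideleOrd_div, ideleOrd_div, hy.2.2, hy'.2.2, hcI, hcI']
      show e (primeOfH τ) - _ = 0
      omega
    · rw [Pi.div_apply, Pi.div_apply, hy.2.1 q hq, hy'.2.1 q hq, div_one, div_one]
      exact ideleRestrict_apply_of_notMem _ (fun h : q ∈ (T : Set Nat.Primes)ᶜ => h hq)
  refine ⟨y', y, I', I, hI', hI, hIc', hIc, hy', hy, ?_⟩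
  have hfinal : x * y / y' = pa / (zT * u) := by
    rw [hu, ← mul_div_assoc, hzz, hz, div_div, div_div_cancel, mul_div_assoc]
  rw [hfinal]
  exact PN.div_mem (hprinc (principalIdeleG_mem a)) (PN.mul_mem hzTPN huPN)

end Final

/-! ### The modulus and the final statement -/

/-- A modulus: a natural number whose prime divisors are exactly the elements of `T` and which is
`q`-adically small for `q ∈ T`. -/
theorem exists_modulus (T : Finset Nat.Primes) {δ : ℝ} (hδ : 0 < δ) :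
    ∃ N : ℕ, N ≠ 0 ∧ (∀ q : Nat.Primes, q ∈ T ↔ (q : ℕ) ∣ N) ∧
      ∀ q : Nat.Primes, q ∈ T → ‖((N : ℕ) : ℚ_[(q : ℕ)])‖ < δ := by
  classical
  obtain ⟨k, hk⟩ := exists_pow_lt_of_lt_one hδ (by norm_num : (1 / 2 : ℝ) < 1)
  set M : ℕ := ∏ q ∈ T, (q : ℕ) with hM
  have hM0 : M ≠ 0 := Finset.prod_ne_zero_iff.mpr fun q _ => q.2.ne_zero
  refine ⟨M ^ (k + 1), pow_ne_zero _ hM0, fun q => ⟨fun hq => ?_, fun hq => ?_⟩, fun q hq => ?_⟩
  · exact dvd_pow (Finset.dvd_prod_of_mem (fun q : Nat.Primes => (q : ℕ)) hq) (Nat.succ_ne_zero k)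
  · have h1 : (q : ℕ) ∣ M := q.2.dvd_of_dvd_pow hq
    obtain ⟨q', hq', hdvd⟩ := (Nat.Prime.prime q.2).dvd_finsetProd_iff _ |>.mp h1
    have : q = q' := Subtype.ext ((Nat.prime_dvd_prime_iff_eq q.2 q'.2).mp hdvd)
    rwa [this]
  · have hdvd : (q : ℕ) ∣ M := Finset.dvd_prod_of_mem (fun q : Nat.Primes => (q : ℕ)) hq
    obtain ⟨M', hM'⟩ := hdvd
    have h1 : ‖((M : ℕ) : ℚ_[(q : ℕ)])‖ ≤ 1 / 2 := by
      rw [hM', Nat.cast_mul, norm_mul, Padic.norm_p]
      have h2 : ‖((M' : ℕ) : ℚ_[(q : ℕ)])‖ ≤ 1 := by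
        have := Padic.norm_int_le_one (p := (q : ℕ)) (M' : ℤ)
        simpa using this
      have h3 : ((q : ℕ) : ℝ)⁻¹ ≤ 1 / 2 := by
        rw [one_div]
        apply inv_anti₀ (by norm_num)
        exact_mod_cast q.2.two_le
      calc ((q : ℕ) : ℝ)⁻¹ * ‖((M' : ℕ) : ℚ_[(q : ℕ)])‖ ≤ (1 / 2) * 1 :=
            mul_le_mul h3 h2 (norm_nonneg _) (by norm_num)
        _ = 1 / 2 := mul_one _
    rw [Nat.cast_pow, norm_pow]
    calc ‖((M : ℕ) : ℚ_[(q : ℕ)])‖ ^ (k + 1) ≤ (1 / 2 : ℝ) ^ (k + 1) :=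
          pow_le_pow_left₀ (norm_nonneg _) h1 _
      _ ≤ (1 / 2 : ℝ) ^ k := pow_le_pow_of_le_one (by norm_num) (by norm_num) (Nat.le_succ k)
      _ < δ := hk

/-- **Second inequality, idelic form, from local hypotheses.**  Let `PN` be a subgroup of the
idele group of `K` of exponent dividing `p` in the quotient, containing
* the principal ideles,
* the unit ideles trivial at the rational primes in `T`,
* the ideles supported at `T` and `δ`-close to `1`,
* for every prime `w` of `L` not over `T` an idele trivial at `T` with content `N_{L/K}(w)`.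
Then `PN` has finite index `≤ [L : K]`. -/
theorem index_le_finrank_of_local {L : Type} [Field L] [NumberField L] [Algebra K L]
    (PN : Subgroup (ideleGroup K)) {p : ℕ} [Fact p.Prime]
    (hexp : ∀ x : ideleGroup K, x ^ p ∈ PN) (T : Finset Nat.Primes) {δ : ℝ} (hδ : 0 < δ)
    (hprinc : principalSubgroup K ≤ PN)
    (hW1 : ∀ x : ideleGroup K,
      (x : IdeleProd K) ∈ unitIdelesOutside K (T : Set Nat.Primes) → x ∈ PN)
    (hW2 : ∀ x : ideleGroup K, (∀ q : Nat.Primes, q ∉ T → (x : IdeleProd K) q = 1) →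
      (∀ q : Nat.Primes, q ∈ T → ∀ τ : LocalEmb (q : ℕ) K,
        ‖((((x : IdeleProd K) q : semiLocalUnits (q : ℕ) K) :
          LocalEmb (q : ℕ) K → (PadicAlgCl (q : ℕ))ˣ) τ : PadicAlgCl (q : ℕ)) - 1‖ < δ) → x ∈ PN)
    (hNorm : ∀ w : HeightOneSpectrum (𝓞 L),
      (∀ q : Nat.Primes, q ∈ T → ((q : ℕ) : 𝓞 K) ∉ (w.under (𝓞 K)).asIdeal) →
      ∃ x : ideleGroup K, RelIdeal T x (Ideal.relNorm (𝓞 K) w.asIdeal) ∧ x ∈ PN) :
    PN.index ≠ 0 ∧ PN.index ≤ Module.finrank K L := by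
  obtain ⟨N, hN0, hT, hNδ⟩ := exists_modulus T hδ
  have hm : Ideal.span {((N : ℕ) : 𝓞 K)} ≠ ⊥ := by
    rw [Ne, Ideal.span_singleton_eq_bot]
    exact_mod_cast hN0
  refine Second.index_ne_zero_and_le_finrank_of_rel (L := L) PN hexp hm (RelIdeal T)
    (fun I hI hc => exists_relIdeal hT hI hc)
    (fun x y I hx hy => hW1 _ (hx.div_mem hy))
    (fun x y I I' hx hy => hx.mul hy)
    (fun α hα h1 => exists_relIdeal_span hT PN hprinc hW2 hNδ hα h1)
    (fun w hw => hNorm w fun q hq hmem => ?_)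
    (fun x => exists_relIdeal_div_mem hT PN hprinc hW1 hW2 hδ x)
  obtain ⟨k, hk⟩ := (hT q).mp hq
  have hNmem : ((N : ℕ) : 𝓞 K) ∈ (w.under (𝓞 K)).asIdeal := by
    rw [hk, Nat.cast_mul]
    exact Ideal.mul_mem_right _ _ hmem
  have hle : Ideal.span {((N : ℕ) : 𝓞 K)} ≤ (w.under (𝓞 K)).asIdeal := by
    rw [Ideal.span_singleton_le_iff_mem]; exact hNmem
  have htop : (w.under (𝓞 K)).asIdeal ⊔ Ideal.span {((N : ℕ) : 𝓞 K)} = ⊤ :=
    Ideal.isCoprime_iff_sup_eq.mp hw
  rw [sup_eq_left.mpr hle] at htop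
  exact (w.under (𝓞 K)).isPrime.ne_top htop

end Fermat.Agent.CFT.IdeleDict
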