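import Fermat.Agent.CFT.Global.IdeleDict.DictIdeal

/-!
# C1c IdeleDict, part 8: `idealCount` in terms of `Associates` counts, and `RelIdeal` from the
raw data (adapters for the consumers of `DictIdeal.lean`)
-/

set_option autoImplicit false

open scoped NumberField nonZeroDivisors

noncomputable section

namespace Fermat.Agent.CFT.IdeleDict

open NumberField IsDedekindDomain Fermat.Agent.CFT

variable {K : Type} [Field K] [NumberField K]

/-- `idealCount` is the multiplicity in the factorisation (Mathlib's `Associates` count). -/
theorem idealCount_eq_count (P : HeightOneSpectrum (𝓞 K)) {I : Ideal (𝓞 K)} (hI : I ≠ ⊥) :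
    idealCount P I = ((Associates.mk P.asIdeal).count (Associates.mk I).factors : ℤ) :=
  FractionalIdeal.count_coe K P (show I ≠ 0 from hI)

/-- `RelIdeal` from an idele which is trivial away from one rational prime `q ∉ T` and has the
orders of `I` (counts in the `Associates` form). -/
theorem relIdeal_of_count {T : Finset Nat.Primes} {x : ideleGroup K} {I : Ideal (𝓞 K)}
    (hI : I ≠ ⊥) {q : Nat.Primes} (hq : q ∉ T)
    (h1 : ∀ q' : Nat.Primes, q' ≠ q → (x : IdeleProd K) q' = 1)
    (h2 : ∀ P : HeightOneSpectrum (𝓞 K), ideleOrd (x : IdeleProd K) P =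
      ((Associates.mk P.asIdeal).count (Associates.mk I).factors : ℤ)) : RelIdeal T x I :=
  ⟨hI, fun q' hq' => h1 q' (fun h => hq (h ▸ hq')), fun P => by
    rw [h2 P, idealCount_eq_count P hI]⟩

end Fermat.Agent.CFT.IdeleDict
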