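import Fermat.Agent.CFT.Global.IdeleDict.DictGen

/-!
# Layer C, dictionary: every idele has a power which is principal up to unit ideles

Finiteness of the class group in idele language: with `h` the class number of `K`,
* `exists_ordAt_eq_classNumber`: for every prime `P` there is `y ∈ Kˣ` with `ord_P y = h` and
  `ord_Q y = 0` for `Q ≠ P`;
* `exists_pow_div_principal_mem_ideleOutside`: for every idele `x` there is `a ∈ Kˣ` such that
  `x ^ h / a` is a unit idele everywhere;
* `exists_norm_pow_eq_norm_emb`: the same in terms of norms, `‖x_q τ‖ ^ h = ‖τ a‖` for all `q, τ`.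
-/

set_option autoImplicit false
set_option linter.unusedSectionVars false

open scoped NumberField

noncomputable section

namespace Fermat.Agent.CFT.IdeleDict

open NumberField IsDedekindDomain Fermat.Agent.CFT Fermat.Agent.CFT.SUnits

variable (K : Type) [Field K] [NumberField K]

/-- The `h`-th power of every prime is principal (`h` the class number). -/
theorem exists_ordAt_eq_classNumber (P : HeightOneSpectrum (𝓞 K)) :
    ∃ y : Kˣ, ordAt P y = (classNumber K : ℤ) ∧
      ∀ Q : HeightOneSpectrum (𝓞 K), Q ≠ P → ordAt Q y = 0 := by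
  classical
  set h := classNumber K with hh
  have hPmem : P.asIdeal ∈ nonZeroDivisors (Ideal (𝓞 K)) :=
    mem_nonZeroDivisors_of_ne_zero P.ne_bot
  set J : nonZeroDivisors (Ideal (𝓞 K)) := ⟨P.asIdeal, hPmem⟩ ^ h with hJ
  have hJ1 : ClassGroup.mk0 J = 1 := by
    rw [hJ, map_pow, hh, classNumber]
    exact pow_card_eq_one
  have hJp : (J : Ideal (𝓞 K)).IsPrincipal :=
    (ClassGroup.mk0_eq_one_iff (I := (J : Ideal (𝓞 K))) J.2).mp (by simpa using hJ1)
  obtain ⟨a, ha⟩ := hJp.principal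
  have hJcoe : (J : Ideal (𝓞 K)) = P.asIdeal ^ h := rfl
  have hspan : Ideal.span {a} = P.asIdeal ^ h := by
    rw [← hJcoe, ha]
  have ha0 : a ≠ 0 := by
    rintro rfl
    have h0 : (J : Ideal (𝓞 K)) = ⊥ := by rw [ha]; simp
    exact nonZeroDivisors.ne_zero J.2 h0
  have haK : (a : K) ≠ 0 := by
    rw [RingOfIntegers.coe_eq_algebraMap]
    exact (map_ne_zero_iff _ (IsFractionRing.injective (𝓞 K) K)).mpr ha0
  have hPprime : Prime P.asIdeal := Ideal.prime_of_isPrime P.ne_bot P.isPrime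
  refine ⟨Units.mk0 (a : K) haK, ?_, ?_⟩
  · have h1 : (h : ℤ) ≤ ordAt P (Units.mk0 (a : K) haK) :=
      (natCast_le_ordAt_iff P haK h).mpr (by rw [hspan])
    have h2 : ¬ ((h + 1 : ℕ) : ℤ) ≤ ordAt P (Units.mk0 (a : K) haK) := by
      intro hle
      have h' := (natCast_le_ordAt_iff P haK (h + 1)).mp hle
      rw [hspan, pow_dvd_pow_iff hPprime.ne_zero hPprime.not_isUnit] at h'
      omega
    push_cast at h2
    omega
  · intro Q hQP
    have hQprime : Prime Q.asIdeal := Ideal.prime_of_isPrime Q.ne_bot Q.isPrime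
    have h0 : (0 : ℤ) ≤ ordAt Q (Units.mk0 (a : K) haK) := by
      have := (natCast_le_ordAt_iff Q haK 0).mpr (by rw [pow_zero]; exact one_dvd _)
      simpa using this
    have h1 : ¬ (1 : ℤ) ≤ ordAt Q (Units.mk0 (a : K) haK) := by
      intro hle
      have h' := (natCast_le_ordAt_iff Q haK 1).mp (by simpa using hle)
      rw [hspan, pow_one] at h'
      have h'' := hQprime.dvd_of_dvd_pow h'
      have hle' : P.asIdeal ≤ Q.asIdeal := Ideal.dvd_iff_le.mp h''
      have : P.asIdeal = Q.asIdeal := P.isMaximal.eq_of_le Q.isPrime.ne_top hle'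
      exact hQP (HeightOneSpectrum.ext this.symm)
    omega

variable {K}

theorem ideleOrd_pow (x : IdeleProd K) (n : ℕ) (P : HeightOneSpectrum (𝓞 K)) :
    ideleOrd (x ^ n) P = n * ideleOrd x P := by
  induction n with
  | zero => simp [ideleOrd_one]
  | succ n ih => rw [pow_succ, ideleOrd_mul, ih]; push_cast; ring

/-- For every idele `x`, the power `x ^ h` (`h` the class number) is a principal idele times an
everywhere unit idele. -/
theorem exists_pow_div_principal_mem_ideleOutside {x : IdeleProd K} (hx : x ∈ ideleGroup K) :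
    ∃ y : Kˣ, x ^ classNumber K / principalIdele K y ∈ ideleOutside K ∅ := by
  classical
  choose g hg1 hg2 using exists_ordAt_eq_classNumber K
  set B : Finset (HeightOneSpectrum (𝓞 K)) := (finite_setOf_ideleOrd_ne_zero hx).toFinset with hB
  have hBmem : ∀ P, P ∈ B ↔ ideleOrd x P ≠ 0 := by
    intro P
    rw [hB, Set.Finite.mem_toFinset]
    exact Iff.rfl
  refine ⟨∏ P ∈ B, g P ^ (ideleOrd x P), ?_⟩
  intro Q _
  rw [ideleOrd_div, ideleOrd_principal, ordAt_prod, ideleOrd_pow, sub_eq_zero]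
  by_cases hQB : Q ∈ B
  · rw [Finset.sum_eq_single_of_mem Q hQB]
    · rw [ordAt_zpow, hg1 Q, mul_comm]
    · intro P _ hPQ
      rw [ordAt_zpow, hg2 P Q (Ne.symm hPQ), mul_zero]
  · have h0 : ideleOrd x Q = 0 := by
      by_contra hne
      exact hQB ((hBmem Q).mpr hne)
    rw [h0, mul_zero]
    symm
    apply Finset.sum_eq_zero
    intro P hPB
    have hPQ : Q ≠ P := fun h => hQB (h ▸ hPB)
    rw [ordAt_zpow, hg2 P Q hPQ, mul_zero]

/-- Norm form: for every idele `x` there are `h > 0` and `a ∈ Kˣ` with `‖x_q τ‖ ^ h = ‖τ a‖` for all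
primes `q` and all embeddings `τ`. -/
theorem exists_norm_pow_eq_norm_emb {x : IdeleProd K} (hx : x ∈ ideleGroup K) :
    ∃ h : ℕ, 0 < h ∧ ∃ a : Kˣ, ∀ (q : Nat.Primes) (τ : LocalEmb (q : ℕ) K),
      ‖(((x q : semiLocalUnits (q : ℕ) K) : LocalEmb (q : ℕ) K → (PadicAlgCl (q : ℕ))ˣ) τ :
        PadicAlgCl (q : ℕ))‖ ^ h = ‖τ (a : K)‖ := by
  obtain ⟨a, ha⟩ := exists_pow_div_principal_mem_ideleOutside hx
  refine ⟨classNumber K, classNumber_pos K, a, fun q τ => ?_⟩
  have h1 := (mem_ideleOutside_iff_norm.1 ha) q τ (Set.notMem_empty _)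
  have h2 : (((((x ^ classNumber K / principalIdele K a : IdeleProd K) q :
      semiLocalUnits (q : ℕ) K) : LocalEmb (q : ℕ) K → (PadicAlgCl (q : ℕ))ˣ) τ :
        (PadicAlgCl (q : ℕ))ˣ) : PadicAlgCl (q : ℕ)) =
      (((x q : semiLocalUnits (q : ℕ) K) : LocalEmb (q : ℕ) K → (PadicAlgCl (q : ℕ))ˣ) τ :
        PadicAlgCl (q : ℕ)) ^ classNumber K / τ (a : K) := by
    rw [Pi.div_apply, Pi.pow_apply, principalIdele_apply]
    simp only [Subgroup.coe_div, Subgroup.coe_pow, Pi.div_apply, Pi.pow_apply, Units.val_div_eq_div_val,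
      Units.val_pow_eq_pow_val, semiLocalDiag_apply]
  rw [h2, norm_div, norm_pow] at h1
  have h0 : ‖τ (a : K)‖ ≠ 0 := norm_ne_zero_iff.2 ((map_ne_zero τ).2 a.ne_zero)
  exact (div_eq_one_iff_eq h0).1 h1

end Fermat.Agent.CFT.IdeleDict
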