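import Fermat.Agent.CFT.Global.IdeleDict.UnramBridge
import Fermat.Agent.CFT.Global.UnramAlmostAll
import Fermat.Agent.CFT.Local.Frobenius

/-!
# Kummer generators at prime-to-`p` unit places are unramified (node (H-unr) of C7)

* `eq_one_of_pow_eq_one_of_norm_sub_one_lt`: in an ultrametric normed field, a `p`-th root of unity
  congruent to `1` is `1` as soon as `‖p‖ = 1`;
* `layer_isUnramExt_of_pow_roots`: abstract layer `E'/E` generated by elements of norm one whose
  `p`-th powers lie in `E` (`‖p‖ = 1`) is unramified: the inertia group fixes the generators;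
* `isUnramExt_localLayer_of_pow_roots`, `isUnramAt_of_pow_roots`: number fields `M/K`, `M` generated
  over `K` by `p`-th roots of elements which are units at the place of `τ'`, `p ≠ q`: the local layer
  `M_τ'/K_τ` is unramified and helper11's local hypotheses `IsUnramAt K τ'` hold.
-/

set_option autoImplicit false
set_option linter.unusedSectionVars false
set_option linter.style.haveILetI false

open scoped NumberField

noncomputable section

namespace Fermat.Agent.CFT.IdeleDict

open Fermat.Agent.CFT Polynomial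

section RootOfUnity

variable {Ω : Type*} [NormedField Ω] [IsUltrametricDist Ω]

theorem norm_geom_sum_le_one {ζ : Ω} (hζ : ‖ζ‖ = 1) (n : ℕ) :
    ‖∑ i ∈ Finset.range n, ζ ^ i‖ ≤ 1 := by
  apply IsUltrametricDist.norm_sum_le_of_forall_le_of_nonneg zero_le_one
  intro i _
  rw [norm_pow, hζ, one_pow]

theorem norm_pow_sub_one_le {ζ : Ω} (hζ : ‖ζ‖ = 1) (n : ℕ) : ‖ζ ^ n - 1‖ ≤ ‖ζ - 1‖ := by
  rw [← geom_sum_mul, norm_mul]
  calc ‖∑ i ∈ Finset.range n, ζ ^ i‖ * ‖ζ - 1‖ ≤ 1 * ‖ζ - 1‖ :=
        mul_le_mul_of_nonneg_right (norm_geom_sum_le_one hζ n) (norm_nonneg _)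
    _ = ‖ζ - 1‖ := one_mul _

/-- A `p`-th root of unity congruent to `1` modulo the maximal ideal is `1` when `p` is a unit. -/
theorem eq_one_of_pow_eq_one_of_norm_sub_one_lt {p : ℕ} (hp : ‖(p : Ω)‖ = 1) {ζ : Ω}
    (hζp : ζ ^ p = 1) (hlt : ‖ζ - 1‖ < 1) : ζ = 1 := by
  have hp0 : p ≠ 0 := by
    rintro rfl
    rw [Nat.cast_zero, norm_zero] at hp
    exact zero_ne_one hp
  have hζ : ‖ζ‖ = 1 := by
    have h1 : ‖ζ‖ ^ p = 1 := by rw [← norm_pow, hζp, norm_one]
    exact (pow_eq_one_iff_of_nonneg (norm_nonneg _) hp0).mp h1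
  by_contra hne
  have hsum : ∑ i ∈ Finset.range p, ζ ^ i = 0 := by
    have h1 : (∑ i ∈ Finset.range p, ζ ^ i) * (ζ - 1) = 0 := by
      rw [geom_sum_mul, hζp, sub_self]
    rcases mul_eq_zero.mp h1 with h2 | h2
    · exact h2
    · exact absurd (sub_eq_zero.mp h2) hne
  have hpeq : (p : Ω) = - ∑ i ∈ Finset.range p, (ζ ^ i - 1) := by
    rw [Finset.sum_sub_distrib, hsum, Finset.sum_const, Finset.card_range, nsmul_eq_mul, mul_one,
      zero_sub, neg_neg]
  have hle : ‖(p : Ω)‖ ≤ ‖ζ - 1‖ := by
    rw [hpeq, norm_neg]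
    apply IsUltrametricDist.norm_sum_le_of_forall_le_of_nonneg (norm_nonneg _)
    intro i _
    exact norm_pow_sub_one_le hζ i
  rw [hp] at hle
  exact absurd hlt (not_lt.mpr hle)

end RootOfUnity

section AbstractLayer

open Fermat.Agent.CFT.GaloisTower Fermat.Agent.CFT.Tower IsLocalRing

variable (O : Type) {k Ω : Type} [CommRing O] [Field k] [Algebra O k] [NormedField Ω]
  [Algebra k Ω] [Algebra O Ω] [IsScalarTower O k Ω]
  (hint : ∀ y : Ω, IsIntegral O y ↔ ‖y‖ ≤ 1)
  {E E' : IntermediateField k Ω} (h : E ≤ E')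

variable [IsDomain O] [IsDiscreteValuationRing O] [IsAdicComplete (maximalIdeal O) O]
  [Finite (ResidueField O)] [IsFractionRing O k] [CharZero k] [FiniteDimensional k E']

set_option synthInstance.maxHeartbeats 400000 in
set_option maxHeartbeats 1600000 in
include hint in
/-- A Galois layer `E'/E` inside an ultrametric normed field, generated by elements of norm one
whose `p`-th powers lie in `E`, with `‖p‖ = 1`, is unramified. -/
theorem layer_isUnramExt_of_pow_roots [IsUltrametricDist Ω] [IsGalois E (layer h)] {p : ℕ}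
    (hp : ‖(p : Ω)‖ = 1) (G : Set (layer h))
    (hG1 : ∀ η ∈ G, ‖algebraMap (layer h) Ω η‖ = 1)
    (hGp : ∀ η ∈ G, η ^ p ∈ Set.range (algebraMap E (layer h)))
    (hgen : ∀ σ : layer h ≃ₐ[E] layer h, (∀ η ∈ G, σ η = η) → σ = 1) :
    haveI : FiniteDimensional k E := finiteDimensional_of_le' h
    haveI := base_isLocalRing O k E
    IsUnramExt (integralClosure O E) (layer h) := by
  haveI : FiniteDimensional k E := finiteDimensional_of_le' h
  haveI := base_isDiscreteValuationRing O k E
  haveI := base_isLocalRing O k E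
  haveI := base_isAdicComplete O k E
  haveI := base_finite_residueField O k E
  haveI := base_isFractionRing O k E
  haveI := finiteDimensional_layer' h
  haveI := intRing_isLocalRing (integralClosure O E) E (layer h)
  haveI := intRing_isLocalHom (integralClosure O E) E (layer h)
  have hRL := mem_intRing_layer_iff_norm_le_one O hint h
  rw [isUnramExt_iff_ramIdx (integralClosure O E) E (layer h),
    ← card_inertiaGal (integralClosure O E) E (layer h)]
  have hbot : inertiaGal (integralClosure O E) E (layer h) = ⊥ := by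
    rw [eq_bot_iff]
    intro σ hσ
    rw [Subgroup.mem_bot]
    apply hgen
    intro η hη
    rw [mem_inertiaGal_iff] at hσ
    have hηmem : η ∈ integralClosure (integralClosure O E) (layer h) :=
      (hRL η).mpr (hG1 η hη).le
    have h1 := hσ ⟨η, hηmem⟩
    rw [mem_maximalIdeal_iff_abv_lt_one _ _ hRL, normAbv_apply] at h1
    have h2 : ((galRestrict (integralClosure O E) E (layer h)
        (integralClosure (integralClosure O E) (layer h)) σ ⟨η, hηmem⟩ :
          integralClosure (integralClosure O E) (layer h)) : layer h) = σ η :=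
      algebraMap_galRestrict_apply (integralClosure O E) σ
        (⟨η, hηmem⟩ : integralClosure (integralClosure O E) (layer h))
    have h3 : ‖algebraMap (layer h) Ω (σ η - η)‖ < 1 := by
      have e : (((galRestrict (integralClosure O E) E (layer h)
          (integralClosure (integralClosure O E) (layer h)) σ ⟨η, hηmem⟩ - ⟨η, hηmem⟩ :
            integralClosure (integralClosure O E) (layer h)) : layer h)) = σ η - η := by
        rw [Subalgebra.coe_sub, h2]
      rw [← e]
      exact h1
    have hη0 : η ≠ 0 := by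
      intro h0
      have := hG1 η hη
      rw [h0, map_zero, norm_zero] at this
      exact zero_ne_one this
    obtain ⟨e, he⟩ := hGp η hη
    have hσp : (σ η) ^ p = η ^ p := by
      rw [← map_pow, ← he, AlgEquiv.commutes]
    set ζ : Ω := algebraMap (layer h) Ω (σ η / η) with hζ
    have hζp : ζ ^ p = 1 := by
      rw [hζ, ← map_pow, div_pow, hσp, div_self (pow_ne_zero _ hη0), map_one]
    have hζ1 : ‖ζ - 1‖ < 1 := by
      have e1 : ζ - 1 = algebraMap (layer h) Ω (σ η - η) / algebraMap (layer h) Ω η := by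
        rw [hζ, map_div₀, map_sub, sub_div, div_self]
        rwa [Ne, map_eq_zero]
      rw [e1, norm_div, hG1 η hη, div_one]
      exact h3
    have hζe := eq_one_of_pow_eq_one_of_norm_sub_one_lt hp hζp hζ1
    have h4 : σ η / η = 1 := by
      apply (algebraMap (layer h) Ω).injective
      rw [map_one]
      exact hζe
    exact (div_eq_one_iff_eq hη0).mp h4
  rw [hbot]
  exact Subgroup.card_bot

end AbstractLayer

section Concrete

variable {q : ℕ} [Fact q.Prime] (K : Type) [Field K] {M : Type} [Field M] [Algebra K M]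
  [Normal K M]

/-- If `M = K(G)` then `M_τ' = K_τ(τ' G)`. -/
theorem adjoin_localLayer_image_eq_top (τ' : LocalEmb q M) {G : Set M}
    (hG : IntermediateField.adjoin K G = ⊤) :
    IntermediateField.adjoin (localFieldAt (localEmbRestrict K τ'))
      {y : localLayer K τ' | ∃ α ∈ G, (y : PadicAlgCl q) = τ' α} = ⊤ := by
  set F := IntermediateField.adjoin (localFieldAt (localEmbRestrict K τ'))
      {y : localLayer K τ' | ∃ α ∈ G, (y : PadicAlgCl q) = τ' α} with hF
  have h1 : ∀ x : M, (⟨τ' x, apply_mem_localFieldAt τ' x⟩ : localLayer K τ') ∈ F := by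
    intro x
    have hx : x ∈ IntermediateField.adjoin K G := by rw [hG]; trivial
    induction hx using IntermediateField.adjoin_induction with
    | mem y hy =>
      exact IntermediateField.subset_adjoin _ _ ⟨y, hy, rfl⟩
    | algebraMap r =>
      exact F.algebraMap_mem
        (⟨localEmbRestrict K τ' r, apply_mem_localFieldAt _ r⟩ :
          localFieldAt (localEmbRestrict K τ'))
    | add y z _ _ hy hz =>
      have e : (⟨τ' (y + z), apply_mem_localFieldAt τ' (y + z)⟩ : localLayer K τ') =
          ⟨τ' y, apply_mem_localFieldAt τ' y⟩ + ⟨τ' z, apply_mem_localFieldAt τ' z⟩ :=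
        Subtype.ext (map_add τ' y z)
      rw [e]
      exact add_mem hy hz
    | inv y _ hy =>
      have e : (⟨τ' y⁻¹, apply_mem_localFieldAt τ' y⁻¹⟩ : localLayer K τ') =
          (⟨τ' y, apply_mem_localFieldAt τ' y⟩ : localLayer K τ')⁻¹ :=
        Subtype.ext (map_inv₀ τ' y)
      rw [e]
      exact inv_mem hy
    | mul y z _ _ hy hz =>
      have e : (⟨τ' (y * z), apply_mem_localFieldAt τ' (y * z)⟩ : localLayer K τ') =
          ⟨τ' y, apply_mem_localFieldAt τ' y⟩ * ⟨τ' z, apply_mem_localFieldAt τ' z⟩ :=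
        Subtype.ext (map_mul τ' y z)
      rw [e]
      exact mul_mem hy hz
  rw [eq_top_iff]
  rintro ⟨z, hz⟩ -
  have hz' : z ∈ IntermediateField.adjoin ℚ_[q] (Set.range τ') := hz
  have key : ∀ (w : PadicAlgCl q) (hw : w ∈ IntermediateField.adjoin ℚ_[q] (Set.range τ')),
      (⟨w, hw⟩ : localLayer K τ') ∈ F := by
    intro w hw
    induction hw using IntermediateField.adjoin_induction with
    | mem y hy =>
      obtain ⟨x, rfl⟩ := hy
      exact h1 x
    | algebraMap r =>
      exact F.algebraMap_mem (algebraMap ℚ_[q] (localFieldAt (localEmbRestrict K τ')) r)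
    | add y z hy' hz' hy hz =>
      have e : (⟨y + z, add_mem hy' hz'⟩ : localLayer K τ') = ⟨y, hy'⟩ + ⟨z, hz'⟩ := rfl
      exact e ▸ add_mem hy hz
    | inv y hy' hy =>
      have e : (⟨y⁻¹, inv_mem hy'⟩ : localLayer K τ') = (⟨y, hy'⟩ : localLayer K τ')⁻¹ := rfl
      exact e ▸ inv_mem hy
    | mul y z hy' hz' hy hz =>
      have e : (⟨y * z, mul_mem hy' hz'⟩ : localLayer K τ') = ⟨y, hy'⟩ * ⟨z, hz'⟩ := rfl
      exact e ▸ mul_mem hy hz
  exact key z hz'

variable [FiniteDimensional K M] [NumberField K] [NumberField M]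

/-- **Kummer generators at a prime-to-`p` unit place**: if `M = K(G)` where every `α ∈ G` has
`α ^ p ∈ K` a unit at the place of `τ'` and `p ≠ q`, then the local layer `M_τ'/K_τ` is
unramified. -/
theorem isUnramExt_localLayer_of_pow_roots (τ' : LocalEmb q M) {p : ℕ} (hp : p.Prime)
    (hpq : p ≠ q) {G : Set M} (hG : IntermediateField.adjoin K G = ⊤)
    (hroot : ∀ α ∈ G, ∃ u : K, α ^ p = algebraMap K M u ∧ ‖localEmbRestrict K τ' u‖ = 1) :
    haveI := finiteDimensional_localFieldAt (localEmbRestrict K τ')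
    haveI := PadicTower.intRing_isLocalRing q (localFieldAt (localEmbRestrict K τ'))
    IsUnramExt (PadicTower.intRing q (localFieldAt (localEmbRestrict K τ'))) (localLayer K τ') := by
  haveI : FiniteDimensional ℚ_[q] (localFieldAt τ') := finiteDimensional_localFieldAt τ'
  haveI := isGalois_localLayer K τ'
  have hp0 : p ≠ 0 := hp.ne_zero
  refine layer_isUnramExt_of_pow_roots ℤ_[q] (fun y => isIntegral_padicInt_iff_norm_le_one)
    (localFieldAt_restrict_le K τ') (p := p) (KummerLocal.norm_natCast_eq_one hp hpq)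
    {y : localLayer K τ' | ∃ α ∈ G, (y : PadicAlgCl q) = τ' α} ?_ ?_ ?_
  · rintro η ⟨α, hα, hη⟩
    obtain ⟨u, hu, hu1⟩ := hroot α hα
    have h1 : ‖τ' α‖ ^ p = 1 := by
      rw [← norm_pow, ← map_pow, hu]
      exact hu1
    have h2 : ‖τ' α‖ = 1 := (pow_eq_one_iff_of_nonneg (norm_nonneg _) hp0).mp h1
    show ‖(η : PadicAlgCl q)‖ = 1
    rw [hη, h2]
  · rintro η ⟨α, hα, hη⟩
    obtain ⟨u, hu, -⟩ := hroot α hα
    refine ⟨⟨localEmbRestrict K τ' u, apply_mem_localFieldAt _ u⟩, ?_⟩
    apply Subtype.ext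
    show localEmbRestrict K τ' u = ((η ^ p : localLayer K τ') : PadicAlgCl q)
    have : ((η ^ p : localLayer K τ') : PadicAlgCl q) = (η : PadicAlgCl q) ^ p := rfl
    rw [this, hη, ← map_pow, hu]
    rfl
  · intro σ hσ
    have hadj := adjoin_localLayer_image_eq_top K τ' hG
    have h1 := (IntermediateField.forall_mem_adjoin_smul_eq_self_iff
      (localFieldAt (localEmbRestrict K τ'))
      (S := {y : localLayer K τ' | ∃ α ∈ G, (y : PadicAlgCl q) = τ' α}) σ).mpr
      (fun x hx => hσ x hx)
    ext x
    have hx : x ∈ IntermediateField.adjoin (localFieldAt (localEmbRestrict K τ'))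
        {y : localLayer K τ' | ∃ α ∈ G, (y : PadicAlgCl q) = τ' α} := by rw [hadj]; trivial
    exact congrArg Subtype.val (h1 x hx)

/-- **(H-unr), local-layer form**: under the hypotheses of `isUnramExt_localLayer_of_pow_roots`,
helper11's local hypotheses `IsUnramAt K τ'` hold. -/
theorem isUnramAt_of_pow_roots (τ' : LocalEmb q M) {p : ℕ} (hp : p.Prime)
    (hpq : p ≠ q) {G : Set M} (hG : IntermediateField.adjoin K G = ⊤)
    (hroot : ∀ α ∈ G, ∃ u : K, α ^ p = algebraMap K M u ∧ ‖localEmbRestrict K τ' u‖ = 1) :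
    IsUnramAt K τ' :=
  isUnramAt_of_isUnramExt K τ' (isUnramExt_localLayer_of_pow_roots K τ' hp hpq hG hroot)

end Concrete

end Fermat.Agent.CFT.IdeleDict
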