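import Fermat.Agent.CFT.Global.IdeleDict.UnramBridge
import Fermat.Agent.CFT.Local.NormIndexCyclic

/-!
# The local norm index in the embedding model

For `τ' : L → ℚ̄_q` with cyclic decomposition group, the norm subgroup of `L_τ'ˣ` has index
`|decompAt K τ'| = [L_τ' : K_τ]` in `K_τˣ` (instantiation of the Layer-B theorem
`normIndex_eq_finrank` at the local layer `localLayer K τ'`).
-/

set_option autoImplicit false
set_option linter.unusedSectionVars false
set_option linter.style.haveILetI false

noncomputable section

namespace Fermat.Agent.CFT.IdeleDict

open Fermat.Agent.CFT Fermat.Agent.CFT.GaloisTower Fermat.Agent.CFT.Tower IsLocalRing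

section Abstract

variable (O : Type) {k Ω : Type} [CommRing O] [Field k] [Algebra O k] [Field Ω]
  [Algebra k Ω] [Algebra O Ω] [IsScalarTower O k Ω]
  [IsDomain O] [IsDiscreteValuationRing O] [IsAdicComplete (maximalIdeal O) O]
  [Finite (ResidueField O)] [IsFractionRing O k] [CharZero k]
  {E E' : IntermediateField k Ω} (h : E ≤ E') [FiniteDimensional k E']

include O in
set_option synthInstance.maxHeartbeats 400000 in
set_option maxHeartbeats 1600000 in
/-- The norm index of a cyclic layer `E'/E` of a tower over a complete discretely valued field
with finite residue field is the degree. -/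
theorem layer_normIndex_eq_finrank [IsGalois E (layer h)] [IsCyclic (layer h ≃ₐ[E] layer h)] :
    (MonoidHom.range (Units.map (Algebra.norm E : layer h →* E))).index =
      Module.finrank E (layer h) := by
  haveI : FiniteDimensional k E := finiteDimensional_of_le' h
  haveI := base_isDiscreteValuationRing O k E
  haveI := base_isLocalRing O k E
  haveI := base_isAdicComplete O k E
  haveI := base_finite_residueField O k E
  haveI := base_isFractionRing O k E
  haveI := finiteDimensional_layer' h
  exact normIndex_eq_finrank (integralClosure O E) E (layer h)

end Abstract

section Embedding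

variable {q : ℕ} [Fact q.Prime] (K : Type) [Field K] {L : Type} [Field L] [NumberField L]
  [Algebra K L] [Normal K L]

/-- The degree of the local layer is the order of the decomposition group. -/
theorem finrank_localLayer_eq_card_decompAt (τ' : LocalEmb q L) :
    Module.finrank (localFieldAt (localEmbRestrict K τ')) (localLayer K τ') =
      Nat.card (decompAt K τ') := by
  haveI := finiteDimensional_localLayer K τ'
  haveI := isGalois_localLayer K τ'
  rw [← IsGalois.card_aut_eq_finrank]
  exact Nat.card_congr (decompEquiv K τ').toEquiv

/-- **The local norm index**: `[K_τˣ : N L_τ'ˣ] = |decompAt K τ'|` when the decomposition group is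
cyclic. -/
theorem localLayer_normIndex_eq_card_decompAt (τ' : LocalEmb q L)
    (hcyc : IsCyclic (decompAt K τ')) :
    (MonoidHom.range (Units.map (Algebra.norm (localFieldAt (localEmbRestrict K τ')) :
      localLayer K τ' →* localFieldAt (localEmbRestrict K τ')))).index =
      Nat.card (decompAt K τ') := by
  haveI := finiteDimensional_localFieldAt τ'
  haveI := isGalois_localLayer K τ'
  haveI : IsCyclic (localLayer K τ' ≃ₐ[localFieldAt (localEmbRestrict K τ')] localLayer K τ') :=
    isCyclic_of_surjective (decompEquiv K τ').symm (decompEquiv K τ').symm.surjective
  rw [← finrank_localLayer_eq_card_decompAt K τ']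
  exact layer_normIndex_eq_finrank ℤ_[q] (localFieldAt_restrict_le K τ')

end Embedding

end Fermat.Agent.CFT.IdeleDict
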