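import Fermat.Agent.CFT.Global.IdeleDict.DictIdealCount
import Fermat.Agent.CFT.Global.Second.IdeleNormPrime

/-!
# The second inequality in idelic form (assembly)

`L/K` a Galois extension of number fields of prime degree `p`, `T` a finite set of rational
primes such that the unit ideles trivial at `T` are norms from `L` (true when `T` contains the
primes ramified in `L`: unramified local units are norms).  Then
`[J_K : Kˣ · N_{L/K} J_L] ≤ p` (and the index is finite).

Inputs: the analytic ideal-theoretic second inequality (`Second/…`, helper20 + helper27), its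
abstract idelic translation (`Second/SecondIdele.lean`, helper27), the content dictionary
(`DictIdeal.lean`) and the norm inputs (`Second/IdeleNorm.lean`, `IdeleNormPrime.lean`, helper20).
-/

set_option autoImplicit false
set_option linter.unusedSectionVars false

open scoped NumberField

noncomputable section

namespace Fermat.Agent.CFT.IdeleDict

open NumberField IsDedekindDomain Fermat.Agent.CFT Fermat.Agent.CFT.FirstIneq

/-- `‖(p : ℚ_q)‖ ≥ p⁻¹` for primes `p`, `q`. -/
theorem inv_le_norm_prime_padic (p q : ℕ) [hp : Fact p.Prime] [Fact q.Prime] :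
    ((p : ℝ))⁻¹ ≤ ‖((p : ℕ) : ℚ_[q])‖ := by
  by_cases h : q = p
  · subst h
    rw [Padic.norm_p]
  · have h1 : ‖((p : ℕ) : ℚ_[q])‖ = 1 := by
      have hle : ‖(((p : ℕ) : ℤ) : ℚ_[q])‖ ≤ 1 := Padic.norm_int_le_one _
      have hnlt : ¬ ‖(((p : ℕ) : ℤ) : ℚ_[q])‖ < 1 := by
        rw [Padic.norm_intCast_lt_one_iff]
        intro hdvd
        have : q ∣ p := by exact_mod_cast hdvd
        exact h ((Nat.prime_dvd_prime_iff_eq Fact.out hp.out).mp this)
      have := le_antisymm hle (not_lt.mp hnlt)
      simpa using this
    rw [h1]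
    apply inv_le_one_of_one_le₀
    exact_mod_cast hp.out.one_lt.le

variable {K L : Type} [Field K] [NumberField K] [Field L] [NumberField L] [Algebra K L]
  [IsGalois K L]

/-- **Second inequality, idelic form** (prime degree): if the unit ideles of `K` trivial at the
finite set `T` of rational primes are norms from `L`, then `Kˣ · N_{L/K} J_L` has finite index
`≤ p = [L : K]` in `J_K`. -/
theorem index_principal_sup_ideleNorm_le {p : ℕ} [hp : Fact p.Prime]
    (hdeg : Module.finrank K L = p) (T : Finset Nat.Primes)
    (hW1 : ∀ x : ideleGroup K,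
      (x : IdeleProd K) ∈ unitIdelesOutside K (T : Set Nat.Primes) → x ∈ ideleNormSubgroup K L) :
    (principalSubgroup K ⊔ ideleNormSubgroup K L).index ≠ 0 ∧
      (principalSubgroup K ⊔ ideleNormSubgroup K L).index ≤ p := by
  have hδ : (0 : ℝ) < ((p : ℝ)⁻¹) ^ p :=
    pow_pos (inv_pos.mpr (by exact_mod_cast hp.out.pos)) _
  have key := index_le_finrank_of_local (K := K) (L := L)
    (principalSubgroup K ⊔ ideleNormSubgroup K L) (p := p) ?_ T hδ le_sup_left
    (fun x hx => (le_sup_right : ideleNormSubgroup K L ≤ _) (hW1 x hx)) ?_ ?_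
  · rwa [hdeg] at key
  · -- exponent `p`
    intro x
    apply (le_sup_right : ideleNormSubgroup K L ≤ _)
    have := Second.pow_finrank_mem_ideleNormSubgroup L x
    rwa [hdeg] at this
  · -- ideles close to `1` at `T`
    intro x h1 h2
    apply (le_sup_right : ideleNormSubgroup K L ≤ _)
    refine Second.mem_ideleNormSubgroup_of_near_one L T x h1 fun q hq τ => ?_
    refine lt_of_lt_of_le (h2 q hq τ) ?_
    rw [hdeg, norm_natCast_padicAlgCl]
    exact pow_le_pow_left₀ (inv_nonneg.mpr (Nat.cast_nonneg p))
      (inv_le_norm_prime_padic p (q : ℕ)) p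
  · -- norms of primes
    intro w hw
    classical
    obtain ⟨q, x, hqw, hxN, hx1, hx2⟩ := Second.exists_mem_ideleNormSubgroup_relNorm (K := K) w
    have hqT : q ∉ T := by
      intro hqT
      apply hw q hqT
      show ((q : ℕ) : 𝓞 K) ∈ (w.asIdeal.under (𝓞 K))
      rw [Ideal.mem_comap, map_natCast]
      exact hqw
    have hne : Ideal.relNorm (𝓞 K) w.asIdeal ≠ ⊥ := by
      rw [Ne, Ideal.relNorm_eq_bot_iff]
      exact w.ne_bot
    refine ⟨x, relIdeal_of_count hne hqT hx1 fun P => ?_,
      (le_sup_right : ideleNormSubgroup K L ≤ principalSubgroup K ⊔ ideleNormSubgroup K L) hxN⟩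
    rw [hx2 P]

end Fermat.Agent.CFT.IdeleDict
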